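import Fermat.Agent.LTG.RBDefs
import Fermat.Agent.LT.Geo.LocInert

/-!
# LTG: the count at a bad totally ramified place

* `shf w M a b` : the function `a` on `HT w M`, `b` on `HB w M ∖ HT w M`, zero elsewhere;
* `rb_count` : the matching of `shf w (3m) a b` with `φ(td) · shf v m (a + 2(a + (q-1) b)) b`.
(helper54)
-/

set_option autoImplicit false
set_option linter.unusedSectionVars false

open NumberField IsDedekindDomain Matrix
open Fermat.Agent.LT.D Fermat.Agent.LT.CTree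

namespace Fermat.LT

section fn

variable {F : Type} [Field F] [NumberField F] (w : Pl F) (M : ℕ)

open Classical in
/-- `a` on `HT w M`, `b` on `HB w M ∖ HT w M`, zero elsewhere -/
noncomputable def shf (a b : ℂ) (g : G2 F) : ℂ :=
  if g ∈ HT w M then a else if g ∈ HB w M then b else 0

variable {w M} {a b : ℂ} {g : G2 F}

theorem shf_HT (h : g ∈ HT w M) : shf w M a b g = a := if_pos h

theorem shf_HB (h : g ∈ HB w M) (h' : g ∉ HT w M) : shf w M a b g = b := by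
  unfold shf
  rw [if_neg h', if_pos h]

theorem shf_out (h : g ∉ HB w M) : shf w M a b g = 0 := by
  unfold shf
  rw [if_neg fun h' => h (HT_le_HB w M h'), if_neg h]

theorem mem_HB_of_shf (h : shf w M a b g ≠ 0) : g ∈ HB w M := by
  by_contra hc
  exact h (shf_out hc)

theorem mem_sandwich_iff {G : Type} [Group G] {H : Subgroup G} {h g h' : G} (hh : h ∈ H)
    (hh' : h' ∈ H) : h * g * h' ∈ H ↔ g ∈ H := by
  rw [Subgroup.mul_mem_cancel_right _ hh', Subgroup.mul_mem_cancel_left _ hh]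

variable (w M a b)

theorem biInv_shf : BiInv (HT w M) (shf w M a b) := by
  intro h hh h' hh' g
  unfold shf
  rw [mem_sandwich_iff hh hh', mem_sandwich_iff (HT_le_HB w M hh) (HT_le_HB w M hh')]

theorem shf_eq : shf w M a b = fun g => (a - b) * unitF (HT w M) g + b * unitF (HB w M) g := by
  funext g
  unfold unitF
  by_cases h : g ∈ HT w M
  · rw [shf_HT h, if_pos h, if_pos (HT_le_HB w M h)]
    ring
  · by_cases h' : g ∈ HB w M
    · rw [shf_HB h' h, if_neg h, if_pos h']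
      ring
    · rw [shf_out h', if_neg h, if_neg h']
      ring

theorem finS_shf : FinS (HT w M) (shf w M a b) := by
  rw [shf_eq]
  exact finS_add (finS_smul _ finS_unitF) (finS_smul _ (finS_unitF_HB w M))

theorem ew_eq_shf : ew w M = shf w M (1 - 1 / (qv w : ℂ)) (-(1 / (qv w : ℂ))) := by
  rw [shf_eq, ew_eq]
  funext g
  ring

theorem symF_shf : SymF (shf w M a b) := by
  intro g
  rw [shf_eq]
  change (a - b) * unitF (HT w M) g⁻¹ + b * unitF (HB w M) g⁻¹ = _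
  rw [symF_unitF, symF_unitF]

theorem norm_shf (g : G2 F) : ((‖shf w M a b g‖ : ℝ) : ℂ) = shf w M (‖a‖ : ℝ) (‖b‖ : ℝ) g := by
  by_cases h : g ∈ HT w M
  · rw [shf_HT h, shf_HT h]
  · by_cases h' : g ∈ HB w M
    · rw [shf_HB h' h, shf_HB h' h]
    · rw [shf_out h', shf_out h', norm_zero, Complex.ofReal_zero]

theorem finsum_if_rep (w : Pl F) (a b : ℂ) :
    ∑ᶠ c : 𝓞 F ⧸ w.asIdeal, (open Classical in if av w (rep w c) < 1 then a else b) =
      a + ((qv w : ℂ) - 1) * b := by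
  classical
  have := Fintype.ofFinite (𝓞 F ⧸ w.asIdeal)
  obtain ⟨c₀, hc₀, hu⟩ := existsUnique_rep w (x := 0) (by rw [map_zero]; exact zero_le_one)
  have h0 : ∀ c, av w (rep w c) < 1 ↔ c = c₀ := by
    intro c
    constructor
    · intro h
      refine hu c ?_
      change av w (0 - rep w c) < 1
      rwa [zero_sub, (av w).map_neg]
    · rintro rfl
      have h1 : av w (0 - rep w c) < 1 := hc₀
      rwa [zero_sub, (av w).map_neg] at h1
  have e : ∀ c : 𝓞 F ⧸ w.asIdeal, (if av w (rep w c) < 1 then a else b) =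
      b + if c = c₀ then a - b else 0 := by
    intro c
    by_cases h : c = c₀
    · rw [if_pos h, if_pos ((h0 c).mpr h)]
      ring
    · rw [if_neg h, if_neg (mt (h0 c).mp h), add_zero]
  rw [finsum_eq_sum_of_fintype]
  simp only [e]
  rw [Finset.sum_add_distrib, Finset.sum_const, Finset.card_univ, Finset.sum_ite_eq', if_pos
    (Finset.mem_univ _), nsmul_eq_mul, qv_eq_card, Nat.card_eq_fintype_card]
  ring

end fn

section conj

variable {K L : Type} [Field K] [NumberField K] [Field L] [NumberField L] [Algebra K L]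
  {C : Cub K L} {v : Pl K} {w : Pl L} {m : ℕ}

theorem mem_stdH_of_det {F : Type} [Field F] [NumberField F] {w : Pl F} {g : G2 F}
    (h : nm w g.1 ^ 2 ≤ av w g.1.det) : g ∈ stdH w := by
  rw [mem_stdH, Fermat.Agent.LT.CTree.nm_inv]
  have h0 : 0 < av w g.1.det := (av w).pos (Fermat.Agent.LT.CTree.det_ne_zero g)
  have e : nm w g.1 * ((av w g.1.det)⁻¹ * nm w g.1) = nm w g.1 ^ 2 / av w g.1.det := by
    field_simp
  rw [e]
  exact (div_le_one h0).mpr h

/-- conjugation of the level by the twisting elements -/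
theorem conj_dg_mem (hr : Ram C v w) {x : Lˣ} (hx1 : av w (x : L) ≤ 1)
    (hx2 : (qv w)⁻¹ ^ 2 ≤ av w (x : L)) {h : G2 K} (hh : h ∈ HT v m) :
    (dg x)⁻¹ * Cub.Inc h * dg x ∈ HT w (3 * m) := by
  set g : G2 L := (dg x)⁻¹ * Cub.Inc h * dg x with hg
  have hx0 : (x : L) ≠ 0 := x.ne_zero
  have hxp : 0 < av w (x : L) := (av w).pos hx0
  have hq := qv_pos v
  have hqe := hr.q_eq
  -- the matrix
  have hI : (Cub.Inc (L := L) h).1 = !![algebraMap K L (h.1 0 0), algebraMap K L (h.1 0 1);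
      algebraMap K L (h.1 1 0), algebraMap K L (h.1 1 1)] := by
    rw [Cub.coe_Inc]
    ext i j
    fin_cases i <;> fin_cases j <;> simp [Cub.inc_apply]
  have hgv : g.1 = !![algebraMap K L (h.1 0 0), (x : L)⁻¹ * algebraMap K L (h.1 0 1);
      algebraMap K L (h.1 1 0) * x, algebraMap K L (h.1 1 1)] := by
    have h1 : dg x * g = Cub.Inc h * dg x := by rw [hg]; group
    have h2 : (dg x).1 * !![algebraMap K L (h.1 0 0), (x : L)⁻¹ * algebraMap K L (h.1 0 1);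
      algebraMap K L (h.1 1 0) * x, algebraMap K L (h.1 1 1)] = (Cub.Inc h * dg x : G2 L).1 := by
      rw [Units.val_mul, hI, Fermat.Agent.LT.CTree.dg_val]
      ext i j
      fin_cases i <;> fin_cases j <;> simp [Matrix.mul_apply, Fin.sum_univ_two, hx0, mul_comm]
    have h3 : (dg x).1 * g.1 = (dg x).1 * !![algebraMap K L (h.1 0 0),
        (x : L)⁻¹ * algebraMap K L (h.1 0 1);
      algebraMap K L (h.1 1 0) * x, algebraMap K L (h.1 1 1)] := by
      rw [h2, ← h1]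
      exact (Units.val_mul _ _).symm
    exact (Units.mul_right_inj (dg x)).mp h3
  set N : ℝ := nm v h.1 with hN
  have hNp : 0 < N := nm_pos v h
  obtain ⟨d0, d1⟩ := av_diag_of_mem v m hh.1
  have hdet := av_det_of_mem v hh.1.1
  have e00 : av w (algebraMap K L (h.1 0 0)) = N ^ 3 := by rw [hr.av_eq, d0]
  have e11 : av w (algebraMap K L (h.1 1 1)) = N ^ 3 := by rw [hr.av_eq, d1]
  -- the upper right entry
  have k01 : av v (h.1 0 1) ≤ N * (qv v)⁻¹ := by
    have h1 : av v (h.1 0 1 / h.1 0 0) < 1 := by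
      rw [map_div₀, d0, div_lt_one hNp]
      exact hh.2
    have h2 := (av_lt_one_iff_le v).mp h1
    rw [map_div₀, d0, div_le_iff₀ hNp] at h2
    rwa [mul_comm]
  have e01 : av w ((x : L)⁻¹ * algebraMap K L (h.1 0 1)) < N ^ 3 := by
    rw [map_mul, map_inv₀, hr.av_eq]
    have h1 : (av w (x : L))⁻¹ ≤ qv v ^ 2 := by
      rw [hqe] at hx2
      have h2 := inv_anti₀ (by positivity) hx2
      rwa [inv_pow, inv_inv] at h2
    have h3 : av v (h.1 0 1) ^ 3 ≤ (N * (qv v)⁻¹) ^ 3 := pow_le_pow_left₀ ((av v).nonneg _) k01 3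
    calc (av w (x : L))⁻¹ * av v (h.1 0 1) ^ 3 ≤ qv v ^ 2 * (N * (qv v)⁻¹) ^ 3 :=
          mul_le_mul h1 h3 (by positivity) (by positivity)
      _ = N ^ 3 * (qv v)⁻¹ := by field_simp
      _ < N ^ 3 * 1 := mul_lt_mul_of_pos_left (inv_lt_one_of_one_lt₀ (one_lt_qv v)) (by positivity)
      _ = N ^ 3 := mul_one _
  -- the lower left entry
  have e10 : av w (algebraMap K L (h.1 1 0) * x) ≤ av v (h.1 1 0) ^ 3 := by
    rw [map_mul, hr.av_eq]
    exact mul_le_of_le_one_right (by positivity) hx1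
  have k10 : av v (h.1 1 0) ^ 3 < N ^ 3 := pow_lt_pow_left₀ hh.1.2.1 ((av v).nonneg _) (by decide)
  have hnm : nm w g.1 = N ^ 3 := by
    apply le_antisymm
    · rw [nm_le_iff]
      intro i j
      rw [hgv]
      fin_cases i <;> fin_cases j
      · exact e00.le
      · exact e01.le
      · exact e10.trans k10.le
      · exact e11.le
    · rw [← e00]
      have := av_le_nm w g.1 0 0
      rw [hgv] at this ⊢
      exact this
  have hdt : av w g.1.det = (N ^ 3) ^ 2 := by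
    have h1 : g.1.det = algebraMap K L h.1.det := by
      rw [hgv, Matrix.det_fin_two, Matrix.det_fin_two]
      simp only [Matrix.of_apply, Matrix.cons_val', Matrix.cons_val_zero, Matrix.cons_val_one,
        Matrix.cons_val_fin_one, map_sub, map_mul]
      field_simp
    rw [h1, hr.av_eq, hdet]
    ring
  have hst : g ∈ stdH w := mem_stdH_of_det (by rw [hnm, hdt])
  rw [mem_HT', hnm]
  have g10 : g.1 1 0 = algebraMap K L (h.1 1 0) * x := by rw [hgv]; rfl
  have g01 : g.1 0 1 = (x : L)⁻¹ * algebraMap K L (h.1 0 1) := by rw [hgv]; rfl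
  rw [g10, g01]
  refine ⟨hst, ⟨e10.trans_lt k10, e10.trans ?_⟩, e01⟩
  calc av v (h.1 1 0) ^ 3 ≤ (N * (qv v)⁻¹ ^ m) ^ 3 :=
        pow_le_pow_left₀ ((av v).nonneg _) hh.1.2.2 3
    _ = N ^ 3 * (qv w)⁻¹ ^ (3 * m) := by rw [hqe, mul_pow, ← pow_mul, mul_comm m 3]

end conj

section count

variable {K L : Type} [Field K] [NumberField K] [Field L] [NumberField L] [Algebra K L]
  {C : Cub K L} {v : Pl K} {w : Pl L} {m : ℕ} {γ : G2 K} {δ t : G2 L} {d : Fin 3 → Lˣ}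

/-- the injectivity of `(j, z, b) ↦ z diag(d_j, 1) un(b)` -/
def RBInj (v : Pl K) (w : Pl L) (m : ℕ) (d : Fin 3 → Lˣ) : Prop :=
  ∀ (j j' : Fin 3) (z z' : G2 K) (b b' : L), av w b ≤ 1 → av w b' ≤ 1 →
    (Cub.Inc z * dg (d j) * un b : G2 L)⁻¹ * (Cub.Inc z' * dg (d j') * un b') ∈ HT w (3 * m) →
    (j = 0 → b = 0) → (j' = 0 → b' = 0) →
      j = j' ∧ z⁻¹ * z' ∈ HT v m ∧ (z = z' → av w (b - b') < 1)

/-- the relation between `g ∈ GL₂(L)` and `z ∈ GL₂(K)` -/
def RBRel (v : Pl K) (w : Pl L) (m : ℕ) (γ : G2 K) (t : G2 L) (d : Fin 3 → Lˣ) (g : G2 L)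
    (z : G2 K) : Prop :=
  (z⁻¹ * γ * z ∈ HB v m ∧ av v (td γ) < 1 ∧ (t * Cub.Inc z)⁻¹ * g ∈ HT w (3 * m)) ∨
  (∃ j : Fin 3, j ≠ 0 ∧ z⁻¹ * γ * z ∈ HT v m ∧ av v (td γ) < 1 ∧
    (t * Cub.Inc z * dg (d j))⁻¹ * g ∈ HB w (3 * m))

theorem RBRel.lt {g : G2 L} {z : G2 K} (h : RBRel v w m γ t d g z) : av v (td γ) < 1 := by
  rcases h with h | ⟨j, h⟩
  · exact h.2.1
  · exact h.2.2.1

theorem RBRel.mem {g : G2 L} {z : G2 K} (h : RBRel v w m γ t d g z) :
    z⁻¹ * γ * z ∈ HB v m := by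
  rcases h with h | ⟨j, h⟩
  · exact h.1
  · exact HT_le_HB v m h.2.1

theorem exists_un {a g : G2 L} (h : a⁻¹ * g ∈ HB w m) :
    ∃ c : 𝓞 L ⧸ w.asIdeal, (a * un (rep w c))⁻¹ * g ∈ HT w m := by
  obtain ⟨c, hc, -⟩ := existsUnique_HT w m h
  refine ⟨c, ?_⟩
  have e : (a * un (rep w c))⁻¹ * g = (un (rep w c))⁻¹ * (a⁻¹ * g) := by group
  rw [e]
  exact hc

theorem dg_zero (hd : RBd C w d) : dg (d 0) = 1 := by
  rw [hd.zero]
  apply Units.ext
  rw [Fermat.Agent.LT.CTree.dg_val, Units.val_one]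
  ext i j
  fin_cases i <;> fin_cases j <;> simp

theorem RBRel.rep (hd : RBd C w d) {g : G2 L} {z : G2 K} (h : RBRel v w m γ t d g z) :
    ∃ (j : Fin 3) (b : L), av w b ≤ 1 ∧ (j = 0 → b = 0) ∧
      (t * (Cub.Inc z * dg (d j) * un b))⁻¹ * g ∈ HT w (3 * m) := by
  rcases h with h | ⟨j, hj, h⟩
  · refine ⟨0, 0, by rw [map_zero]; exact zero_le_one, fun _ => rfl, ?_⟩
    rw [dg_zero hd, un_zero, mul_one, mul_one]
    exact h.2.2
  · obtain ⟨c, hc⟩ := exists_un h.2.2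
    refine ⟨j, Fermat.Agent.LT.CTree.rep w c, av_rep_le w c, fun h' => absurd h' hj, ?_⟩
    rw [← mul_assoc, ← mul_assoc]
    exact hc

theorem RBRel.uniq (hd : RBd C w d) (hi : RBInj v w m d) {g : G2 L} {z z' : G2 K}
    (h : RBRel v w m γ t d g z) (h' : RBRel v w m γ t d g z') : z⁻¹ * z' ∈ HT v m := by
  obtain ⟨j, b, hb, hb0, h1⟩ := h.rep hd
  obtain ⟨j', b', hb', hb0', h1'⟩ := h'.rep hd
  refine (hi j j' z z' b b' hb hb' ?_ hb0 hb0').2.1
  have h2 := mul_mem h1 (inv_mem h1')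
  have e : (t * (Cub.Inc z * dg (d j) * un b))⁻¹ * g *
      ((t * (Cub.Inc z' * dg (d j') * un b'))⁻¹ * g)⁻¹ =
      (Cub.Inc z * dg (d j) * un b : G2 L)⁻¹ * (Cub.Inc z' * dg (d j') * un b') := by group
  rwa [e] at h2

theorem RBRel.mul_right {g h : G2 L} {z : G2 K} (hh : h ∈ HT w (3 * m)) :
    RBRel v w m γ t d (g * h) z ↔ RBRel v w m γ t d g z := by
  unfold RBRel
  rw [← mul_assoc, Subgroup.mul_mem_cancel_right _ hh]
  refine or_congr Iff.rfl (exists_congr fun j => ?_)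
  rw [← mul_assoc, Subgroup.mul_mem_cancel_right _ (HT_le_HB w _ hh)]

theorem RBRel.change (hr : Ram C v w) (hd : RBd C w d) {g : G2 L} {z z' : G2 K}
    (hz : z⁻¹ * z' ∈ HT v m) (h : RBRel v w m γ t d g z) : RBRel v w m γ t d g z' := by
  have hc : ∀ j : Fin 3, (dg (d j))⁻¹ * Cub.Inc (z⁻¹ * z') * dg (d j) ∈ HT w (3 * m) := by
    intro j
    have hq : (qv w)⁻¹ ≤ 1 := inv_le_one_of_one_le₀ (one_lt_qv w).le
    have hq0 : 0 ≤ (qv w)⁻¹ := inv_nonneg.mpr (qv_pos w).le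
    refine conj_dg_mem hr ?_ ?_ hz
    · rw [hd.val]
      exact pow_le_one₀ hq0 hq
    · rw [hd.val]
      exact pow_le_pow_of_le_one hq0 hq (Nat.lt_succ_iff.mp j.2)
  have e : z'⁻¹ * γ * z' = (z⁻¹ * z')⁻¹ * (z⁻¹ * γ * z) * (z⁻¹ * z') := by group
  rcases h with ⟨h1, h2, h3⟩ | ⟨j, hj, h1, h2, h3⟩
  · refine Or.inl ⟨?_, h2, ?_⟩
    · rw [e]
      exact (mem_sandwich_iff (inv_mem (HT_le_HB v m hz)) (HT_le_HB v m hz)).mpr h1
    · have h4 := hc 0
      rw [dg_zero hd, inv_one, one_mul, mul_one] at h4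
      have e2 : (t * Cub.Inc z')⁻¹ * g =
          (Cub.Inc (z⁻¹ * z'))⁻¹ * ((t * Cub.Inc z)⁻¹ * g) := by
        rw [map_mul, map_inv]
        group
      rw [e2]
      exact mul_mem (inv_mem h4) h3
  · refine Or.inr ⟨j, hj, ?_, h2, ?_⟩
    · rw [e]
      exact (mem_sandwich_iff (inv_mem hz) hz).mpr h1
    · have e2 : (t * Cub.Inc z' * dg (d j))⁻¹ * g =
          ((dg (d j))⁻¹ * Cub.Inc (z⁻¹ * z') * dg (d j))⁻¹ *
            ((t * Cub.Inc z * dg (d j))⁻¹ * g) := by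
        rw [map_mul, map_inv]
        group
      rw [e2]
      exact mul_mem (inv_mem (HT_le_HB w _ (hc j))) h3

/-- the twisted difference -/
def Tw (C : Cub K L) (δ g : G2 L) : G2 L := g⁻¹ * δ * C.S g

theorem Tw_mul (C : Cub K L) (δ g h : G2 L) : Tw C δ (g * h) = h⁻¹ * Tw C δ g * C.S h := by
  unfold Tw
  rw [map_mul]
  group

theorem S_mem_HT (hr : Ram C v w) {M : ℕ} {h : G2 L} (hh : h ∈ HT w M) : C.S h ∈ HT w M := by
  have h1 := (HT_pl C M w h).mpr hh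
  rwa [hr.fix] at h1

theorem S_mem_HB (hr : Ram C v w) {M : ℕ} {h : G2 L} (hh : h ∈ HB w M) : C.S h ∈ HB w M := by
  have h1 := (HB_pl C M w h).mpr hh
  rwa [hr.fix] at h1

theorem Tw_HT_iff (hr : Ram C v w) {M : ℕ} {g h : G2 L} (hh : h ∈ HT w M) :
    Tw C δ (g * h) ∈ HT w M ↔ Tw C δ g ∈ HT w M := by
  rw [Tw_mul]
  exact mem_sandwich_iff (inv_mem hh) (S_mem_HT hr hh)

theorem Tw_HB_iff (hr : Ram C v w) {M : ℕ} {g h : G2 L} (hh : h ∈ HB w M) :
    Tw C δ (g * h) ∈ HB w M ↔ Tw C δ g ∈ HB w M := by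
  rw [Tw_mul]
  exact mem_sandwich_iff (inv_mem hh) (S_mem_HB hr hh)

theorem RBRel.om (hr : Ram C v w) (hM : RBMatch C v w m γ δ t d) {g : G2 L} {z : G2 K}
    (h : RBRel v w m γ t d g z) : Tw C δ g ∈ HB w (3 * m) := by
  rcases h with ⟨h1, h2, h3⟩ | ⟨j, hj, h1, h2, h3⟩
  · have e : g = t * Cub.Inc z * ((t * Cub.Inc z)⁻¹ * g) := by group
    rw [e, Tw_HB_iff hr (HT_le_HB w _ h3)]
    exact (hM.fwdB z).mpr ⟨h1, h2⟩
  · have e : g = t * Cub.Inc z * dg (d j) * ((t * Cub.Inc z * dg (d j))⁻¹ * g) := by group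
    rw [e, Tw_HB_iff hr h3]
    have h4 := (hM.fwdj j hj z h1 h2 0 (by rw [map_zero]; exact zero_le_one)).1
    rw [un_zero, mul_one] at h4
    exact h4

theorem exists_RBRel (hM : RBMatch C v w m γ δ t d) {g : G2 L}
    (h : Tw C δ g ∈ HB w (3 * m)) : ∃ z, RBRel v w m γ t d g z := by
  rcases hM.bwd g h with ⟨z, hz⟩ | ⟨j, hj, z, hz⟩
  · exact ⟨z, Or.inl hz⟩
  · exact ⟨z, Or.inr ⟨j, hj, hz⟩⟩

/-- equivariance -/
theorem RBRel.smul_iff {s : G2 K} (hs : s * γ = γ * s)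
    (ht : Cub.Inc s * t = t * Cub.Inc (L := L) s) {g : G2 L} {z : G2 K} :
    RBRel v w m γ t d (Cub.Inc s * g) (s * z) ↔ RBRel v w m γ t d g z := by
  have e1 : (s * z)⁻¹ * γ * (s * z) = z⁻¹ * γ * z := by
    have : (s * z)⁻¹ * γ * (s * z) = z⁻¹ * (s⁻¹ * (γ * s)) * z := by group
    rw [this, ← hs]
    group
  have e2 : (t * Cub.Inc (s * z))⁻¹ * (Cub.Inc s * g) = (t * Cub.Inc z)⁻¹ * g := by
    have h1 : t * Cub.Inc (s * z) = Cub.Inc s * (t * Cub.Inc z) := by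
      rw [map_mul, ← mul_assoc, ← ht, mul_assoc]
    rw [h1]
    group
  have e3 : ∀ j, (t * Cub.Inc (s * z) * dg (d j))⁻¹ * (Cub.Inc s * g) =
      (t * Cub.Inc z * dg (d j))⁻¹ * g := by
    intro j
    have h1 : t * Cub.Inc (s * z) * dg (d j) = Cub.Inc s * (t * Cub.Inc z * dg (d j)) := by
      rw [map_mul, ← mul_assoc, ← ht]
      group
    rw [h1]
    group
  unfold RBRel
  rw [e1, e2]
  simp only [e3]

/-- the points above `z` -/
noncomputable def rbPt (w : Pl L) (t : G2 L) (d : Fin 3 → Lˣ) (z : G2 K) :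
    Option (Fin 2 × (𝓞 L ⧸ w.asIdeal)) → G2 L
  | none => t * Cub.Inc z
  | some (j, c) => t * Cub.Inc z * dg (d j.succ) * un (Fermat.Agent.LT.CTree.rep w c)

theorem rbPt_rel {z : G2 K} (hz : z⁻¹ * γ * z ∈ HT v m) (hx : av v (td γ) < 1)
    (i : Option (Fin 2 × (𝓞 L ⧸ w.asIdeal))) : RBRel v w m γ t d (rbPt w t d z i) z := by
  rcases i with _ | ⟨j, c⟩
  · refine Or.inl ⟨HT_le_HB v m hz, hx, ?_⟩
    change (t * Cub.Inc z)⁻¹ * (t * Cub.Inc z) ∈ _
    rw [inv_mul_cancel]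
    exact one_mem _
  · refine Or.inr ⟨j.succ, Fin.succ_ne_zero j, hz, hx, ?_⟩
    change (t * Cub.Inc z * dg (d j.succ))⁻¹ *
      (t * Cub.Inc z * dg (d j.succ) * un (Fermat.Agent.LT.CTree.rep w c)) ∈ _
    rw [inv_mul_cancel_left]
    exact un_mem_HB w _ (av_rep_le w c)

theorem rbPt_inj (hd : RBd C w d) (hi : RBInj v w m d) {z : G2 K}
    {i i' : Option (Fin 2 × (𝓞 L ⧸ w.asIdeal))}
    (h : (rbPt w t d z i)⁻¹ * rbPt w t d z i' ∈ HT w (3 * m)) : i = i' := by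
  -- a uniform description
  have key : ∀ i : Option (Fin 2 × (𝓞 L ⧸ w.asIdeal)), ∃ (j : Fin 3) (b : L), av w b ≤ 1 ∧
      (j = 0 → b = 0) ∧ rbPt w t d z i = t * (Cub.Inc z * dg (d j) * un b) ∧
      (i = none → j = 0) ∧ (∀ k c, i = some (k, c) →
        j = Fin.succ k ∧ b = Fermat.Agent.LT.CTree.rep w c) := by
    intro i
    rcases i with _ | ⟨k, c⟩
    · refine ⟨0, 0, by rw [map_zero]; exact zero_le_one, fun _ => rfl, ?_, fun _ => rfl, ?_⟩
      · rw [dg_zero hd, un_zero, mul_one, mul_one]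
        rfl
      · intro k c h
        cases h
    · refine ⟨k.succ, Fermat.Agent.LT.CTree.rep w c, av_rep_le w c,
        fun h' => absurd h' (Fin.succ_ne_zero k), ?_, fun h' => (by cases h'), ?_⟩
      · rw [← mul_assoc, ← mul_assoc]
        rfl
      · intro k' c' h'
        cases h'
        exact ⟨rfl, rfl⟩
  obtain ⟨j, b, hb, hb0, e, n1, n2⟩ := key i
  obtain ⟨j', b', hb', hb0', e', n1', n2'⟩ := key i'
  rw [e, e'] at h
  have e3 : (t * (Cub.Inc z * dg (d j) * un b))⁻¹ * (t * (Cub.Inc z * dg (d j') * un b')) =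
      (Cub.Inc z * dg (d j) * un b : G2 L)⁻¹ * (Cub.Inc z * dg (d j') * un b') := by group
  rw [e3] at h
  obtain ⟨h1, -, h2⟩ := hi j j' z z b b' hb hb' h hb0 hb0'
  have h3 := h2 rfl
  rcases i with _ | ⟨k, c⟩
  · rcases i' with _ | ⟨k', c'⟩
    · rfl
    · exfalso
      have := (n2' k' c' rfl).1
      rw [← h1, n1 rfl] at this
      exact Fin.succ_ne_zero k' this.symm
  · rcases i' with _ | ⟨k', c'⟩
    · exfalso
      have := (n2 k c rfl).1
      rw [h1, n1' rfl] at this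
      exact Fin.succ_ne_zero k this.symm
    · obtain ⟨a1, a2⟩ := n2 k c rfl
      obtain ⟨a1', a2'⟩ := n2' k' c' rfl
      rw [a2, a2'] at h3
      have h4 := (rep_close w).mp h3
      have h5 : k = k' := Fin.succ_injective _ (by rw [← a1, ← a1', h1])
      rw [h4, h5]

theorem rbPt_surj {z : G2 K} {g : G2 L} (h : RBRel v w m γ t d g z) :
    ∃ i, (rbPt w t d z i)⁻¹ * g ∈ HT w (3 * m) := by
  rcases h with ⟨-, -, h3⟩ | ⟨j, hj, -, -, h3⟩
  · exact ⟨none, h3⟩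
  · obtain ⟨k, rfl⟩ := Fin.exists_succ_eq.mpr hj
    obtain ⟨c, hc⟩ := exists_un h3
    exact ⟨some (k, c), hc⟩

open Classical in
theorem shf_Tw_rbPt (hM : RBMatch C v w m γ δ t d) {z : G2 K} (hz : z⁻¹ * γ * z ∈ HT v m)
    (hx : av v (td γ) < 1) (a b : ℂ) (i : Option (Fin 2 × (𝓞 L ⧸ w.asIdeal))) :
    shf w (3 * m) a b (Tw C δ (rbPt w t d z i)) = match i with
      | none => a
      | some (_, c) => if av w (Fermat.Agent.LT.CTree.rep w c) < 1 then a else b := by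
  rcases i with _ | ⟨k, c⟩
  · exact shf_HT ((hM.fwdT z).mpr ⟨hz, hx⟩)
  · obtain ⟨h1, h2⟩ := hM.fwdj k.succ (Fin.succ_ne_zero k) z hz hx
      (Fermat.Agent.LT.CTree.rep w c) (av_rep_le w c)
    change shf w (3 * m) a b (Tw C δ (t * Cub.Inc z * dg (d k.succ) *
      un (Fermat.Agent.LT.CTree.rep w c))) = if _ then a else b
    by_cases hc : av w (Fermat.Agent.LT.CTree.rep w c) < 1
    · rw [if_pos hc]
      exact shf_HT (h2.mpr hc)
    · rw [if_neg hc]
      exact shf_HB h1 (mt h2.mp hc)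

theorem sum_shf_Tw_rbPt (hr : Ram C v w) (hM : RBMatch C v w m γ δ t d) {z : G2 K}
    (hz : z⁻¹ * γ * z ∈ HT v m) (hx : av v (td γ) < 1) (a b : ℂ) :
    ∑ᶠ i, shf w (3 * m) a b (Tw C δ (rbPt w t d z i)) =
      a + 2 * (a + ((qv v : ℂ) - 1) * b) := by
  classical
  have := Fintype.ofFinite (𝓞 L ⧸ w.asIdeal)
  have h1 := finsum_if_rep w a b
  rw [finsum_eq_sum_of_fintype] at h1
  rw [finsum_eq_sum_of_fintype, Fintype.sum_option]
  simp only [shf_Tw_rbPt hM hz hx]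
  rw [Fintype.sum_prod_type]
  simp only [h1, Fin.sum_univ_two, hr.q_eq]
  ring

open Classical in
/-- **The count at a bad totally ramified place.** -/
theorem rb_count (hr : Ram C v w) (hd : RBd C w d) (hi : RBInj v w m d)
    (hc : GeoDatum.Corr C γ δ) (hM : RBMatch C v w m γ δ t d) {H : Subgroup (G2 L)}
    (hH : H = HT w (3 * m)) {H' : Subgroup (G2 K)} (hH' : H' = HT v m)
    (tw : G2 L ⧸ H → G2 L ⧸ H)
    (htw : ∀ g : G2 L, tw (g : G2 L ⧸ H) = ((δ * C.S g : G2 L) : G2 L ⧸ H)) :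
    ∃ P : G2 L ⧸ H → G2 K ⧸ H',
      (∀ a b z, {y | P y = z ∧ kw H (shf w (3 * m) a b) y (tw y) ≠ 0}.Finite) ∧
      (∀ a b z, ∑ᶠ y ∈ {y | P y = z ∧ kw H (shf w (3 * m) a b) y (tw y) ≠ 0},
        kw H (shf w (3 * m) a b) y (tw y) = (if av v (td γ) < 1 then 1 else 0) *
          kw H' (shf v m (a + 2 * (a + ((qv v : ℂ) - 1) * b)) b) z (γ • z)) ∧
      (∀ s : G2 K, s * γ = γ * s → ∀ a b y, kw H (shf w (3 * m) a b) y (tw y) ≠ 0 →
        P (Cub.Inc (L := L) s • y) = s • P y) := by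
  subst hH hH'
  have hW : ∀ a b (g : G2 L), kw (HT w (3 * m)) (shf w (3 * m) a b)
      (g : G2 L ⧸ HT w (3 * m)) (tw g) = shf w (3 * m) a b (Tw C δ g) := by
    intro a b g
    rw [htw, kw_mk (biInv_shf w (3 * m) a b), ← mul_assoc]
    rfl
  have hK : ∀ a b (z : G2 K), kw (HT v m) (shf v m a b) (z : G2 K ⧸ HT v m)
      (γ • (z : G2 K ⧸ HT v m)) = shf v m a b (z⁻¹ * γ * z) := by
    intro a b z
    change kw (HT v m) (shf v m a b) (z : G2 K ⧸ HT v m) ((γ * z : G2 K) : G2 K ⧸ HT v m) = _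
    rw [kw_mk (biInv_shf v m a b), ← mul_assoc]
  let P : G2 L ⧸ HT w (3 * m) → G2 K ⧸ HT v m := fun y =>
    if h : ∃ z, RBRel v w m γ t d y.out z then (h.choose : G2 K ⧸ HT v m) else ((1 : G2 K) : _)
  have hP : ∀ (g : G2 L) (z : G2 K), RBRel v w m γ t d g z →
      P (g : G2 L ⧸ HT w (3 * m)) = (z : G2 K ⧸ HT v m) := by
    intro g z h
    obtain ⟨u, hu⟩ := QuotientGroup.mk_out_eq_mul (HT w (3 * m)) g
    have h1 : RBRel v w m γ t d (g : G2 L ⧸ HT w (3 * m)).out z := by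
      rw [hu, RBRel.mul_right u.2]
      exact h
    have h2 : ∃ z, RBRel v w m γ t d (g : G2 L ⧸ HT w (3 * m)).out z := ⟨z, h1⟩
    have h3 : P (g : G2 L ⧸ HT w (3 * m)) = (h2.choose : G2 K ⧸ HT v m) := dif_pos h2
    rw [h3, QuotientGroup.eq]
    exact h2.choose_spec.uniq hd hi h1
  have hP' : ∀ (g : G2 L) (z : G2 K), Tw C δ g ∈ HB w (3 * m) →
      P (g : G2 L ⧸ HT w (3 * m)) = (z : G2 K ⧸ HT v m) → RBRel v w m γ t d g z := by
    intro g z h h'
    obtain ⟨z₀, hz₀⟩ := exists_RBRel hM h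
    rw [hP g z₀ hz₀, QuotientGroup.eq] at h'
    exact hz₀.change hr hd h'
  refine ⟨P, ?_, ?_, ?_⟩
  · intro a b z
    obtain ⟨z, rfl⟩ := QuotientGroup.mk_surjective z
    refine (Set.finite_range fun i => ((rbPt w t d z i : G2 L) : G2 L ⧸ HT w (3 * m))).subset ?_
    rintro y ⟨h1, h2⟩
    obtain ⟨g, rfl⟩ := QuotientGroup.mk_surjective y
    have h2' : kw (HT w (3 * m)) (shf w (3 * m) a b) (g : G2 L ⧸ HT w (3 * m)) (tw g) ≠ 0 := h2
    rw [hW] at h2'
    obtain ⟨i, hi'⟩ := rbPt_surj (hP' g z (mem_HB_of_shf h2') h1)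
    exact ⟨i, QuotientGroup.eq.mpr hi'⟩
  · intro a b z
    obtain ⟨z, rfl⟩ := QuotientGroup.mk_surjective z
    rw [hK]
    set f : G2 L ⧸ HT w (3 * m) → ℂ :=
      fun y => kw (HT w (3 * m)) (shf w (3 * m) a b) y (tw y) with hf
    change ∑ᶠ y ∈ {y | P y = (z : G2 K ⧸ HT v m) ∧ f y ≠ 0}, f y = _
    have hfg : ∀ g : G2 L, f (g : G2 L ⧸ HT w (3 * m)) = shf w (3 * m) a b (Tw C δ g) :=
      fun g => hW a b g
    -- the set is contained in the image of the relation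
    have hrel : ∀ g : G2 L, P (g : G2 L ⧸ HT w (3 * m)) = (z : G2 K ⧸ HT v m) →
        f (g : G2 L ⧸ HT w (3 * m)) ≠ 0 → RBRel v w m γ t d g z := by
      intro g h1 h2
      rw [hfg] at h2
      exact hP' g z (mem_HB_of_shf h2) h1
    by_cases hx : av v (td γ) < 1
    swap
    · have h0 : {y | P y = (z : G2 K ⧸ HT v m) ∧ f y ≠ 0} = ∅ := by
        refine Set.eq_empty_of_forall_notMem ?_
        rintro y ⟨h1, h2⟩
        obtain ⟨g, rfl⟩ := QuotientGroup.mk_surjective y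
        exact hx (hrel g h1 h2).lt
      rw [h0, finsum_mem_empty, if_neg hx, zero_mul]
    rw [if_pos hx, one_mul]
    by_cases hz : z⁻¹ * γ * z ∈ HT v m
    · rw [shf_HT hz, ← sum_shf_Tw_rbPt hr hM hz hx a b]
      have hinj : Function.Injective
          fun i => ((rbPt w t d z i : G2 L) : G2 L ⧸ HT w (3 * m)) := fun i i' h =>
        rbPt_inj hd hi (QuotientGroup.eq.mp h)
      have h1 : ∑ᶠ y ∈ {y | P y = (z : G2 K ⧸ HT v m) ∧ f y ≠ 0}, f y =
          ∑ᶠ y ∈ Set.range fun i => ((rbPt w t d z i : G2 L) : G2 L ⧸ HT w (3 * m)), f y := by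
        refine finsum_mem_inter_support_eq' f _ _ ?_
        intro y hy
        obtain ⟨g, rfl⟩ := QuotientGroup.mk_surjective y
        constructor
        · rintro ⟨h1, h2⟩
          obtain ⟨i, hi'⟩ := rbPt_surj (hrel g h1 h2)
          exact ⟨i, QuotientGroup.eq.mpr hi'⟩
        · rintro ⟨i, hi'⟩
          refine ⟨?_, hy⟩
          rw [← hi']
          exact hP _ z (rbPt_rel hz hx i)
      rw [h1, finsum_mem_range hinj]
      exact finsum_congr fun i => hfg _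
    · by_cases hz' : z⁻¹ * γ * z ∈ HB v m
      · have h1 : ∑ᶠ y ∈ {y | P y = (z : G2 K ⧸ HT v m) ∧ f y ≠ 0}, f y =
            ∑ᶠ y ∈ ({((t * Cub.Inc z : G2 L) : G2 L ⧸ HT w (3 * m))} :
              Set (G2 L ⧸ HT w (3 * m))), f y := by
          refine finsum_mem_inter_support_eq' f _ _ ?_
          intro y hy
          obtain ⟨g, rfl⟩ := QuotientGroup.mk_surjective y
          rw [Set.mem_singleton_iff]
          constructor
          · rintro ⟨h1, h2⟩
            rcases hrel g h1 h2 with ⟨-, -, h3⟩ | ⟨j, -, h3, -⟩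
            · exact (QuotientGroup.eq.mpr h3).symm
            · exact absurd h3 hz
          · intro h
            refine ⟨?_, hy⟩
            rw [h]
            refine hP _ z (Or.inl ⟨hz', hx, ?_⟩)
            rw [inv_mul_cancel]
            exact one_mem _
        rw [h1, finsum_mem_singleton, hfg, shf_HB hz' hz]
        exact shf_HB ((hM.fwdB z).mpr ⟨hz', hx⟩) fun h => hz ((hM.fwdT z).mp h).1
      · have h0 : {y | P y = (z : G2 K ⧸ HT v m) ∧ f y ≠ 0} = ∅ := by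
          refine Set.eq_empty_of_forall_notMem ?_
          rintro y ⟨h1, h2⟩
          obtain ⟨g, rfl⟩ := QuotientGroup.mk_surjective y
          exact hz' (hrel g h1 h2).mem
        rw [h0, finsum_mem_empty, shf_out hz']
  · intro s hs a b y hy
    obtain ⟨g, rfl⟩ := QuotientGroup.mk_surjective y
    have hy' : kw (HT w (3 * m)) (shf w (3 * m) a b) (g : G2 L ⧸ HT w (3 * m)) (tw g) ≠ 0 := hy
    rw [hW] at hy'
    obtain ⟨z, hz⟩ := exists_RBRel hM (mem_HB_of_shf hy')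
    have h2 : Cub.Inc (L := L) s ∈ Cub.Z (L := L) γ := by
      rw [Cub.mem_Z, ← map_mul, hs, map_mul]
    have h3 := Cub.Z_comm hc.1.not_isSc hM.mem_Z h2
    have h4 := (RBRel.smul_iff hs h3.symm).mpr hz
    change P ((Cub.Inc s * g : G2 L) : G2 L ⧸ HT w (3 * m)) = s • P (g : G2 L ⧸ HT w (3 * m))
    rw [hP _ _ h4, hP _ _ hz]
    rfl

end count

end Fermat.LT
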