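import Fermat.Agent.LTG.RBDefs
import Fermat.Agent.LT.Geo.Ram

/-!
# LTG: bad totally ramified places, levels and the twisting elements

* `HB_Inc_ram`, `HT_Inc_ram` : `HB w (3m) ∩ GL₂(K) = HB v m` at a totally ramified place;
* `exists_RBd` : existence of the twisting elements (Kummer theory).
(helper84)
-/

set_option autoImplicit false
set_option linter.unusedSectionVars false

open NumberField IsDedekindDomain Matrix
open Fermat.Agent.LT.D

namespace Fermat.LT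

variable {K L : Type} [Field K] [NumberField K] [Field L] [NumberField L] [Algebra K L]
  {C : Cub K L} {v : Pl K} {w : Pl L}

theorem stdH_Inc_ram (hr : Ram C v w) (g : G2 K) :
    (Cub.Inc g : G2 L) ∈ stdH w ↔ g ∈ stdH v := by
  rw [← Tr.dd_eq_one_iff, ← Tr.dd_eq_one_iff, hr.dd_Inc]
  exact pow_eq_one_iff_of_nonneg (Tr.dd_nonneg v g) (by norm_num)

theorem pow3_lt_iff {a b : ℝ} (ha : 0 ≤ a) (hb : 0 ≤ b) : a ^ 3 < b ^ 3 ↔ a < b :=
  pow_lt_pow_iff_left₀ ha hb (by norm_num)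

theorem pow3_le_iff {a b : ℝ} (ha : 0 ≤ a) (hb : 0 ≤ b) : a ^ 3 ≤ b ^ 3 ↔ a ≤ b :=
  pow_le_pow_iff_left₀ ha hb (by norm_num)

/-- levels -/
theorem HB_Inc_ram (hr : Ram C v w) (m : ℕ) (g : G2 K) :
    (Cub.Inc g : G2 L) ∈ HB w (3 * m) ↔ g ∈ HB v m := by
  have hq : (0 : ℝ) ≤ (qv v)⁻¹ ^ m := (qvM_pos v m).le
  rw [mem_HB, mem_HB, stdH_Inc_ram hr, Cub.coe_Inc, hr.nm_inc, Cub.inc_apply, hr.av_eq, hr.q_eq,
    pow3_lt_iff ((av v).nonneg _) (nm_nonneg v _), mul_comm 3 m, pow_mul, ← mul_pow,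
    pow3_le_iff ((av v).nonneg _) (mul_nonneg (nm_nonneg v _) hq)]

theorem HT_Inc_ram (hr : Ram C v w) (m : ℕ) (g : G2 K) :
    (Cub.Inc g : G2 L) ∈ HT w (3 * m) ↔ g ∈ HT v m := by
  rw [mem_HT, mem_HT, HB_Inc_ram hr, Cub.coe_Inc, hr.nm_inc, Cub.inc_apply, hr.av_eq,
    pow3_lt_iff ((av v).nonneg _) (nm_nonneg v _)]

/-- `2` is not a unit at a place with residue field `F₄` -/
theorem av_two_lt {F : Type} [Field F] [NumberField F] {w : Pl F} (h4 : qv w = 4) :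
    av w (2 : F) < 1 := by
  have h1 : Ideal.absNorm w.asIdeal = 4 := by
    have : ((Ideal.absNorm w.asIdeal : ℕ) : ℝ) = 4 := h4
    exact_mod_cast this
  have h2 : ((4 : ℕ) : 𝓞 F) ∈ w.asIdeal := by
    rw [← h1]; exact Ideal.absNorm_mem _
  have h3 : (2 : 𝓞 F) ∈ w.asIdeal := by
    have h4 : (2 : 𝓞 F) * 2 ∈ w.asIdeal := by
      have e : (2 : 𝓞 F) * 2 = ((4 : ℕ) : 𝓞 F) := by norm_num
      rw [e]; exact h2
    rcases w.isPrime.mem_or_mem h4 with h | h <;> exact h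
  have h5 := (E.av_int_lt_one_iff w (2 : 𝓞 F)).mpr h3
  have e : algebraMap (𝓞 F) F 2 = 2 := map_ofNat _ 2
  rwa [e] at h5

theorem av_three_eq {F : Type} [Field F] [NumberField F] {w : Pl F} (h2 : av w (2 : F) < 1) :
    av w (3 : F) = 1 := by
  have h3 : av w ((3 : F) - 1) < av w (1 : F) := by
    rw [map_one]
    have e : (3 : F) - 1 = 2 := by norm_num
    rw [e]; exact h2
  rw [Tr.av_eq_of_sub_lt w h3, map_one]

/-- a primitive cube root of unity is not congruent to one -/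
theorem av_zeta_sub_one {w : Pl L} (h3 : av w (3 : L) = 1) {z : L} (hz : z ^ 2 + z + 1 = 0) :
    av w (z - 1) = 1 ∧ av w (z ^ 2 - 1) = 1 ∧ av w z = 1 := by
  have hc : z ^ 3 = 1 := by linear_combination (z - 1) * hz
  have hz1 : av w z = 1 := by
    have h := congrArg (av w) hc
    rw [map_pow, map_one] at h
    exact (pow_eq_one_iff_of_nonneg ((av w).nonneg _) (by norm_num)).mp h
  have h1 : av w (z - 1) ≤ 1 := by
    refine (Tr.av_sub_le w _ _).trans ?_
    rw [hz1, map_one, max_self]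
  have h2 : av w (z ^ 2 - 1) ≤ 1 := by
    refine (Tr.av_sub_le w _ _).trans ?_
    rw [map_pow, hz1, one_pow, map_one, max_self]
  have h4 : av w (z - 1) * av w (z ^ 2 - 1) = 1 := by
    rw [← map_mul, ← h3]
    congr 1
    linear_combination (z - 2) * hz + (0 : L) * hc
  have hp : 0 ≤ av w (z - 1) := (av w).nonneg _
  have hp' : 0 ≤ av w (z ^ 2 - 1) := (av w).nonneg _
  refine ⟨?_, ?_, hz1⟩
  · nlinarith
  · nlinarith

/-- Kummer theory: a uniformizer which is an eigenvector of `σ`. -/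
theorem exists_kummer (hζ : ∃ ζ : K, IsPrimitiveRoot ζ 3) (hr : Ram C v w) (h4 : qv v = 4) :
    ∃ (z : K) (p : L), z ^ 2 + z + 1 = 0 ∧ av w p = (qv w)⁻¹ ∧ C.σ p = algebraMap K L z * p := by
  obtain ⟨ζ, hζ⟩ := hζ
  have hz : ζ ^ 2 + ζ + 1 = 0 := by
    have h1 : (ζ - 1) * (ζ ^ 2 + ζ + 1) = 0 := by
      linear_combination hζ.pow_eq_one
    rcases mul_eq_zero.mp h1 with h | h
    · exact absurd (sub_eq_zero.mp h) (hζ.ne_one (by norm_num))
    · exact h
  have hc : ζ ^ 3 = 1 := hζ.pow_eq_one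
  set Z : L := algebraMap K L ζ with hZ
  have hZ2 : Z ^ 2 + Z + 1 = 0 := by
    rw [hZ, ← map_pow, ← map_add, ← map_one (algebraMap K L), ← map_add, hz, map_zero]
  have hZ3 : Z ^ 3 = 1 := by rw [hZ, ← map_pow, hc, map_one]
  have hσZ : C.σ Z = Z := C.σ.commutes ζ
  obtain ⟨p, hp0, hp⟩ := Tr.exists_unif w
  have h2w : av w (2 : L) < 1 := av_two_lt (by rw [hr.q_eq]; exact h4)
  have h3w : av w (3 : L) = 1 := av_three_eq h2w
  have hav : ∀ x, av w (C.σ x) = av w x := fun x => av_σ_of_fix C hr.fix x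
  obtain ⟨-, -, hZ1⟩ := av_zeta_sub_one h3w hZ2
  have hcube : C.σ (C.σ (C.σ p)) = p := C.cube p
  set R₀ : L := p + C.σ p + C.σ (C.σ p) with hR₀
  set R₁ : L := p + Z ^ 2 * C.σ p + Z * C.σ (C.σ p) with hR₁
  set R₂ : L := p + Z * C.σ p + Z ^ 2 * C.σ (C.σ p) with hR₂
  have e0 : C.σ R₀ = R₀ := by
    rw [hR₀, map_add, map_add, hcube]; ring
  have e1 : C.σ R₁ = algebraMap K L ζ * R₁ := by
    rw [← hZ, hR₁, map_add, map_add, map_mul, map_mul, map_pow, hσZ, hcube]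
    linear_combination (-C.σ p) * hZ3
  have e2 : C.σ R₂ = algebraMap K L (ζ ^ 2) * R₂ := by
    rw [map_pow, ← hZ, hR₂, map_add, map_add, map_mul, map_mul, map_pow, hσZ, hcube]
    linear_combination (-C.σ p - Z * C.σ (C.σ p)) * hZ3
  have esum : R₀ + R₁ + R₂ = 3 * p := by
    rw [hR₀, hR₁, hR₂]
    linear_combination (C.σ p + C.σ (C.σ p)) * hZ2
  have hq := Tr.qinv_pos w
  have b1 : av w R₁ ≤ (qv w)⁻¹ := by
    refine (av_add_le w _ _).trans (max_le ((av_add_le w _ _).trans (max_le hp.le ?_)) ?_)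
    · rw [map_mul, map_pow, hZ1, hav, hp]; simp
    · rw [map_mul, hZ1, hav, hav, hp]; simp
  have b2 : av w R₂ ≤ (qv w)⁻¹ := by
    refine (av_add_le w _ _).trans (max_le ((av_add_le w _ _).trans (max_le hp.le ?_)) ?_)
    · rw [map_mul, hZ1, hav, hp]; simp
    · rw [map_mul, map_pow, hZ1, hav, hav, hp]; simp
  have b0 : av w R₀ < (qv w)⁻¹ := by
    have hb : av w R₀ ≤ (qv w)⁻¹ := by
      refine (av_add_le w _ _).trans (max_le ((av_add_le w _ _).trans (max_le hp.le ?_)) ?_)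
      · rw [hav, hp]
      · rw [hav, hav, hp]
    obtain ⟨k, hk⟩ := C.fixed _ e0
    rw [← hk, hr.av_eq] at hb ⊢
    rcases eq_or_ne k 0 with h | h
    · rw [h, map_zero]; simpa using hq
    obtain ⟨n, hn⟩ := Tr.av_zpow v h
    rw [hn, ← hr.q_eq] at hb ⊢
    rw [← zpow_natCast, ← _root_.zpow_mul, ← _root_.zpow_neg_one] at hb ⊢
    have h5 := (Tr.qzpow_le w).mp hb
    refine (Tr.qzpow_lt w).mpr ?_
    push_cast at h5 ⊢
    omega
  have hmax : av w R₁ = (qv w)⁻¹ ∨ av w R₂ = (qv w)⁻¹ := by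
    by_contra hcon
    push Not at hcon
    have c1 := lt_of_le_of_ne b1 hcon.1
    have c2 := lt_of_le_of_ne b2 hcon.2
    have c3 : av w (R₀ + R₁ + R₂) < (qv w)⁻¹ := Tr.av_add_lt w (Tr.av_add_lt w b0 c1) c2
    rw [esum, map_mul, h3w, one_mul, hp] at c3
    exact lt_irrefl _ c3
  rcases hmax with h | h
  · exact ⟨ζ, R₁, hz, h, e1⟩
  · refine ⟨ζ ^ 2, R₂, ?_, h, e2⟩
    linear_combination hz + ζ * hc

/-- existence of the twisting elements (Kummer theory, tameness: `av w 3 = 1` since `q = 4`) -/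
theorem exists_RBd (hζ : ∃ ζ : K, IsPrimitiveRoot ζ 3) (hr : Ram C v w) (h4 : qv v = 4) :
    ∃ d : Fin 3 → Lˣ, RBd C w d := by
  obtain ⟨z, p, hz, hp, hσ⟩ := exists_kummer hζ hr h4
  have hp0 : p ≠ 0 := by
    intro h
    rw [h, map_zero] at hp
    exact (Tr.qinv_pos w).ne hp
  have hc : z ^ 3 = 1 := by linear_combination (z - 1) * hz
  have hz0 : z ≠ 0 := by
    intro h
    rw [h] at hc
    norm_num at hc
  have h3w : av w (3 : L) = 1 := av_three_eq (av_two_lt (by rw [hr.q_eq]; exact h4))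
  have hZ2 : (algebraMap K L z) ^ 2 + algebraMap K L z + 1 = 0 := by
    rw [← map_pow, ← map_add, ← map_one (algebraMap K L), ← map_add, hz, map_zero]
  obtain ⟨g1, g2, -⟩ := av_zeta_sub_one h3w hZ2
  refine ⟨fun j => Units.mk0 p hp0 ^ (j : ℕ), ⟨by simp, fun j => ?_, fun j => ?_⟩⟩
  · simp [hp]
  · refine ⟨Units.mk0 z hz0 ^ (j : ℕ), ?_, ?_, ?_⟩
    · simp only [Units.val_pow_eq_pow_val, Units.val_mk0]
      rw [← pow_mul, mul_comm, pow_mul, hc, one_pow]
    · simp only [Units.val_pow_eq_pow_val, Units.val_mk0]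
      rw [map_pow, map_pow, hσ, mul_pow]
    · intro hj
      simp only [Units.val_pow_eq_pow_val, Units.val_mk0]
      fin_cases j
      · exact absurd rfl hj
      · simpa using g1
      · simpa using g2

end Fermat.LT
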