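import Fermat.Agent.LTG.RB.UM

/-!
# S47, piece RB: descent at a bad totally ramified place, and uniqueness
-/

set_option autoImplicit false
set_option linter.unusedSectionVars false
set_option linter.unusedVariables false

open NumberField IsDedekindDomain Matrix
open Fermat.Agent.LT.D Fermat.Agent.LT.CTree

namespace Fermat.LT.RB

section entries

variable {F : Type} [Field F] [NumberField F] {w : Pl F} {M : ℕ}

/-- entrywise description of `HB w M` -/
theorem mem_HB_iff {g : G2 F} : g ∈ HB w M ↔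
    av w (g.1 0 0) = av w (g.1 1 1) ∧ av w (g.1 0 1) ≤ av w (g.1 1 1) ∧
      av w (g.1 1 0) < av w (g.1 1 1) ∧
      av w (g.1 1 0) ≤ av w (g.1 1 1) * (qv w)⁻¹ ^ M := by
  constructor
  · intro hg
    obtain ⟨h0, h1⟩ := av_diag_of_mem w M hg
    obtain ⟨h2, h3, h4⟩ := hg
    rw [h0, h1]
    exact ⟨rfl, av_le_nm w _ _ _, h3, h4⟩
  · rintro ⟨h0, h1, h2, h3⟩
    have hpos : 0 < av w (g.1 1 1) := ((av w).nonneg _).trans_lt h2
    have hn : nm w g.1 = av w (g.1 1 1) := by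
      apply le_antisymm _ (av_le_nm w _ _ _)
      rw [nm_le_iff]
      intro i j
      fin_cases i <;> fin_cases j
      · exact h0.le
      · exact h1
      · exact h2.le
      · exact le_rfl
    have hd : av w g.1.det = av w (g.1 1 1) ^ 2 := by
      have e : g.1.det = -(g.1 0 1 * g.1 1 0) + g.1 0 0 * g.1 1 1 := by
        rw [Matrix.det_fin_two]; ring
      have h4 : av w (-(g.1 0 1 * g.1 1 0)) < av w (g.1 0 0 * g.1 1 1) := by
        rw [(av w).map_neg, map_mul, map_mul, h0]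
        exact (mul_le_mul_of_nonneg_right h1 ((av w).nonneg _)).trans_lt
          (mul_lt_mul_of_pos_left h2 hpos)
      rw [e, av_add_eq_of_lt w h4, map_mul, h0, sq]
    refine ⟨?_, by rw [hn]; exact h2, by rw [hn]; exact h3⟩
    rw [← Tr.dd_eq_one_iff, Tr.dd_eq, hn, hd]
    exact div_self (pow_pos hpos 2).ne'

/-- entrywise description of `HT w M` -/
theorem mem_HT_iff {g : G2 F} : g ∈ HT w M ↔
    av w (g.1 0 0) = av w (g.1 1 1) ∧ av w (g.1 0 1) < av w (g.1 1 1) ∧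
      av w (g.1 1 0) < av w (g.1 1 1) ∧
      av w (g.1 1 0) ≤ av w (g.1 1 1) * (qv w)⁻¹ ^ M := by
  rw [mem_HT]
  constructor
  · rintro ⟨hg, h⟩
    have h5 := mem_HB_iff.mp hg
    rw [← (av_diag_of_mem w M hg).2] at h
    exact ⟨h5.1, h, h5.2.2⟩
  · rintro ⟨h0, h1, h2⟩
    have hg : g ∈ HB w M := mem_HB_iff.mpr ⟨h0, h1.le, h2⟩
    refine ⟨hg, ?_⟩
    rw [← (av_diag_of_mem w M hg).2]
    exact h1

end entries

section

variable {K L : Type} [Field K] [NumberField K] [Field L] [NumberField L] [Algebra K L]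
  {C : Cub K L} {v : Pl K} {w : Pl L}

theorem pow3_lt {a b : ℝ} (ha : 0 ≤ a) (hb : 0 ≤ b) : a ^ 3 < b ^ 3 ↔ a < b :=
  pow_lt_pow_iff_left₀ ha hb (by norm_num)

theorem pow3_le {a b : ℝ} (ha : 0 ≤ a) (hb : 0 ≤ b) : a ^ 3 ≤ b ^ 3 ↔ a ≤ b :=
  pow_le_pow_iff_left₀ ha hb (by norm_num)

theorem pow3_eq {a b : ℝ} (ha : 0 ≤ a) (hb : 0 ≤ b) : a ^ 3 = b ^ 3 ↔ a = b :=
  pow_left_inj₀ ha hb (by norm_num)

/-- the value of an element of `K` at `w` -/
theorem av_zpow3 (hr : Ram C v w) {x : K} (hx : x ≠ 0) :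
    ∃ n : ℤ, av w (algebraMap K L x) = qv w ^ (3 * n) ∧ av v x = qv v ^ n := by
  obtain ⟨n, hn⟩ := Tr.av_zpow v hx
  refine ⟨n, ?_, hn⟩
  rw [hr.av_eq, hn, hr.q_eq, mul_comm, _root_.zpow_mul]
  rfl

theorem entries_aux (α β b b' c00 c01 c10 c11 : L) {M : Matrix (Fin 2) (Fin 2) L}
    (hM : M = !![1, -b; 0, 1] * !![α, 0; 0, 1] * !![c00, c01; c10, c11] *
      !![β, 0; 0, 1] * !![1, b'; 0, 1]) :
    M 0 0 = α * c00 * β - b * c10 * β ∧ M 1 0 = c10 * β ∧ M 1 1 = c10 * β * b' + c11 ∧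
      M 0 1 = M 0 0 * b' + α * c01 - b * c11 := by
  rw [hM]
  refine ⟨?_, ?_, ?_, ?_⟩
  · simp [Matrix.mul_apply, Fin.sum_univ_two]; ring
  · simp [Matrix.mul_apply, Fin.sum_univ_two]
  · simp [Matrix.mul_apply, Fin.sum_univ_two]
  · simp [Matrix.mul_apply, Fin.sum_univ_two]; ring

/-- injectivity: the class of `z dg(d_j) un(b)` modulo `HT w (3m)` determines `j`, the class of `z`
modulo `HT v m`, and `b` modulo `w` for given `z` -/
theorem RB_inj (hr : Ram C v w) {m : ℕ} (hm : 1 ≤ m) {d : Fin 3 → Lˣ} (hd : RBd C w d)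
    {j j' : Fin 3} {z z' : G2 K} {b b' : L} (hb : av w b ≤ 1) (hb' : av w b' ≤ 1)
    (h : (Cub.Inc z * dg (d j) * un b : G2 L)⁻¹ * (Cub.Inc z' * dg (d j') * un b') ∈ HT w (3 * m))
    (h0 : j = 0 → b = 0) (h0' : j' = 0 → b' = 0) :
    j = j' ∧ z⁻¹ * z' ∈ HT v m ∧ (z = z' → av w (b - b') < 1) := by
  have hdj : (d j : L) ≠ 0 := (d j).ne_zero
  have hdj' : (d j' : L) ≠ 0 := (d j').ne_zero
  set A : G2 K := z⁻¹ * z' with hA
  obtain ⟨g, hg⟩ : ∃ g : G2 L, g = (Cub.Inc z * dg (d j) * un b : G2 L)⁻¹ *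
    (Cub.Inc z' * dg (d j') * un b') := ⟨_, rfl⟩
  rw [← hg] at h
  have hg1 : g = un (-b) * dg (d j)⁻¹ * Cub.Inc A * dg (d j') * un b' := by
    have e : (dg (d j) : G2 L)⁻¹ = dg (d j)⁻¹ := by
      rw [dg_eq_tri, tri_inv, dg_eq_tri]
      congr 1
      ring
    rw [hg, hA, map_mul, map_inv, un_neg, ← e]
    group
  set α : L := (d j : L)⁻¹ with hα
  have hval : g.1 = !![1, -b; 0, 1] * !![α, 0; 0, 1] * (Cub.Inc A : G2 L).1 *
      !![(d j' : L), 0; 0, 1] * !![1, b'; 0, 1] := by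
    rw [hg1]
    simp only [Units.val_mul, un_val, dg_val, Units.val_inv_eq_inv_val]
    rfl
  obtain ⟨a00, ha00⟩ : ∃ x : K, x = A.1 0 0 := ⟨_, rfl⟩
  obtain ⟨a01, ha01⟩ : ∃ x : K, x = A.1 0 1 := ⟨_, rfl⟩
  obtain ⟨a10, ha10⟩ : ∃ x : K, x = A.1 1 0 := ⟨_, rfl⟩
  obtain ⟨a11, ha11⟩ : ∃ x : K, x = A.1 1 1 := ⟨_, rfl⟩
  have hInc : (Cub.Inc A : G2 L).1 = !![algebraMap K L a00, algebraMap K L a01;
      algebraMap K L a10, algebraMap K L a11] := by
    ext r s
    fin_cases r <;> fin_cases s <;> simp [ha00, ha01, ha10, ha11]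
  rw [hInc] at hval
  obtain ⟨g00, g10, g11, g01⟩ := entries_aux _ _ _ _ _ _ _ _ hval
  obtain ⟨k1, k2, k3, k4⟩ := mem_HT_iff.mp h
  have hnn : ∀ x : L, 0 ≤ av w x := fun x => (av w).nonneg x
  set n := av w (g.1 1 1) with hn
  have hn0 : 0 < n := (hnn _).trans_lt k3
  -- `|a11| = n`
  have e11 : av w (algebraMap K L a11) = n := by
    have h1 : av w (algebraMap K L a11 - g.1 1 1) < av w (g.1 1 1) := by
      have e : algebraMap K L a11 - g.1 1 1 = -(g.1 1 0 * b') := by rw [g11, g10]; ring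
      rw [e, (av w).map_neg, map_mul]
      exact (mul_le_of_le_one_right (hnn _) hb').trans_lt k3
    exact Tr.av_eq_of_sub_lt w h1
  -- `|a00| |d'| / |d| = n`
  have e00 : av w α * av w (algebraMap K L a00) * av w (d j' : L) = n := by
    have h1 : av w (α * algebraMap K L a00 * (d j' : L) - g.1 0 0) < av w (g.1 0 0) := by
      have e : α * algebraMap K L a00 * (d j' : L) - g.1 0 0 = b * g.1 1 0 := by
        rw [g00, g10]; ring
      rw [e, map_mul, k1]
      exact (mul_le_of_le_one_left (hnn _) hb).trans_lt k3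
    rw [← map_mul, ← map_mul, Tr.av_eq_of_sub_lt w h1, k1]
  have hQ : 1 < qv w := one_lt_qv w
  have hQ0 : 0 < qv w := qv_pos w
  have hvj : av w α = qv w ^ ((j : ℕ) : ℤ) := by
    rw [hα, map_inv₀, hd.val j, inv_pow, inv_inv, zpow_natCast]
  have hvj' : av w (d j' : L) = qv w ^ (-((j' : ℕ) : ℤ)) := by
    rw [hd.val j', inv_pow, _root_.zpow_neg, zpow_natCast]
  have ha11' : a11 ≠ 0 := by
    intro h0
    rw [h0, map_zero, map_zero] at e11
    exact hn0.ne e11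
  have ha00' : a00 ≠ 0 := by
    intro h0
    rw [h0, map_zero, map_zero, mul_zero, zero_mul] at e00
    exact hn0.ne e00
  obtain ⟨n11, hn11, hn11'⟩ := av_zpow3 hr ha11'
  obtain ⟨n00, hn00, hn00'⟩ := av_zpow3 hr ha00'
  have hnQ : n = qv w ^ (3 * n11) := by rw [← e11, hn11]
  have hj2 : (j : ℕ) < 3 := j.isLt
  have hj2' : (j' : ℕ) < 3 := j'.isLt
  have key : (j : ℤ) + 3 * n00 + -(j' : ℤ) = 3 * n11 := by
    have h1 : qv w ^ (((j : ℕ) : ℤ) + 3 * n00 + -((j' : ℕ) : ℤ)) = qv w ^ (3 * n11) := by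
      rw [zpow_add₀ hQ0.ne', zpow_add₀ hQ0.ne', ← hvj, ← hn00, ← hvj', e00, hnQ]
    exact zpow_right_injective₀ hQ0 hQ.ne' h1
  have hjj : j = j' := by
    apply Fin.ext
    omega
  subst hjj
  have hnn' : n00 = n11 := by omega
  refine ⟨rfl, ?_, ?_⟩
  · rw [mem_HT_iff, ← ha00, ← ha01, ← ha10, ← ha11, hn00', hn11', hnn']
    have hqv : (qv v)⁻¹ ^ m = qv v ^ (-(m : ℤ)) := by
      rw [_root_.zpow_neg, zpow_natCast, inv_pow]
    have hQv : 1 < qv v := one_lt_qv v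
    have hQv0 : 0 < qv v := qv_pos v
    refine ⟨rfl, ?_, ?_, ?_⟩
    · -- a01
      by_cases h01 : a01 = 0
      · rw [h01, map_zero]; exact zpow_pos hQv0 _
      · obtain ⟨n01, hn01, hn01'⟩ := av_zpow3 hr h01
        rw [hn01']
        apply zpow_lt_zpow_right₀ hQv
        have h5 : av w (α * algebraMap K L a01) < n ∨
            (av w (α * algebraMap K L a01) ≤ n ∧ j ≠ 0) := by
          by_cases hj0 : j = 0
          · left
            have e : α * algebraMap K L a01 = g.1 0 1 := by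
              rw [g01, h0 hj0, h0' hj0]; ring
            rw [e]; exact k2
          · right
            refine ⟨?_, hj0⟩
            have e : α * algebraMap K L a01 = g.1 0 1 - g.1 0 0 * b' +
              b * algebraMap K L a11 := by rw [g01]; ring
            rw [e]
            refine (av_add_le w _ _).trans (max_le ((Tr.av_sub_le w _ _).trans
              (max_le k2.le ?_)) ?_)
            · rw [map_mul, k1]; exact mul_le_of_le_one_right hn0.le hb'
            · rw [map_mul, e11]; exact mul_le_of_le_one_left hn0.le hb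
        rw [map_mul, hvj, hn01, ← zpow_add₀ hQ0.ne', hnQ] at h5
        rcases h5 with h5 | ⟨h5, h6⟩
        · rw [zpow_lt_zpow_iff_right₀ hQ] at h5
          omega
        · rw [zpow_le_zpow_iff_right₀ hQ] at h5
          have : (j : ℕ) ≠ 0 := fun h7 => h6 (Fin.ext h7)
          omega
    · -- a10 <
      by_cases h10 : a10 = 0
      · rw [h10, map_zero]; exact zpow_pos hQv0 _
      · obtain ⟨n10, hn10, hn10'⟩ := av_zpow3 hr h10
        rw [hn10']
        apply zpow_lt_zpow_right₀ hQv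
        have hqw : (qv w)⁻¹ ^ (3 * m) = qv w ^ (-((3 * m : ℕ) : ℤ)) := by
          rw [_root_.zpow_neg, zpow_natCast, inv_pow]
        rw [g10, map_mul, hn10, hvj', hnQ, hqw, ← zpow_add₀ hQ0.ne', ← zpow_add₀ hQ0.ne',
          zpow_le_zpow_iff_right₀ hQ] at k4
        push_cast at k4
        omega
    · -- a10 ≤
      by_cases h10 : a10 = 0
      · rw [h10, map_zero]
        exact mul_nonneg (zpow_pos hQv0 _).le (qvM_pos v m).le
      · obtain ⟨n10, hn10, hn10'⟩ := av_zpow3 hr h10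
        rw [hn10', hqv, ← zpow_add₀ hQv0.ne']
        apply zpow_le_zpow_right₀ hQv.le
        have hqw : (qv w)⁻¹ ^ (3 * m) = qv w ^ (-((3 * m : ℕ) : ℤ)) := by
          rw [_root_.zpow_neg, zpow_natCast, inv_pow]
        rw [g10, map_mul, hn10, hvj', hnQ, hqw, ← zpow_add₀ hQ0.ne', ← zpow_add₀ hQ0.ne',
          zpow_le_zpow_iff_right₀ hQ] at k4
        push_cast at k4
        omega
  · intro hzz
    have hA1 : A = 1 := by rw [hA, hzz, inv_mul_cancel]
    have b00 : a00 = 1 := by rw [ha00, hA1]; simp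
    have b01 : a01 = 0 := by rw [ha01, hA1]; simp
    have b10 : a10 = 0 := by rw [ha10, hA1]; simp
    have b11 : a11 = 1 := by rw [ha11, hA1]; simp
    have c01 : g.1 0 1 = b' - b := by
      rw [g01, g00, b00, b01, b10, b11, hα]
      simp
    have c11 : n = 1 := by rw [← e11, b11]; simp
    rw [c01, c11] at k2
    rwa [← (av w).map_neg, neg_sub]

end

section descent

variable {K L : Type} [Field K] [NumberField K] [Field L] [NumberField L] [Algebra K L]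
  {C : Cub K L} {v : Pl K} {w : Pl L} {z : K} {p : Lˣ}

theorem dg_inv {F : Type} [Field F] (a : Fˣ) : (dg a : G2 F)⁻¹ = dg a⁻¹ := by
  rw [inv_eq_iff_mul_eq_one]
  apply Units.ext
  rw [Units.val_mul]
  change !![(a : F), 0; 0, 1] * !![((a⁻¹ : Fˣ) : F), 0; 0, 1] = 1
  ext i j
  fin_cases i <;> fin_cases j <;> simp

theorem conj_aux (P Q : Lˣ) (g : G2 L) : (dg P * g * (dg Q)⁻¹).1 =
    !![(P : L) * g.1 0 0 * (Q : L)⁻¹, (P : L) * g.1 0 1; g.1 1 0 * (Q : L)⁻¹, g.1 1 1] := by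
  rw [dg_inv, Units.val_mul, Units.val_mul]
  change !![(P : L), 0; 0, 1] * g.1 * !![((Q⁻¹ : Lˣ) : L), 0; 0, 1] = _
  rw [Units.val_inv_eq_inv_val]
  ext i j
  rw [Matrix.mul_apply, Fin.sum_univ_two, Matrix.mul_apply, Fin.sum_univ_two, Matrix.mul_apply,
    Fin.sum_univ_two]
  fin_cases i <;> fin_cases j <;> simp

/-- **Descent** at a bad totally ramified place. -/
theorem RBD.descent (h : RBD C v w z p) {m : ℕ} (hm : 1 ≤ m) {x : G2 L}
    (hx : x⁻¹ * C.S x ∈ HB w (3 * m)) :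
    ∃ (y : G2 K) (i : ℕ) (Y : G2 L) (c : Lˣ), i < 3 ∧ Y ∈ HB w (3 * m) ∧
      x = Cub.sc c * (Cub.Inc y * dg (p ^ i) * Y) := by
  set k := x⁻¹ * C.S x with hk
  have hdet : av w k.1.det = 1 := by
    have : k.1.det = (x⁻¹).1.det * C.σ x.1.det := by
      rw [hk, Units.val_mul, Matrix.det_mul, Cub.coe_S, C.s_det]
    rw [this, map_mul, h.av_σ, av_det_inv]
    exact inv_mul_cancel₀ ((av w).ne_zero (det_ne_zero' x))
  have hn : nm w k.1 = 1 := by
    have h1 := av_det_of_mem w hx.1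
    rw [hdet] at h1
    have h2 := nm_nonneg w k.1
    nlinarith
  obtain ⟨d0, d1⟩ := av_diag_of_mem w _ hx
  obtain ⟨k1, k2, k3, k4⟩ := mem_HB_iff.mp hx
  rw [d1, hn] at k2 k3 k4
  rw [hn] at d0 d1
  rw [one_mul] at k4
  obtain ⟨a, ha, ha'⟩ := h.exists_pow d0
  obtain ⟨b, hb, hb'⟩ := h.exists_pow d1
  set Z := algebraMap K L z with hZ
  have hZ1 : av w Z = 1 := h.av_z
  have hZ3 : Z ^ 3 = 1 := h.Z3
  have hZ0 : Z ≠ 0 := by
    intro h0
    rw [h0] at hZ3
    norm_num at hZ3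
  -- `ζ ^ i = k00 / k11`
  obtain ⟨i, hi⟩ : ∃ i, i = (a + 2 * b) % 3 := ⟨_, rfl⟩
  have hi3 : i < 3 := by omega
  obtain ⟨j, hj⟩ : ∃ j, j = 2 * b := ⟨_, rfl⟩
  have hσp : C.σ (p : L) = Z * p := h.sig
  have hp0 : (p : L) ≠ 0 := p.ne_zero
  -- the modified element
  set x' : G2 L := Cub.sc (p ^ j) * (x * (dg (p ^ i))⁻¹) with hx'
  have hσpi : ∀ n : ℕ, C.σ ((p : L) ^ n) = Z ^ n * (p : L) ^ n := by
    intro n
    rw [map_pow, hσp, mul_pow]
  set Zu : Lˣ := Units.mk0 Z hZ0 with hZu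
  have hSdg : C.S (dg (p ^ i)) = dg ((Zu * p) ^ i) := by
    apply Units.ext
    ext r s
    rw [Cub.coe_S, Cub.s_apply]
    fin_cases r <;> fin_cases s
    · change C.σ (((p ^ i : Lˣ) : L)) = (((Zu * p) ^ i : Lˣ) : L)
      rw [Units.val_pow_eq_pow_val, hσpi, Units.val_pow_eq_pow_val, Units.val_mul, hZu,
        Units.val_mk0, mul_pow]
    · change C.σ 0 = 0
      exact map_zero _
    · change C.σ 0 = 0
      exact map_zero _
    · change C.σ 1 = 1
      exact map_one _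
  have hSsc : C.S (Cub.sc (p ^ j)) = Cub.sc (Zu ^ j) * Cub.sc (p ^ j) := by
    rw [← map_mul]
    apply Units.ext
    ext r s
    rw [Cub.coe_S, Cub.s_apply, Cub.coe_sc, Cub.coe_sc]
    simp only [Matrix.smul_apply, smul_eq_mul, map_mul, Units.val_mul, Units.val_pow_eq_pow_val,
      hσpi]
    rw [hZu, Units.val_mk0]
    congr 1
    by_cases hrs : r = s
    · rw [hrs, Matrix.one_apply_eq, map_one]
    · rw [Matrix.one_apply_ne hrs, map_zero]
  have hk' : x'⁻¹ * C.S x' = Cub.sc (Zu ^ j) * (dg (p ^ i) * k * (dg ((Zu * p) ^ i))⁻¹) := by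
    rw [hx', map_mul, map_mul, map_inv, hSdg, hSsc, hk]
    simp only [_root_.mul_inv_rev, inv_inv]
    rw [Cub.sc_comm (Zu ^ j) (Cub.sc (p ^ j))]
    have e : ∀ (P Q s t u r : G2 L), t * s = s * t → (∀ g, t * g = g * t) →
        P * x⁻¹ * s⁻¹ * (s * t * (u * r)) = t * (P * (x⁻¹ * u) * r) := by
      intro P Q s t u r h1 h2
      have h3 : P * x⁻¹ * s⁻¹ * (s * t * (u * r)) = P * x⁻¹ * t * (u * r) := by group
      rw [h3, ← h2 (P * x⁻¹)]
      group
    exact e _ 1 _ _ _ _ (Cub.sc_comm _ _) (fun g => Cub.sc_comm _ g)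
  have hq : av w (p : L) = (qv w)⁻¹ := h.unif
  have hqp : (0 : ℝ) < (qv w)⁻¹ := Tr.qinv_pos w
  have hq1 : (qv w)⁻¹ < 1 := Tr.qinv_lt_one w
  set s : ℝ := (qv w)⁻¹ ^ i with hs
  set t : ℝ := (qv w)⁻¹ ^ (3 * m - i) with ht
  have hst' : s * t = (qv w)⁻¹ ^ (3 * m) := by
    rw [hs, ht, ← pow_add]
    congr 1
    omega
  have hst : s * t < 1 := by
    rw [hst']
    exact pow_lt_one₀ hqp.le hq1 (by omega)
  have hent : (x'⁻¹ * C.S x').1 = (Z ^ j) • !![(p : L) ^ i * k.1 0 0 * ((Z * p) ^ i)⁻¹,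
      (p : L) ^ i * k.1 0 1; k.1 1 0 * ((Z * p) ^ i)⁻¹, k.1 1 1] := by
    rw [hk', Units.val_mul, Cub.coe_sc, conj_aux]
    simp only [Units.val_pow_eq_pow_val, Units.val_mul, hZu, Units.val_mk0]
    rw [Matrix.smul_mul, one_mul]
  have avZ : ∀ n : ℕ, av w (Z ^ n) = 1 := fun n => by rw [map_pow, hZ1, one_pow]
  have avp : ∀ n : ℕ, av w ((p : L) ^ n) = (qv w)⁻¹ ^ n := fun n => by rw [map_pow, hq]
  have hUM : UM w s t (x'⁻¹ * C.S x').1 := by
    rw [hent]
    constructor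
    · -- 00
      change av w (Z ^ j * ((p : L) ^ i * k.1 0 0 * ((Z * p) ^ i)⁻¹) - 1) < 1
      have hZi : Z ^ i ≠ 0 := pow_ne_zero i hZ0
      have e : Z ^ j * ((p : L) ^ i * k.1 0 0 * ((Z * p) ^ i)⁻¹) - 1 =
          Z ^ j * (Z ^ i)⁻¹ * (k.1 0 0 - Z ^ a) + (Z ^ j * (Z ^ i)⁻¹ * Z ^ a - 1) := by
        rw [mul_pow]
        field_simp
        ring
      have e2 : Z ^ j * (Z ^ i)⁻¹ * Z ^ a = 1 := by
        have h1 : Z ^ j * Z ^ a = Z ^ i := by
          rw [← pow_add]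
          have h2 : j + a = i + 3 * ((a + 2 * b) / 3) := by omega
          rw [h2, pow_add, pow_mul, hZ3, one_pow, mul_one]
        rw [mul_right_comm, h1]
        exact mul_inv_cancel₀ hZi
      rw [e, e2, sub_self, add_zero, map_mul, map_mul, map_inv₀, avZ, avZ, inv_one, one_mul,
        one_mul]
      exact ha'
    · -- 11
      change av w (Z ^ j * k.1 1 1 - 1) < 1
      have e : Z ^ j * k.1 1 1 - 1 = Z ^ j * (k.1 1 1 - Z ^ b) + (Z ^ j * Z ^ b - 1) := by ring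
      have e2 : Z ^ j * Z ^ b = 1 := by
        rw [← pow_add]
        have h2 : j + b = 3 * b := by omega
        rw [h2, pow_mul, hZ3, one_pow]
      rw [e, e2, sub_self, add_zero, map_mul, avZ, one_mul]
      exact hb'
    · change av w (Z ^ j * ((p : L) ^ i * k.1 0 1)) ≤ s
      rw [map_mul, map_mul, avZ, avp, one_mul]
      exact mul_le_of_le_one_right (pow_pos hqp i).le k2
    · change av w (Z ^ j * (k.1 1 0 * ((Z * p) ^ i)⁻¹)) ≤ t
      rw [map_mul, map_mul, avZ, one_mul, map_inv₀, mul_pow, map_mul, avZ, avp, one_mul]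
      rw [← div_eq_mul_inv, div_le_iff₀ (pow_pos hqp i), mul_comm]
      calc av w (k.1 1 0) ≤ (qv w)⁻¹ ^ (3 * m) := k4
        _ = s * t := hst'.symm
        _ = (qv w)⁻¹ ^ i * t := rfl
  obtain ⟨y, θ, hθ, hxθ⟩ := UM.descent h hst hUM
  refine ⟨y, i, (dg (p ^ i))⁻¹ * θ * dg (p ^ i), (p ^ j)⁻¹, hi3, ?_, ?_⟩
  · have hU : UM w 1 ((qv w)⁻¹ ^ (3 * m)) ((dg (p ^ i))⁻¹ * θ * dg (p ^ i)).1 := by
      have e : (dg (p ^ i))⁻¹ * θ * dg (p ^ i) =
          dg (p ^ i)⁻¹ * θ * (dg (p ^ i)⁻¹)⁻¹ := by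
        rw [dg_inv, dg_inv, inv_inv]
      rw [e, conj_aux]
      have hpi : ((p : L) ^ i) ≠ 0 := pow_ne_zero i hp0
      have e1 : (((p ^ i)⁻¹ : Lˣ) : L) = ((p : L) ^ i)⁻¹ := by
        rw [Units.val_inv_eq_inv_val, Units.val_pow_eq_pow_val]
      rw [e1, inv_inv]
      constructor
      · change av w (((p : L) ^ i)⁻¹ * θ.1 0 0 * (p : L) ^ i - 1) < 1
        have e2 : ((p : L) ^ i)⁻¹ * θ.1 0 0 * (p : L) ^ i = θ.1 0 0 := by field_simp
        rw [e2]; exact hθ.h00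
      · exact hθ.h11
      · change av w (((p : L) ^ i)⁻¹ * θ.1 0 1) ≤ 1
        rw [map_mul, map_inv₀, avp, inv_mul_le_iff₀ (pow_pos hqp i), mul_one]
        exact hθ.h01
      · change av w (θ.1 1 0 * (p : L) ^ i) ≤ (qv w)⁻¹ ^ (3 * m)
        rw [map_mul, avp, ← hst', mul_comm s t]
        exact mul_le_mul_of_nonneg_right hθ.h10 (pow_pos hqp i).le
    exact hU.mem_HB le_rfl (pow_lt_one₀ hqp.le hq1 (by omega)) le_rfl
  · have h1 : x = (Cub.sc (p ^ j))⁻¹ * (x' * dg (p ^ i)) := by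
      rw [hx']; group
    have h2 : (Cub.sc (p ^ j) : G2 L)⁻¹ = Cub.sc (p ^ j)⁻¹ := (Cub.sc_inv _).symm
    rw [h1, hxθ, h2]
    group

/-- descent, in terms of the twisting elements `d j` -/
theorem descent_RBd (hr : Ram C v w) (h4 : qv v = 4) {m : ℕ} (hm : 1 ≤ m) {d : Fin 3 → Lˣ}
    (hd : RBd C w d) {x : G2 L} (hx : x⁻¹ * C.S x ∈ HB w (3 * m)) :
    ∃ (y : G2 K) (j : Fin 3), (Cub.Inc y * dg (d j))⁻¹ * x ∈ HB w (3 * m) := by
  obtain ⟨z, hD, u, hu1, hu⟩ := exists_RBD hr h4 hd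
  obtain ⟨y, i, Y, c, hi, hY, hxe⟩ := hD.descent hm hx
  have hscmem : ∀ {g : G2 L} (c : Lˣ), g ∈ HB w (3 * m) → Cub.sc c * g ∈ HB w (3 * m) :=
    fun c hg => mul_mem (HT_le_HB w _ (scal_le_HT w _ (sc_mem c))) hg
  have hpush : ∀ (A B : G2 L), A⁻¹ * (Cub.sc c * (A * B)) = Cub.sc c * B := by
    intro A B
    rw [← mul_assoc A⁻¹, ← Cub.sc_comm, mul_assoc, inv_mul_cancel_left]
  obtain hi0 | hi1 | hi2 : i = 0 ∨ i = 1 ∨ i = 2 := by omega
  · refine ⟨y, 0, ?_⟩
    rw [hxe, hi0, pow_zero, hd.zero, hpush]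
    exact hscmem c hY
  · refine ⟨y, 1, ?_⟩
    rw [hxe, hi1, pow_one, hpush]
    exact hscmem c hY
  · refine ⟨y * dg u⁻¹, 2, ?_⟩
    have e : (Cub.Inc (y * dg u⁻¹) * dg (d 2) : G2 L) = Cub.Inc y * dg (d 1 ^ 2) := by
      rw [map_mul, mul_assoc]
      congr 1
      apply Units.ext
      rw [Units.val_mul, Cub.coe_Inc]
      ext r s
      have hu0 : algebraMap K L u ≠ 0 := (map_ne_zero _).mpr u.ne_zero
      fin_cases r <;> fin_cases s
      · simp only [Matrix.mul_apply, Fin.sum_univ_two, Cub.inc_apply]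
        change algebraMap K L ((u⁻¹ : Kˣ) : K) * ((d 2 : Lˣ) : L) + algebraMap K L 0 * 0 =
          ((d 1 ^ 2 : Lˣ) : L)
        rw [hu, Units.val_pow_eq_pow_val, Units.val_inv_eq_inv_val, map_inv₀]
        field_simp
        ring
      · simp only [Matrix.mul_apply, Fin.sum_univ_two, Cub.inc_apply]
        change algebraMap K L ((u⁻¹ : Kˣ) : K) * 0 + algebraMap K L 0 * 1 = 0
        simp
      · simp only [Matrix.mul_apply, Fin.sum_univ_two, Cub.inc_apply]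
        change algebraMap K L 0 * ((d 2 : Lˣ) : L) + algebraMap K L 1 * 0 = 0
        simp
      · simp only [Matrix.mul_apply, Fin.sum_univ_two, Cub.inc_apply]
        change algebraMap K L 0 * 0 + algebraMap K L 1 * 1 = 1
        simp
    rw [e, hxe, hi2, hpush]
    exact hscmem c hY

/-- **Descent** in the form needed for the matching -/
theorem _root_.Fermat.LT.Ram.desc_RB (hr : Ram C v w) (h4 : qv v = 4) {m : ℕ} (hm : 1 ≤ m)
    {d : Fin 3 → Lˣ} (hd : RBd C w d) (x : G2 L) (hx : x⁻¹ * C.S x ∈ HB w (3 * m)) :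
    (∃ z : G2 K, (Cub.Inc z)⁻¹ * x ∈ HT w (3 * m)) ∨
      ∃ j : Fin 3, j ≠ 0 ∧ ∃ z : G2 K, (Cub.Inc z * dg (d j))⁻¹ * x ∈ HB w (3 * m) := by
  obtain ⟨y, j, hy⟩ := descent_RBd hr h4 hm hd hx
  by_cases hj : j = 0
  · left
    obtain ⟨z, hD, -⟩ := exists_RBD hr h4 hd
    subst hj
    have hd0 : (dg (d 0) : G2 L) = 1 := by
      rw [hd.zero]
      apply Units.ext
      rw [dg_val]
      ext i j
      fin_cases i <;> fin_cases j <;> simp
    rw [hd0, mul_one] at hy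
    set g := (Cub.Inc y)⁻¹ * x with hg
    have hdiag := (av_diag_of_mem w _ hy).2
    have hpos := nm_pos w g
    have hb1 : av w (g.1 0 1 / g.1 1 1) ≤ 1 := by
      rw [map_div₀, hdiag, div_le_one hpos]
      exact av_le_nm w _ _ _
    obtain ⟨b, hb, hb'⟩ := hD.exists_K hb1
    have h1 := (un_inv_mul_mem_iff w _ hy hb).mpr hb'
    refine ⟨y * un b, ?_⟩
    have e : (Cub.Inc (un b) : G2 L) = un (algebraMap K L b) := by
      apply Units.ext
      rw [Cub.coe_Inc]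
      ext r s
      rw [Cub.inc_apply]
      fin_cases r <;> fin_cases s
      · change algebraMap K L 1 = 1
        exact map_one _
      · rfl
      · change algebraMap K L 0 = 0
        exact map_zero _
      · change algebraMap K L 1 = 1
        exact map_one _
    rw [map_mul, e, _root_.mul_inv_rev, mul_assoc]
    exact h1
  · right
    exact ⟨j, hj, y, hy⟩

end descent

end Fermat.LT.RB
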