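import Fermat.Agent.LTG.RB.Nrm

/-!
# LTG, local matching at a bad ramified place: the values

* `RBMatch_of_tw` : `RBMatch` from a `t` for which `t⁻¹ δ σ(t)` is, up to a scalar, a unit of
  `O_w[γ₁]`;
* `exists_RBMatch_of` : existence, modulo the descent statement `hdesc`.
(helper96)
-/

set_option autoImplicit false
set_option linter.unusedSectionVars false

open NumberField IsDedekindDomain Matrix
open Fermat.Agent.LT.D

namespace Fermat.LT.RBv

variable {K L : Type} [Field K] [NumberField K] [Field L] [NumberField L] [Algebra K L]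
  {C : Cub K L} {v : Pl K} {w : Pl L}

/-- conjugation by `dg d`, twisted -/
theorem dg_tw_entries {d σd : Lˣ} (A : G2 L) :
    ((dg d)⁻¹ * A * dg σd).1 = !![(d : L)⁻¹ * A.1 0 0 * σd, (d : L)⁻¹ * A.1 0 1;
      A.1 1 0 * σd, A.1 1 1] := by
  have h1 : ((dg d)⁻¹ : G2 L).1 = !![(d : L)⁻¹, 0; 0, 1] := by
    have h2 : ((dg d)⁻¹ : G2 L) = dg d⁻¹ := by
      rw [inv_eq_iff_mul_eq_one]
      ext i j
      fin_cases i <;> fin_cases j <;>
        simp [dg, Matrix.GeneralLinearGroup.mkOfDetNeZero, Matrix.mul_apply, Fin.sum_univ_two]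
    rw [h2]
    ext i j
    fin_cases i <;> fin_cases j <;> simp [dg, Matrix.GeneralLinearGroup.mkOfDetNeZero]
  have h3 : (dg σd : G2 L).1 = !![(σd : L), 0; 0, 1] := rfl
  rw [Units.val_mul, Units.val_mul, h1, h3]
  conv_lhs => rw [Matrix.eta_fin_two A.1]
  rw [Matrix.mul_fin_two, Matrix.mul_fin_two]
  ext i j
  fin_cases i <;> fin_cases j <;> simp

theorem S_dg (a : Lˣ) : C.S (dg a) = dg (C.σu a) := by
  ext i j
  change C.σ ((dg a).1 i j) = _
  fin_cases i <;> fin_cases j <;>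
    simp [dg, Matrix.GeneralLinearGroup.mkOfDetNeZero, Cub.σu]

theorem S_un (b : L) : C.S (un b) = un (C.σ b) := by
  ext i j
  change C.σ ((un b).1 i j) = _
  fin_cases i <;> fin_cases j <;>
    simp [un, Matrix.GeneralLinearGroup.mkOfDetNeZero]

/-- the twisted conjugate by `un b` -/
theorem un_tw_entry01 (b b' : L) (E : G2 L) :
    ((un b)⁻¹ * E * un b').1 0 1 = (E.1 0 0 - b * E.1 1 0) * b' + (E.1 0 1 - b * E.1 1 1) := by
  have h1 : ((un b)⁻¹ : G2 L).1 = !![1, -b; 0, 1] := by rw [← un_neg]; rfl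
  have h2 : (un b' : G2 L).1 = !![1, b'; 0, 1] := rfl
  rw [Units.val_mul, Units.val_mul, h1, h2]
  conv_lhs => rw [Matrix.eta_fin_two E.1]
  rw [Matrix.mul_fin_two, Matrix.mul_fin_two]
  simp
  ring

/-- the case `j ≠ 0`: `E ∈ HT`, `E₀₀ ≢ E₁₁` -/
theorem un_tw_mem {M : ℕ} (hσ : ∀ x : L, av w x ≤ 1 → av w (C.σ x - x) < 1) {E : G2 L}
    (hE : E ∈ HT w M) (hd : av w E.1.det = 1) (hne : av w (E.1 0 0 - E.1 1 1) = 1) {b : L}
    (hb : av w b ≤ 1) :
    (un b)⁻¹ * E * un (C.σ b) ∈ HB w M ∧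
      ((un b)⁻¹ * E * un (C.σ b) ∈ HT w M ↔ av w b < 1) := by
  obtain ⟨h1, h00, h11, -, h10, -⟩ := entries_HB (HT_le_HB w M hE) hd
  have h01 : av w (E.1 0 1) < 1 := by
    have := hE.2
    rwa [h1] at this
  have hσb : av w (C.σ b) ≤ 1 := by
    have e : C.σ b = (C.σ b - b) + b := by ring
    rw [e]
    exact (av_add_le w _ _).trans (max_le (hσ b hb).le hb)
  have hB : (un b)⁻¹ * E * un (C.σ b) ∈ HB w M :=
    mul_mem (mul_mem (inv_mem (un_mem_HB w M hb)) (HT_le_HB w M hE)) (un_mem_HB w M hσb)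
  have hdet : av w ((un b)⁻¹ * E * un (C.σ b)).1.det = 1 := by
    have h2 : ∀ x : L, (un x : G2 L).1.det = 1 := fun x => by
      have : (un x : G2 L).1 = !![1, x; 0, 1] := rfl
      rw [this, Matrix.det_fin_two]; simp
    have h3 : ((un b)⁻¹ : G2 L).1.det = 1 := by rw [← un_neg]; exact h2 _
    rw [Units.val_mul, Units.val_mul, Matrix.det_mul, Matrix.det_mul, h2, h3, one_mul, mul_one, hd]
  have hn := (entries_HB hB hdet).1
  refine ⟨hB, ?_⟩
  rw [mem_HT, hn, un_tw_entry01]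
  have e : (E.1 0 0 - b * E.1 1 0) * C.σ b + (E.1 0 1 - b * E.1 1 1) =
      (E.1 0 0 - E.1 1 1) * b + (E.1 0 0 * (C.σ b - b) + (E.1 0 1 - E.1 1 0 * (b * C.σ b))) := by
    ring
  have hs : av w (E.1 0 0 * (C.σ b - b) + (E.1 0 1 - E.1 1 0 * (b * C.σ b))) < 1 := by
    refine Tr.av_add_lt w ?_ (Tr.av_sub_lt w h01 ?_)
    · rw [map_mul, h00, one_mul]; exact hσ b hb
    · rw [map_mul, map_mul, mul_comm]
      exact mul_lt_one_of_nonneg_of_lt_one_right (mul_le_one₀ hb ((av w).nonneg _) hσb)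
        ((av w).nonneg _) h10
  rw [e]
  constructor
  · rintro ⟨-, h⟩
    have h2 := Tr.av_sub_lt w h hs
    rw [add_sub_cancel_right, map_mul, hne, one_mul] at h2
    exact h2
  · intro h
    refine ⟨hB, Tr.av_add_lt w ?_ hs⟩
    rw [map_mul, hne, one_mul]; exact h

theorem _root_.Fermat.LT.Tame.nL_sub_one_lt (T : Tame C w) {x : L} (hx : av w x = 1) :
    av w (C.nL x - 1) < 1 := by
  have h1 : av w (C.σ x - x) < 1 := T.res x hx.le
  have h2 : av w (C.σ (C.σ x) - x) < 1 := by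
    have e : C.σ (C.σ x) - x = C.σ (C.σ x - x) + (C.σ x - x) := by rw [map_sub]; ring
    rw [e]
    refine Tr.av_add_lt w ?_ h1
    rw [T.av_σ]; exact h1
  have e : C.nL x - 1 = x * (C.σ x - x) * C.σ (C.σ x) + x * x * (C.σ (C.σ x) - x) +
      (x ^ 3 - 1) := by
    rw [Cub.nL]; ring
  rw [e]
  refine Tr.av_add_lt w (Tr.av_add_lt w ?_ ?_) (T.cube x hx)
  · rw [map_mul, map_mul, T.av_σ, T.av_σ, hx, mul_one, one_mul]; exact h1
  · rw [map_mul, map_mul, hx, one_mul, one_mul]; exact h2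

/-- `RBMatch` from a good `t`. -/
theorem RBMatch_of_tw (T : Tame C w) (hr : Ram C v w) {m : ℕ} (hm : 1 ≤ m) {d : Fin 3 → Lˣ}
    (hd : RBd C w d) {γ : G2 K} (hns : ¬ IsSc (γ : Matrix (Fin 2) (Fin 2) K)) {δ : G2 L}
    (hδ : δ ∈ Cub.Z (L := L) γ) {c : Lˣ} (hN : C.N δ = Cub.sc c * Cub.Inc γ) {μ : Kˣ}
    (hd1 : av v (sc μ * γ).1.det = 1) (ht1 : av v (sc μ * γ).1.trace < 1)
    (htw : av w (Gm L (sc μ * γ)).trace ≤ 1) (hdw : av w (Gm L (sc μ * γ)).det ≤ 1)
    {t : G2 L} (htZ : t ∈ Cub.Z (L := L) γ) {b₀ : Lˣ}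
    (hu : Cub.sc b₀ * (t⁻¹ * δ * C.S t) ∈ RU w (Gm L (sc μ * γ)) htw hdw)
    (hdesc : ∀ x : G2 L, x⁻¹ * C.S x ∈ HB w (3 * m) →
      (∃ z : G2 K, (Cub.Inc z)⁻¹ * x ∈ HT w (3 * m)) ∨
      ∃ j : Fin 3, j ≠ 0 ∧ ∃ z : G2 K, (Cub.Inc z * dg (d j))⁻¹ * x ∈ HB w (3 * m)) :
    RBMatch C v w m γ δ t d := by
  have hqv : qv w = qv v := hr.q_eq
  have htd : av v (td γ) < 1 := Nrm.td_lt ⟨μ, hd1, ht1⟩
  set γ₁ : G2 K := sc μ * γ with hγ₁
  set μL : Lˣ := Units.map (algebraMap K L).toMonoidHom μ with hμL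
  have hIγ₁ : (Cub.Inc γ₁ : G2 L) = sc μL * Cub.Inc γ := by
    rw [hγ₁, map_mul]
    congr 1
    exact Matrix.GeneralLinearGroup.map_scalar _ _
  have hΓd : av w (Cub.Inc (L := L) γ₁).1.det = 1 := by
    rw [(Tr.av_v_cube hr γ₁).1, hd1, one_pow]
  set u : G2 L := Cub.sc b₀ * (t⁻¹ * δ * C.S t) with hud
  have hudet : av w u.1.det = 1 := hu.2
  -- comparison of `γ` and `γ₁`
  have hcompB : ∀ x : G2 L, x⁻¹ * Cub.Inc γ₁ * x ∈ HB w (3 * m) ↔
      x⁻¹ * Cub.Inc γ * x ∈ HB w (3 * m) := by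
    intro x
    have : x⁻¹ * Cub.Inc γ₁ * x = sc μL * (x⁻¹ * Cub.Inc γ * x) := by
      rw [hIγ₁, ← mul_assoc x⁻¹, ← sc_comm]; simp only [mul_assoc]
    rw [this, sc_mul_mem_HB]
  have hcompT : ∀ x : G2 L, x⁻¹ * Cub.Inc γ₁ * x ∈ HT w (3 * m) ↔
      x⁻¹ * Cub.Inc γ * x ∈ HT w (3 * m) := by
    intro x
    have : x⁻¹ * Cub.Inc γ₁ * x = sc μL * (x⁻¹ * Cub.Inc γ * x) := by
      rw [hIγ₁, ← mul_assoc x⁻¹, ← sc_comm]; simp only [mul_assoc]
    rw [this, sc_mul_mem_HT]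
  have hInc : ∀ z : G2 K, (Cub.Inc z : G2 L)⁻¹ * Cub.Inc γ * Cub.Inc z =
      Cub.Inc (z⁻¹ * γ * z) := by
    intro z; rw [map_mul, map_mul, map_inv]
  have hNk : ∀ y : G2 L, C.N (y⁻¹ * δ * C.S y) = sc c * (y⁻¹ * Cub.Inc γ * y) := by
    intro y
    rw [C.N_tw, hN]
    change y⁻¹ * (sc c * Cub.Inc γ) * y = _
    rw [← mul_assoc y⁻¹, ← sc_comm]; simp only [mul_assoc]
  -- `t` commutes with `γ`
  have htγ : ∀ x : G2 L, (t * x)⁻¹ * Cub.Inc γ * (t * x) = x⁻¹ * Cub.Inc γ * x := by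
    intro x
    have h1 := Cub.mem_Z.mp htZ
    have h2 : t⁻¹ * Cub.Inc γ * t = Cub.Inc γ := by
      rw [mul_assoc, ← h1, inv_mul_cancel_left]
    calc (t * x)⁻¹ * Cub.Inc γ * (t * x) = x⁻¹ * (t⁻¹ * Cub.Inc γ * t) * x := by group
      _ = _ := by rw [h2]
  -- the key identity
  have hkey : ∀ x : G2 L, (t * x)⁻¹ * δ * C.S (t * x) = sc b₀⁻¹ * (x⁻¹ * u * C.S x) := by
    intro x
    rw [map_mul, hud, _root_.mul_inv_rev, ← mul_assoc x⁻¹ (Cub.sc b₀), ← Cub.sc_comm,
      mul_assoc (Cub.sc b₀), mul_assoc (Cub.sc b₀), ← mul_assoc (sc b₀⁻¹)]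
    have : sc b₀⁻¹ * Cub.sc b₀ = 1 := by
      rw [← sc_inv]; exact inv_mul_cancel _
    rw [this, one_mul]
    simp only [mul_assoc]
  refine ⟨htZ, ?_, ?_, ?_, ?_⟩
  · -- `fwdB`
    intro z
    constructor
    · intro h
      refine ⟨?_, htd⟩
      have h1 := N_mem_HB hr h
      rw [hNk, sc_mul_mem_HB, htγ, hInc, HB_Inc_ram hr] at h1
      exact h1
    · rintro ⟨h, -⟩
      rw [hkey, sc_mul_mem_HB, C.S_Inc]
      apply conj_mem_HB (Γ := Cub.Inc γ₁) (ht := htw) (hd := hdw) hΓd _ hu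
      rw [hcompB, hInc, HB_Inc_ram hr]
      exact h
  · -- `fwdT`
    intro z
    constructor
    · intro h
      refine ⟨?_, htd⟩
      have h1 := N_mem_HT hr h
      rw [hNk, sc_mul_mem_HT, htγ, hInc, HT_Inc_ram hr] at h1
      exact h1
    · rintro ⟨h, -⟩
      rw [hkey, sc_mul_mem_HT, C.S_Inc]
      apply conj_mem_HT (Γ := Cub.Inc γ₁) (ht := htw) (hd := hdw) hΓd _ hu
      rw [hcompT, hInc, HT_Inc_ram hr]
      exact h
  · -- `fwdj`
    intro j hj z hz _ b hb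
    obtain ⟨ζ, hζ3, hζ, hζ1⟩ := hd.tw j
    have hζ1 := hζ1 hj
    set zL : L := algebraMap K L ζ with hzL
    have hzav : av w zL = 1 := by
      have h1 : av w zL ^ 3 = 1 := by
        rw [← map_pow, hzL, ← map_pow, hζ3, map_one, map_one]
      exact (pow_eq_one_iff_of_nonneg ((av w).nonneg _) (by norm_num)).mp h1
    -- `A = z⁻¹ u z`
    set κ : G2 K := z⁻¹ * γ₁ * z with hκ
    have hκT : κ ∈ HT v m := by
      have : κ = sc μ * (z⁻¹ * γ * z) := by
        rw [hκ, hγ₁, ← mul_assoc z⁻¹, ← sc_comm]; simp only [mul_assoc]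
      rw [this, sc_mul_mem_HT]; exact hz
    have hκd : av v κ.1.det = 1 := by rw [hκ, Tr.det_conj, hd1]
    obtain ⟨k1, k00, k11, k01, k10, k10'⟩ := entries_HB (HT_le_HB v m hκT) hκd
    have k01' : av v (κ.1 0 1) ≤ (qv v)⁻¹ := by
      apply Tr.av_le_inv
      have := hκT.2
      rwa [k1] at this
    have hκtr : av v κ.1.trace < 1 := by rw [hκ, Tr.trace_conj]; exact ht1
    obtain ⟨⟨α, β, hα, hβ, e⟩, -⟩ := hu
    set A : G2 L := (Cub.Inc z)⁻¹ * u * Cub.Inc z with hA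
    have hAT : A ∈ HT w (3 * m) := by
      apply conj_mem_HT (Γ := Cub.Inc γ₁) (ht := htw) (hd := hdw) hΓd _
        ⟨⟨α, β, hα, hβ, e⟩, hudet⟩
      rw [hcompT, hInc, HT_Inc_ram hr]
      exact hz
    have hAd : av w A.1.det = 1 := by rw [hA, Tr.det_conj, hudet]
    obtain ⟨a1, a00, a11, a01, a10, a10'⟩ := entries_HB (HT_le_HB w _ hAT) hAd
    have hAv : A.1 = α • (1 : Matrix (Fin 2) (Fin 2) L) + β • (Cub.Inc (L := L) κ).1 := by
      have h1 : (Cub.Inc (L := L) κ) = (Cub.Inc z)⁻¹ * Cub.Inc γ₁ * Cub.Inc z := by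
        rw [hκ, map_mul, map_mul, map_inv]
      rw [h1, hA]
      exact conj_val (Γ := Cub.Inc γ₁) (x := Cub.Inc z) e
    have hA01 : av w (A.1 0 1) ≤ (qv w)⁻¹ ^ 3 := by
      have h1 : A.1 0 1 = β * algebraMap K L (κ.1 0 1) := by
        rw [hAv]; simp
      rw [h1, map_mul, hr.av_eq, hqv]
      refine (mul_le_of_le_one_left (by positivity) hβ).trans ?_
      exact pow_le_pow_left₀ ((av v).nonneg _) k01' 3
    have hA00 : av w (A.1 0 0 - A.1 1 1) < 1 := by
      have h1 : A.1 0 0 - A.1 1 1 = β * algebraMap K L (κ.1.trace - 2 * κ.1 1 1) := by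
        have e2 : algebraMap K L 2 = 2 := map_ofNat _ 2
        have e3 : κ.1 0 0 + κ.1 1 1 - 2 * κ.1 1 1 = κ.1 0 0 - κ.1 1 1 := by ring
        rw [hAv, Matrix.trace_fin_two, e3, map_sub]
        simp
        ring
      have h2 : av v (κ.1.trace - 2 * κ.1 1 1) < 1 := by
        refine Tr.av_sub_lt v hκtr ?_
        rw [map_mul, k11, mul_one]
        have h3 := hr.av_eq (2 : K)
        rw [map_ofNat] at h3
        have h4 := T.two
        rw [h3] at h4
        exact (pow_lt_one_iff_of_nonneg ((av v).nonneg _) (by norm_num)).mp h4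
      rw [h1, map_mul, hr.av_eq]
      refine (mul_le_of_le_one_left (by positivity) hβ).trans_lt ?_
      exact pow_lt_one₀ ((av v).nonneg _) h2 (by norm_num)
    -- `E = dg⁻¹ A σ(dg)`
    set E : G2 L := (dg (d j))⁻¹ * A * C.S (dg (d j)) with hE
    have hEv := dg_tw_entries (d := d j) (σd := C.σu (d j)) A
    rw [← S_dg, ← hE] at hEv
    have hσd : ((C.σu (d j) : Lˣ) : L) = zL * d j := hζ
    have hdj := (d j).ne_zero
    have hdv := hd.val j
    have hjle : (j : ℕ) ≤ 2 := by omega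
    have hq := one_lt_qv w
    have hq0 := qv_pos w
    have hqi : 0 < (qv w)⁻¹ := inv_pos.mpr hq0
    have hqi1 : (qv w)⁻¹ < 1 := inv_lt_one_of_one_lt₀ hq
    have hdle : av w (d j : L) ≤ 1 := by rw [hdv]; exact pow_le_one₀ hqi.le hqi1.le
    have E00 : E.1 0 0 = zL * A.1 0 0 := by
      rw [hEv, hσd]; simp; field_simp
    have E01 : E.1 0 1 = (d j : L)⁻¹ * A.1 0 1 := by rw [hEv]; simp
    have E10 : E.1 1 0 = A.1 1 0 * (zL * d j) := by rw [hEv, hσd]; simp
    have E11 : E.1 1 1 = A.1 1 1 := by rw [hEv]; simp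
    have hE01 : av w (E.1 0 1) < 1 := by
      rw [E01, map_mul, map_inv₀, hdv]
      have h1 : ((qv w)⁻¹ ^ (j : ℕ))⁻¹ ≤ ((qv w)⁻¹ ^ 2)⁻¹ :=
        inv_anti₀ (by positivity) (pow_le_pow_of_le_one hqi.le hqi1.le hjle)
      calc ((qv w)⁻¹ ^ (j : ℕ))⁻¹ * av w (A.1 0 1) ≤ ((qv w)⁻¹ ^ 2)⁻¹ * (qv w)⁻¹ ^ 3 :=
            mul_le_mul h1 hA01 ((av w).nonneg _) (by positivity)
        _ = (qv w)⁻¹ := by field_simp
        _ < 1 := hqi1
    have hEdet : av w E.1.det = 1 := by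
      rw [Matrix.det_fin_two, E00, E01, E10, E11]
      have e1 : zL * A.1 0 0 * A.1 1 1 - (d j : L)⁻¹ * A.1 0 1 * (A.1 1 0 * (zL * d j)) =
          zL * A.1.det := by
        rw [Matrix.det_fin_two]; field_simp
      rw [e1, map_mul, hzav, hAd, one_mul]
    have hEn : nm w E.1 ≤ 1 := by
      rw [nm_le_iff]
      intro i j'
      fin_cases i <;> fin_cases j'
      · change av w (E.1 0 0) ≤ 1
        rw [E00, map_mul, hzav, a00, one_mul]
      · exact hE01.le
      · change av w (E.1 1 0) ≤ 1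
        rw [E10, map_mul, map_mul, hzav, one_mul]
        exact mul_le_one₀ a10.le ((av w).nonneg _) hdle
      · change av w (E.1 1 1) ≤ 1
        rw [E11]; exact a11.le
    have hEB : E ∈ HB w (3 * m) ∧ nm w E.1 = 1 := by
      apply mem_HB_of hEn hEdet
      · rw [E10, map_mul, map_mul, hzav, one_mul]
        exact (mul_le_of_le_one_right ((av w).nonneg _) hdle).trans_lt a10
      · rw [E10, map_mul, map_mul, hzav, one_mul]
        exact (mul_le_of_le_one_right ((av w).nonneg _) hdle).trans a10'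
    have hET : E ∈ HT w (3 * m) := ⟨hEB.1, by rw [hEB.2]; exact hE01⟩
    have hEne : av w (E.1 0 0 - E.1 1 1) = 1 := by
      have e1 : E.1 0 0 - E.1 1 1 = (zL - 1) * A.1 0 0 + (A.1 0 0 - A.1 1 1) := by
        rw [E00, E11]; ring
      have h1 : av w ((zL - 1) * A.1 0 0) = 1 := by rw [map_mul, hζ1, a00, one_mul]
      rw [e1, ← h1]
      apply Tr.av_eq_of_sub_lt
      rw [add_sub_cancel_left, h1]
      exact hA00
    have hfin : (t * Cub.Inc z * dg (d j) * un b)⁻¹ * δ * C.S (t * Cub.Inc z * dg (d j) * un b) =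
        sc b₀⁻¹ * ((un b)⁻¹ * E * un (C.σ b)) := by
      have e1 : t * Cub.Inc z * dg (d j) * un b = t * (Cub.Inc z * dg (d j) * un b) := by
        simp only [mul_assoc]
      rw [e1, hkey]
      congr 1
      rw [map_mul, map_mul, C.S_Inc, hE, hA, S_un]
      group
    rw [hfin, sc_mul_mem_HB, sc_mul_mem_HT]
    exact un_tw_mem T.res hET hEdet hEne hb
  · -- `bwd`
    intro y hy
    set x : G2 L := t⁻¹ * y with hx
    have hyx : y = t * x := by rw [hx, mul_inv_cancel_left]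
    have h1 : x⁻¹ * u * C.S x ∈ HB w (3 * m) := by
      rw [hyx, hkey, sc_mul_mem_HB] at hy
      exact hy
    have h2 : x⁻¹ * Cub.Inc γ * x ∈ HB w (3 * m) := by
      have h3 := N_mem_HB hr hy
      rw [hNk, sc_mul_mem_HB, hyx, htγ] at h3
      exact h3
    have h3 : x⁻¹ * u * x ∈ HB w (3 * m) :=
      conj_mem_HB (Γ := Cub.Inc γ₁) (ht := htw) (hd := hdw) hΓd ((hcompB x).mpr h2) hu
    have h4 : x⁻¹ * C.S x ∈ HB w (3 * m) := by
      have : x⁻¹ * C.S x = (x⁻¹ * u * x)⁻¹ * (x⁻¹ * u * C.S x) := by group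
      rw [this]
      exact mul_mem (inv_mem h3) h1
    rcases hdesc x h4 with ⟨z, hz⟩ | ⟨j, hj, z, hz⟩
    · left
      refine ⟨z, ?_, htd, ?_⟩
      · rw [← HB_Inc_ram hr, ← hInc]
        have : (Cub.Inc z : G2 L)⁻¹ * Cub.Inc γ * Cub.Inc z =
            ((Cub.Inc z : G2 L)⁻¹ * x) * (x⁻¹ * Cub.Inc γ * x) * ((Cub.Inc z : G2 L)⁻¹ * x)⁻¹ := by
          group
        rw [this]
        have hz' := HT_le_HB w _ hz
        exact mul_mem (mul_mem hz' h2) (inv_mem hz')
      · have : (t * Cub.Inc z)⁻¹ * y = (Cub.Inc z : G2 L)⁻¹ * x := by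
          rw [hx]; group
        rw [this]; exact hz
    · right
      refine ⟨j, hj, z, ?_, htd, ?_⟩
      · -- `dg⁻¹ κ dg ∈ HB w (3m)` implies `κ ∈ HT v m`
        set κ : G2 K := z⁻¹ * γ * z with hκ
        set P : G2 L := (dg (d j))⁻¹ * Cub.Inc κ * dg (d j) with hP
        have hPB : P ∈ HB w (3 * m) := by
          have : P = ((Cub.Inc z * dg (d j))⁻¹ * x) * (x⁻¹ * Cub.Inc γ * x) *
              ((Cub.Inc z * dg (d j))⁻¹ * x)⁻¹ := by
            rw [hP, hκ, ← hInc]; group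
          rw [this]
          exact mul_mem (mul_mem hz h2) (inv_mem hz)
        have hPv := dg_tw_entries (d := d j) (σd := d j) (Cub.Inc κ)
        rw [← hP] at hPv
        have hdj := (d j).ne_zero
        have P00 : P.1 0 0 = algebraMap K L (κ.1 0 0) := by
          rw [hPv]; simp; field_simp
        have P01 : P.1 0 1 = (d j : L)⁻¹ * algebraMap K L (κ.1 0 1) := by rw [hPv]; simp
        have P10 : P.1 1 0 = algebraMap K L (κ.1 1 0) * d j := by rw [hPv]; simp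
        have P11 : P.1 1 1 = algebraMap K L (κ.1 1 1) := by rw [hPv]; simp
        obtain ⟨p00, p11⟩ := av_diag_of_mem w _ hPB
        have p01 := av_le_nm w P.1 0 1
        obtain ⟨-, -, p10⟩ := hPB
        rw [P00, hr.av_eq] at p00
        rw [P11, hr.av_eq, ← p00] at p11
        rw [P01, map_mul, map_inv₀, hr.av_eq, ← p00, hd.val j] at p01
        rw [P10, map_mul, hr.av_eq, ← p00, hd.val j, hqv] at p10
        have hq := one_lt_qv v
        have hq0 := qv_pos v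
        have hqi : 0 < (qv v)⁻¹ := inv_pos.mpr hq0
        have hqi1 : (qv v)⁻¹ < 1 := inv_lt_one_of_one_lt₀ hq
        have hj1 : 1 ≤ (j : ℕ) := Nat.one_le_iff_ne_zero.mpr (fun h => hj (Fin.ext h))
        have hjle : (j : ℕ) ≤ 2 := by omega
        have hjpos : 0 < (qv v)⁻¹ ^ (j : ℕ) := pow_pos hqi _
        have hjlt : (qv v)⁻¹ ^ (j : ℕ) < 1 := pow_lt_one₀ hqi.le hqi1 (by omega)
        set n : ℝ := av v (κ.1 0 0) with hn
        have hn0 : 0 < n := by
          rw [hn]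
          apply (av v).pos
          intro h0
          have h5 := nm_pos w P
          rw [← p00, hn, h0, map_zero] at h5
          norm_num at h5
        have hn3 : 0 < n ^ 3 := pow_pos hn0 3
        have k11 : av v (κ.1 1 1) = n :=
          (pow_left_inj₀ ((av v).nonneg _) hn0.le (by norm_num)).mp p11
        have k01 : av v (κ.1 0 1) < n := by
          rw [hqv, inv_mul_le_iff₀ hjpos] at p01
          have h5 : av v (κ.1 0 1) ^ 3 < n ^ 3 := by
            refine p01.trans_lt ?_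
            calc (qv v)⁻¹ ^ (j : ℕ) * n ^ 3 < 1 * n ^ 3 := mul_lt_mul_of_pos_right hjlt hn3
              _ = n ^ 3 := one_mul _
          exact lt_of_pow_lt_pow_left₀ 3 hn0.le h5
        have k10 : av v (κ.1 1 0) ≤ n * (qv v)⁻¹ ^ m := by
          -- strict inequality with exponent `m - 1`
          have h5 : av v (κ.1 1 0) ^ 3 * (qv v)⁻¹ ^ 2 ≤ n ^ 3 * (qv v)⁻¹ ^ (3 * m) := by
            refine le_trans ?_ p10
            exact mul_le_mul_of_nonneg_left (pow_le_pow_of_le_one hqi.le hqi1.le hjle)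
              (by positivity)
          have h6 : av v (κ.1 1 0) ^ 3 < (n * (qv v)⁻¹ ^ m * qv v) ^ 3 := by
            have h7 : (n * (qv v)⁻¹ ^ m * qv v) ^ 3 * (qv v)⁻¹ ^ 3 =
                n ^ 3 * (qv v)⁻¹ ^ (3 * m) := by
              rw [mul_pow, mul_pow, mul_assoc _ (qv v ^ 3), ← mul_pow (qv v),
                mul_inv_cancel₀ hq0.ne', one_pow, mul_one, ← pow_mul, mul_comm m 3]
            rw [← h7] at h5
            have h8 : av v (κ.1 1 0) ^ 3 ≤ (n * (qv v)⁻¹ ^ m * qv v) ^ 3 * (qv v)⁻¹ := by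
              have h9 : (qv v)⁻¹ ^ 3 = (qv v)⁻¹ * (qv v)⁻¹ ^ 2 := by ring
              rw [h9, ← mul_assoc] at h5
              exact le_of_mul_le_mul_right h5 (by positivity)
            have h10 : 0 < (n * (qv v)⁻¹ ^ m * qv v) ^ 3 := by positivity
            calc av v (κ.1 1 0) ^ 3 ≤ _ := h8
              _ < (n * (qv v)⁻¹ ^ m * qv v) ^ 3 * 1 := mul_lt_mul_of_pos_left hqi1 h10
              _ = _ := mul_one _
          have h7 : av v (κ.1 1 0) < n * (qv v)⁻¹ ^ m * qv v :=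
            lt_of_pow_lt_pow_left₀ 3 (by positivity) h6
          obtain ⟨N, hN'⟩ := Tr.av_zpow v (x := κ.1 0 0) (by
            intro h0
            rw [hn, h0, map_zero] at hn0
            exact lt_irrefl _ hn0)
          have h8 : n * (qv v)⁻¹ ^ m * qv v = qv v ^ (N - m + 1) := by
            rw [hn, hN', zpow_add₀ hq0.ne', zpow_sub₀ hq0.ne', zpow_one, zpow_natCast, inv_pow]
            rfl
          rw [h8] at h7
          have h9 := Tr.av_le_of_lt v h7
          have h10 : n * (qv v)⁻¹ ^ m = qv v ^ (N - m + 1 - 1) := by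
            rw [add_sub_cancel_right, hn, hN', zpow_sub₀ hq0.ne', zpow_natCast, inv_pow]
            rfl
          rw [h10]; exact h9
        have k10' : av v (κ.1 1 0) < n := by
          refine k10.trans_lt ?_
          calc n * (qv v)⁻¹ ^ m < n * 1 :=
                mul_lt_mul_of_pos_left (pow_lt_one₀ hqi.le hqi1 (by omega)) hn0
            _ = n := mul_one _
        have hnm : nm v κ.1 = n := by
          apply le_antisymm
          · rw [nm_le_iff]
            intro i j'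
            fin_cases i <;> fin_cases j'
            · exact le_rfl
            · exact k01.le
            · exact k10'.le
            · exact k11.le
          · exact av_le_nm v κ.1 0 0
        have hdet : av v κ.1.det = n ^ 2 := by
          have e1 : av v (κ.1 0 0 * κ.1 1 1) = n ^ 2 := by rw [map_mul, k11, ← hn, sq]
          rw [← e1]
          apply Tr.av_eq_of_sub_lt
          rw [e1, Matrix.det_fin_two, sub_sub_cancel_left, (av v).map_neg, map_mul, sq]
          calc av v (κ.1 0 1) * av v (κ.1 1 0) ≤ av v (κ.1 0 1) * n :=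
                mul_le_mul_of_nonneg_left k10'.le ((av v).nonneg _)
            _ < n * n := mul_lt_mul_of_pos_right k01 hn0
        have hstd : κ ∈ stdH v := by
          rw [mem_stdH, Fermat.Agent.LT.CTree.nm_inv, hnm, hdet]
          apply le_of_eq
          field_simp
        exact ⟨⟨hstd, by rw [hnm]; exact k10', by rw [hnm]; exact k10⟩, by rw [hnm]; exact k01⟩
      · have : (t * Cub.Inc z * dg (d j))⁻¹ * y = (Cub.Inc z * dg (d j) : G2 L)⁻¹ * x := by
          rw [hx]; group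
        rw [this]; exact hz

/-- existence of the matching, modulo the descent statement -/
theorem exists_RBMatch_of (hr : Ram C v w) (h4 : qv v = 4)
    {m : ℕ} (hm : 1 ≤ m) {d : Fin 3 → Lˣ} (hd : RBd C w d) {γ : G2 K}
    (hns : ¬ IsSc (γ : Matrix (Fin 2) (Fin 2) K))
    {δ : G2 L} (hδ : δ ∈ Cub.Z (L := L) γ) {c : Lˣ} (hN : C.N δ = Cub.sc c * Cub.Inc γ)
    (hdesc : ∀ x : G2 L, x⁻¹ * C.S x ∈ HB w (3 * m) →
      (∃ z : G2 K, (Cub.Inc z)⁻¹ * x ∈ HT w (3 * m)) ∨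
      ∃ j : Fin 3, j ≠ 0 ∧ ∃ z : G2 K, (Cub.Inc z * dg (d j))⁻¹ * x ∈ HB w (3 * m)) :
    ∃ t : G2 L, RBMatch C v w m γ δ t d := by
  have T : Tame C w := Tame.of_RBd hr h4 hd
  by_cases hnrm : Nrm v γ
  · obtain ⟨μ, hd1, ht1⟩ := hnrm
    set γ₁ : G2 K := sc μ * γ with hγ₁
    set μL : Lˣ := Units.map (algebraMap K L).toMonoidHom μ with hμL
    have hIγ₁ : (Cub.Inc γ₁ : G2 L) = Cub.sc μL * Cub.Inc γ := by
      rw [hγ₁, map_mul]
      congr 1
      exact Matrix.GeneralLinearGroup.map_scalar _ _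
    have hZ : Cub.Z (L := L) γ₁ = Cub.Z (L := L) γ := Z_sc_mul μ
    have hns₁ : ¬ IsSc (γ₁ : Matrix (Fin 2) (Fin 2) K) := by
      rw [isSc_iff] at hns ⊢
      have hv : (γ₁ : Matrix (Fin 2) (Fin 2) K) = (μ : K) • γ.1 := sc_mul_val μ γ
      rw [hv]
      simp only [Matrix.smul_apply, smul_eq_mul]
      intro hcon
      apply hns
      refine ⟨?_, ?_, ?_⟩
      · exact (mul_eq_zero.mp hcon.1).resolve_left μ.ne_zero
      · exact (mul_eq_zero.mp hcon.2.1).resolve_left μ.ne_zero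
      · exact mul_left_cancel₀ μ.ne_zero hcon.2.2
    have hdw : av w (Gm L γ₁).det = 1 := by
      have := (Tr.av_v_cube hr γ₁).1
      rw [hd1, one_pow] at this
      exact this
    have htw : av w (Gm L γ₁).trace < 1 := by
      have := (Tr.av_v_cube hr γ₁).2
      have h1 : av w (Gm L γ₁).trace = av v γ₁.1.trace ^ 3 := this
      rw [h1]
      exact pow_lt_one₀ ((av v).nonneg _) ht1 (by norm_num)
    -- rescale `δ`
    set c₁ : Lˣ := c * μL⁻¹ with hc₁
    have hN₁ : C.N δ = Cub.sc c₁ * Cub.Inc γ₁ := by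
      rw [hN, hIγ₁, ← mul_assoc, ← Cub.sc_mul, hc₁, inv_mul_cancel_right]
    set D : Lˣ := Matrix.GeneralLinearGroup.det δ with hD
    have hdet : av w (D : L) ^ 3 = av w (c₁ : L) ^ 2 := by
      have h1 : av w (C.N δ).1.det = av w (Cub.sc c₁ * Cub.Inc γ₁ : G2 L).1.det := by rw [hN₁]
      rw [Cub.coe_N, C.det_nm, map_mul, map_mul, T.av_σ, T.av_σ, T.av_σ, Units.val_mul,
        Matrix.det_mul, Cub.det_sc, map_mul, map_pow] at h1
      have h2 : av w ((Cub.Inc γ₁ : G2 L)).1.det = 1 := hdw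
      rw [h2, mul_one] at h1
      rw [← h1]
      change av w δ.1.det ^ 3 = _
      ring
    set b : Lˣ := D * c₁⁻¹ with hb
    have hNb : C.N (Cub.sc b * δ) = Cub.sc (C.nu b * c₁) * Cub.Inc γ₁ := by
      rw [C.N_mul hns (Cub.sc_mem_Z _ _) hδ, C.N_sc, hN₁, ← mul_assoc, ← Cub.sc_mul]
    have hc0 : av w (c₁ : L) ≠ 0 := (av w).ne_zero c₁.ne_zero
    have hunit : av w ((C.nu b * c₁ : Lˣ) : L) = 1 := by
      rw [Units.val_mul, C.coe_nu, Cub.nL, map_mul, map_mul, map_mul, T.av_σ, T.av_σ, T.av_σ,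
        hb, Units.val_mul, map_mul, Units.val_inv_eq_inv_val, map_inv₀]
      have : av w (D : L) * (av w (c₁ : L))⁻¹ * (av w (D : L) * (av w (c₁ : L))⁻¹) *
          (av w (D : L) * (av w (c₁ : L))⁻¹) * av w (c₁ : L) =
          av w (D : L) ^ 3 * ((av w (c₁ : L)) ^ 2)⁻¹ := by
        field_simp
      rw [this, hdet]
      exact mul_inv_cancel₀ (pow_ne_zero 2 hc0)
    have e : (Cub.sc (C.nu b * c₁) * Cub.Inc γ₁ : G2 L).1 =
        ((C.nu b * c₁ : Lˣ) : L) • Gm L γ₁ := by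
      rw [Units.val_mul, Cub.coe_sc, Matrix.smul_mul, one_mul, Cub.coe_Inc]
    have hNmem : C.N (Cub.sc b * δ) ∈ RU w (Gm L γ₁) htw.le hdw.le := by
      rw [hNb]
      refine ⟨?_, ?_⟩
      · rw [e]
        have := (Rc.self (w := w) (Γ := Gm L γ₁)).smul hunit.le
        rwa [mul_one] at this
      · rw [e, Matrix.det_smul, map_mul, Fintype.card_fin, map_pow, hunit, one_pow, one_mul, hdw]
    have hNt : av w (C.N (Cub.sc b * δ)).1.trace < 1 := by
      rw [hNb, e, Matrix.trace_smul, smul_eq_mul, map_mul, hunit, one_mul]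
      exact htw
    have hNd : av w ((C.N (Cub.sc b * δ)).1.det - 1) < 1 := by
      have h1 : (C.N (Cub.sc b * δ)).1.det = C.nL (Cub.sc b * δ).1.det := by
        rw [Cub.coe_N, Cub.det_nm]; rfl
      have h2 : av w (Cub.sc b * δ).1.det = 1 := by
        have h3 := hNmem.2
        rw [h1, Cub.nL, map_mul, map_mul, T.av_σ, T.av_σ, T.av_σ] at h3
        have h4 : av w (Cub.sc b * δ).1.det ^ 3 = 1 := by rw [← h3]; ring
        exact (pow_eq_one_iff_of_nonneg ((av w).nonneg _) (by norm_num)).mp h4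
      rw [h1]
      exact T.nL_sub_one_lt h2
    have hbδ : Cub.sc b * δ ∈ Cub.Z (L := L) γ₁ := by
      rw [hZ]; exact mul_mem (Cub.sc_mem_Z _ _) hδ
    obtain ⟨t, ht1', ht2⟩ := T.exists_tw hns₁ htw.le hdw.le hbδ hNmem hNt hNd
    rw [hZ] at ht1'
    have e : t⁻¹ * (Cub.sc b * δ) * C.S t = Cub.sc b * (t⁻¹ * δ * C.S t) := by
      rw [← mul_assoc t⁻¹, ← Cub.sc_comm]; simp only [mul_assoc]
    rw [e] at ht2
    exact ⟨t, RBMatch_of_tw T hr hm hd hns hδ hN hd1 ht1 htw.le hdw.le ht1' ht2 hdesc⟩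
  · refine ⟨1, one_mem _, ?_, ?_, ?_, ?_⟩
    · intro z
      constructor
      · intro h
        exact absurd (Nrm.of_L T hr hN h) hnrm
      · rintro ⟨h1, h2⟩
        exact absurd (Nrm.of_K h1.1 h2) hnrm
    · intro z
      constructor
      · intro h
        exact absurd (Nrm.of_L T hr hN (HT_le_HB w _ h)) hnrm
      · rintro ⟨h1, h2⟩
        exact absurd (Nrm.of_K h1.1.1 h2) hnrm
    · intro j _ z hz htd
      exact absurd (Nrm.of_K hz.1.1 htd) hnrm
    · intro y hy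
      exact absurd (Nrm.of_L T hr hN hy) hnrm

end Fermat.LT.RBv
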