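import Fermat.Agent.LTG.RB.Wrap
import Fermat.Agent.LTG.RB.Desc
import Fermat.Agent.LTG.RB.Val

/-!
# LTG: local matching at a bad totally ramified place with residue field `F₄`
(helper84, from the pieces of helper92 and helper96)
-/

set_option autoImplicit false

open NumberField IsDedekindDomain Matrix
open Fermat.Agent.LT.D

namespace Fermat.LT

variable {K L : Type} [Field K] [NumberField K] [Field L] [NumberField L] [Algebra K L]
  {C : Cub K L} {v : Pl K} {w : Pl L}

/-- **Local matching at a bad totally ramified place with residue field `F₄`.** -/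
theorem exists_RBMatch (hr : Ram C v w) (h4 : qv v = 4)
    {m : ℕ} (hm : 1 ≤ m) {d : Fin 3 → Lˣ} (hd : RBd C w d) {γ : G2 K} (hD : Disc γ.1)
    {δ : G2 L} (hδ : δ ∈ Cub.Z (L := L) γ) {c : Lˣ} (hN : C.N δ = Cub.sc c * Cub.Inc γ) :
    ∃ t : G2 L, RBMatch C v w m γ δ t d :=
  RBv.exists_RBMatch_of hr h4 hm hd hD.not_isSc hδ hN (Ram.desc_RB hr h4 hm hd)

end Fermat.LT
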