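import Fermat.Agent.LTG.RBDefs
import Fermat.Agent.LT.Geo.Ram

/-!
# S47, piece RB: totally ramified places with residue field `F_4`, base file
-/

set_option autoImplicit false
set_option linter.unusedSectionVars false
set_option linter.unusedVariables false

open NumberField IsDedekindDomain Matrix
open Fermat.Agent.LT.D Fermat.Agent.LT.CTree

namespace Fermat.LT.RB

section residue

variable {F : Type} [Field F] [NumberField F] {w : Pl F}

theorem card_res (w : Pl F) (h4 : qv w = 4) : Nat.card (𝓞 F ⧸ w.asIdeal) = 4 := by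
  unfold qv at h4
  have h2 : Ideal.absNorm w.asIdeal = 4 := by exact_mod_cast h4
  rwa [Ideal.absNorm_apply, Submodule.cardQuot_apply] at h2

theorem av_two (h4 : qv w = 4) : av w (2 : F) < 1 := by
  have hc := card_res w h4
  have hfin : Finite (𝓞 F ⧸ w.asIdeal) := Nat.finite_of_card_ne_zero (by rw [hc]; norm_num)
  have h1 : (4 : ℕ) • (1 : 𝓞 F ⧸ w.asIdeal) = 0 := by
    rw [← hc]
    exact card_nsmul_eq_zero'
  have h2 : (2 : 𝓞 F ⧸ w.asIdeal) * 2 = 0 := by
    have : (4 : ℕ) • (1 : 𝓞 F ⧸ w.asIdeal) = 2 * 2 := by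
      rw [nsmul_eq_mul]
      push_cast
      norm_num
    rw [← this, h1]
  have : w.asIdeal.IsPrime := w.isPrime
  have h3 : (2 : 𝓞 F ⧸ w.asIdeal) = 0 := by
    rcases mul_eq_zero.mp h2 with h | h <;> exact h
  have h4 : (2 : 𝓞 F) ∈ w.asIdeal := by
    rw [← Ideal.Quotient.eq_zero_iff_mem, map_ofNat]
    exact h3
  have h5 := (E.av_int_lt_one_iff w (2 : 𝓞 F)).mpr h4
  rwa [map_ofNat] at h5

theorem av_cube (h4 : qv w = 4) {x : F} (hx : av w x = 1) : av w (x ^ 3 - 1) < 1 := by
  obtain ⟨a, ha⟩ := E.exists_int_approx w hx.le (Tr.qinv_pos w)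
  have ha' : av w (x - algebraMap (𝓞 F) F a) < 1 := ha.trans_lt (Tr.qinv_lt_one w)
  have ha1 : av w (algebraMap (𝓞 F) F a) = 1 := by
    have h1 : av w (algebraMap (𝓞 F) F a - x) < av w x := by
      rw [← (av w).map_neg, neg_sub, hx]; exact ha'
    rw [Tr.av_eq_of_sub_lt w h1, hx]
  have hmem : a ∉ w.asIdeal := (E.av_int_eq_one_iff w a).mp ha1
  have hc := card_res w h4
  have hfin : Finite (𝓞 F ⧸ w.asIdeal) := Nat.finite_of_card_ne_zero (by rw [hc]; norm_num)
  have : w.asIdeal.IsMaximal := w.isMaximal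
  let _ : Field (𝓞 F ⧸ w.asIdeal) := Ideal.Quotient.field w.asIdeal
  let _ : Fintype (𝓞 F ⧸ w.asIdeal) := Fintype.ofFinite _
  have h0 : (Ideal.Quotient.mk w.asIdeal a) ≠ 0 := by
    rwa [Ne, Ideal.Quotient.eq_zero_iff_mem]
  have h1 := FiniteField.pow_card_sub_one_eq_one _ h0
  rw [← Nat.card_eq_fintype_card, hc, ← map_pow, ← map_one (Ideal.Quotient.mk w.asIdeal),
    Ideal.Quotient.eq] at h1
  have h2 := (E.av_int_lt_one_iff w _).mpr h1
  rw [map_sub, map_one, map_pow] at h2
  have e : x ^ 3 - 1 = (x - algebraMap (𝓞 F) F a) *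
      (x ^ 2 + x * algebraMap (𝓞 F) F a + algebraMap (𝓞 F) F a ^ 2) +
      (algebraMap (𝓞 F) F a ^ (4 - 1) - 1) := by ring
  rw [e]
  refine Tr.av_add_lt w ?_ h2
  have h3 : av w (x ^ 2 + x * algebraMap (𝓞 F) F a + algebraMap (𝓞 F) F a ^ 2) ≤ 1 := by
    refine (av_add_le w _ _).trans (max_le ((av_add_le w _ _).trans (max_le ?_ ?_)) ?_)
    · rw [map_pow, hx, one_pow]
    · rw [map_mul, hx, ha1, one_mul]
    · rw [map_pow, ha1, one_pow]
  calc av w ((x - algebraMap (𝓞 F) F a) *
      (x ^ 2 + x * algebraMap (𝓞 F) F a + algebraMap (𝓞 F) F a ^ 2))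
      = av w (x - algebraMap (𝓞 F) F a) *
        av w (x ^ 2 + x * algebraMap (𝓞 F) F a + algebraMap (𝓞 F) F a ^ 2) := map_mul _ _ _
    _ ≤ av w (x - algebraMap (𝓞 F) F a) * 1 := mul_le_mul_of_nonneg_left h3 ((av w).nonneg _)
    _ < 1 := by rw [mul_one]; exact ha'

theorem av_three (h4 : qv w = 4) : av w (3 : F) = 1 := by
  have e : (3 : F) = 2 + 1 := by norm_num
  rw [e, av_add_eq_of_lt w (by rw [map_one]; exact av_two h4), map_one]

theorem av_one_of_cube' {x : F} (hx : x ^ 3 = 1) : av w x = 1 := by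
  have h1 : av w x ^ 3 = 1 := by rw [← map_pow, hx, map_one]
  exact (pow_eq_one_iff_of_nonneg ((av w).nonneg x) (by norm_num)).mp h1

/-- distinct cube roots of unity are distinct modulo `w` -/
theorem eq_one_of_av (h4 : qv w = 4) {x : F} (hx : x ^ 3 = 1) (h : av w (x - 1) < 1) : x = 1 := by
  by_contra hne
  have h0 : x ^ 2 + x + 1 = 0 := by
    have : (x - 1) * (x ^ 2 + x + 1) = 0 := by linear_combination hx
    exact (mul_eq_zero.mp this).resolve_left (sub_ne_zero.mpr hne)
  have e : (x - 1) ^ 2 = -(3 * x) := by linear_combination h0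
  have h1 : av w (x - 1) ^ 2 = 1 := by
    rw [← map_pow, e, (av w).map_neg, map_mul, av_three h4, av_one_of_cube' hx, one_mul]
  have h2 := (pow_eq_one_iff_of_nonneg ((av w).nonneg _) (by norm_num)).mp h1
  rw [h2] at h
  exact lt_irrefl _ h

end residue

section

variable {K L : Type} [Field K] [NumberField K] [Field L] [NumberField L] [Algebra K L]

/-- `w` totally ramified over `v`, residue field with four elements, `L = K(p)` with
`σ p = z p`, `z` a primitive cube root of one, `p` a uniformizer at `w`. -/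
structure RBD (C : Cub K L) (v : Pl K) (w : Pl L) (z : K) (p : Lˣ) : Prop where
  ram : Ram C v w
  four : qv v = 4
  zeta : z ^ 2 + z + 1 = 0
  unif : av w (p : L) = (qv w)⁻¹
  sig : C.σ (p : L) = algebraMap K L z * p

namespace RBD

variable {C : Cub K L} {v : Pl K} {w : Pl L} {z : K} {p : Lˣ} (h : RBD C v w z p)
include h

theorem four' : qv w = 4 := by rw [h.ram.q_eq, h.four]

theorem z3 : z ^ 3 = 1 := by linear_combination (z - 1) * h.zeta

theorem z_ne : z ≠ 0 := by
  intro h0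
  have := h.z3
  rw [h0] at this
  norm_num at this

theorem av_σ (x : L) : av w (C.σ x) = av w x := av_σ_of_fix C h.ram.fix x

theorem Z3 : (algebraMap K L z) ^ 3 = 1 := by rw [← map_pow, h.z3, map_one]

theorem av_z : av w (algebraMap K L z) = 1 := av_one_of_cube' h.Z3

theorem three : av w (3 : L) = 1 := av_three h.four'

theorem zeta' : algebraMap K L z ^ 2 + algebraMap K L z + 1 = 0 := by
  rw [← map_pow, ← map_add, ← map_one (algebraMap K L), ← map_add, h.zeta, map_zero]

/-- a unit is congruent to a power of `z` -/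
theorem exists_pow {x : L} (hx : av w x = 1) :
    ∃ i : ℕ, i < 3 ∧ av w (x - algebraMap K L z ^ i) < 1 := by
  have hz := h.zeta'
  have hZ1 := h.av_z
  set Z := algebraMap K L z with hZ
  have e : x ^ 3 - 1 = (x - 1) * (x - Z) * (x - Z ^ 2) := by
    linear_combination (x ^ 2 - x * Z - (1 - Z)) * hz
  have h1 := av_cube h.four' hx
  rw [e, map_mul, map_mul] at h1
  have b : ∀ y : L, av w y = 1 → av w (x - y) ≤ 1 := by
    intro y hy
    refine (Tr.av_sub_le w x y).trans ?_
    rw [hx, hy, max_self]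
  have b0 := b 1 (map_one _)
  have b1 := b Z hZ1
  have b2 := b (Z ^ 2) (by rw [map_pow, hZ1, one_pow])
  by_contra hc
  push Not at hc
  have c0 := hc 0 (by norm_num)
  have c1 := hc 1 (by norm_num)
  have c2 := hc 2 (by norm_num)
  rw [pow_zero] at c0
  rw [pow_one] at c1
  have e0 : av w (x - 1) = 1 := le_antisymm b0 c0
  have e1 : av w (x - Z) = 1 := le_antisymm b1 c1
  have e2 : av w (x - Z ^ 2) = 1 := le_antisymm b2 c2
  rw [e0, e1, e2] at h1
  norm_num at h1

/-- `σ` is trivial on the residue field -/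
theorem av_σ_sub {x : L} (hx : av w x ≤ 1) : av w (C.σ x - x) < 1 := h.ram.rtriv.res x hx

/-- an integral element of `L` is congruent to an element of `K` -/
theorem exists_K {x : L} (hx : av w x ≤ 1) :
    ∃ y : K, av w (algebraMap K L y) ≤ 1 ∧ av w (x - algebraMap K L y) < 1 := by
  obtain ⟨a, ha⟩ := E.exists_int_approx w hx (Tr.qinv_pos w)
  obtain ⟨b, hb⟩ := h.ram.exists_res a
  have h1 : av w (x - algebraMap (𝓞 L) L a) < 1 := ha.trans_lt (Tr.qinv_lt_one w)
  have h2 : av w (algebraMap (𝓞 L) L (a - algebraMap (𝓞 K) (𝓞 L) b)) < 1 :=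
    (E.av_int_lt_one_iff w _).mpr hb
  have h3 : av w (x - algebraMap K L (algebraMap (𝓞 K) K b)) < 1 := by
    have e : x - algebraMap K L (algebraMap (𝓞 K) K b) = (x - algebraMap (𝓞 L) L a) +
        algebraMap (𝓞 L) L (a - algebraMap (𝓞 K) (𝓞 L) b) := by
      rw [map_sub]
      have : algebraMap (𝓞 L) L (algebraMap (𝓞 K) (𝓞 L) b) =
        algebraMap K L (algebraMap (𝓞 K) K b) := rfl
      rw [this]; ring
    rw [e]
    exact Tr.av_add_lt w h1 h2
  refine ⟨algebraMap (𝓞 K) K b, ?_, h3⟩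
  have e : algebraMap K L (algebraMap (𝓞 K) K b) =
      x - (x - algebraMap K L (algebraMap (𝓞 K) K b)) := by ring
  rw [e]
  exact (Tr.av_sub_le w _ _).trans (max_le hx h3.le)

end RBD

/-- the data `RBd` give an `RBD`; the second twisting element is the square of the first one up to a
unit of `K` -/
theorem exists_RBD {C : Cub K L} {v : Pl K} {w : Pl L} (hr : Ram C v w) (h4 : qv v = 4)
    {d : Fin 3 → Lˣ} (hd : RBd C w d) :
    ∃ z : K, RBD C v w z (d 1) ∧ ∃ u : Kˣ, av w (algebraMap K L u) = 1 ∧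
      (d 2 : L) = algebraMap K L u * (d 1 : L) ^ 2 := by
  obtain ⟨z, hz3, hzσ, hz1⟩ := hd.tw 1
  obtain ⟨z2, hz23, hz2σ, hz21⟩ := hd.tw 2
  have h4' : qv w = 4 := by rw [hr.q_eq, h4]
  have hz : (z : K) ^ 2 + z + 1 = 0 := by
    have h1 : (z : K) - 1 ≠ 0 := by
      intro h0
      have := hz1 (by decide)
      rw [← map_one (algebraMap K L), ← map_sub, h0, map_zero, map_zero] at this
      exact zero_ne_one this
    have : ((z : K) - 1) * ((z : K) ^ 2 + z + 1) = 0 := by linear_combination hz3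
    exact (mul_eq_zero.mp this).resolve_left h1
  have hD : RBD C v w z (d 1) := ⟨hr, h4, hz, by simpa using hd.val 1, hzσ⟩
  refine ⟨z, hD, ?_⟩
  set u' : L := (d 2 : L) * ((d 1 : L) ^ 2)⁻¹ with hu'
  have hd1 : (d 1 : L) ≠ 0 := (d 1).ne_zero
  have hd2 : (d 2 : L) ≠ 0 := (d 2).ne_zero
  have hu1 : av w u' = 1 := by
    rw [hu', map_mul, map_inv₀, map_pow, hd.val 2, hd.val 1]
    have hq : (qv w)⁻¹ ≠ 0 := (Tr.qinv_pos w).ne'
    have e1 : ((2 : Fin 3) : ℕ) = 2 := rfl
    have e2 : ((1 : Fin 3) : ℕ) = 1 := rfl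
    rw [e1, e2, pow_one]
    exact mul_inv_cancel₀ (pow_ne_zero 2 hq)
  have hσu : C.σ u' = algebraMap K L (z2 * z) * u' := by
    rw [hu', map_mul, map_inv₀, map_pow, hz2σ, hzσ, map_mul, mul_pow, mul_inv]
    have e : (algebraMap K L (z : K) ^ 2)⁻¹ = algebraMap K L z := by
      have : algebraMap K L (z : K) * algebraMap K L (z : K) ^ 2 = 1 := by
        rw [← pow_succ', ← map_pow, hz3, map_one]
      exact inv_eq_of_mul_eq_one_left this
    rw [e]
    ring
  have hone : (z2 : K) * z = 1 := by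
    have h3 : (algebraMap K L ((z2 : K) * z)) ^ 3 = 1 := by
      rw [← map_pow, mul_pow, hz23, hz3, one_mul, map_one]
    have h5 : av w (algebraMap K L ((z2 : K) * z) - 1) < 1 := by
      have h6 := hD.av_σ_sub hu1.le
      rw [hσu] at h6
      have e : algebraMap K L ((z2 : K) * z) * u' - u' =
        (algebraMap K L ((z2 : K) * z) - 1) * u' := by ring
      rwa [e, map_mul, hu1, mul_one] at h6
    have h7 := eq_one_of_av h4' h3 h5
    rw [← map_one (algebraMap K L)] at h7
    exact (algebraMap K L).injective h7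
  obtain ⟨u, hu⟩ := C.fixed u' (by rw [hσu, hone, map_one, one_mul])
  have hu0 : u ≠ 0 := by
    intro h0
    rw [h0, map_zero] at hu
    rw [← hu, map_zero] at hu1
    exact zero_ne_one hu1
  refine ⟨Units.mk0 u hu0, ?_, ?_⟩
  · rw [Units.val_mk0, hu, hu1]
  · rw [Units.val_mk0, hu, hu']
    field_simp

end

end Fermat.LT.RB
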