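import Fermat.Agent.LT.Geo.InertTw
import Fermat.Agent.LT.Geo.Ram
import Fermat.Agent.LTG.RBDefs

/-!
# LTG, local matching at a totally (tamely) ramified place with residue field `F_4` (torus part)

* `Tame C w` : the hypothesis package (`σ` isometric and trivial on the residue field, `2 ≡ 0`,
  `x³ ≡ 1` for units, a uniformiser `ϖ` with `σ ϖ = ζ ϖ`, `ζ² + ζ + 1 = 0`, `σ ζ = ζ`);
* `Tame.exists_tw` : if `N δ` is a unit of `O_w[γ₁]` with `tr ≡ 0`, `det ≡ 1`, then `δ` is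
  `σ`-conjugate inside the centraliser of `γ₁` to a unit of `O_w[γ₁]`.
-/

set_option autoImplicit false
set_option linter.unusedSectionVars false

open NumberField IsDedekindDomain Matrix
open Fermat.Agent.LT.D

namespace Fermat.LT

section

variable {K L : Type} [Field K] [NumberField K] [Field L] [NumberField L] [Algebra K L]
  (C : Cub K L)

/-- `w` is tamely totally ramified over `K` with residue field `F_4`. -/
structure Tame (w : Pl L) : Prop where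
  av_σ : ∀ x, av w (C.σ x) = av w x
  res : ∀ x, av w x ≤ 1 → av w (C.σ x - x) < 1
  two : av w (2 : L) < 1
  cube : ∀ x : L, av w x = 1 → av w (x ^ 3 - 1) < 1
  unif : ∃ ϖ ζ : L, av w ϖ = (qv w)⁻¹ ∧ C.σ ϖ = ζ * ϖ ∧ C.σ ζ = ζ ∧ ζ ^ 2 + ζ + 1 = 0

variable {C} {w : Pl L}

theorem av_three_of_two (h : av w (2 : L) < 1) : av w (3 : L) = 1 := by
  have e : (3 : L) = 1 + 2 := by norm_num
  rw [e]
  exact av_eq_one_of_add h

theorem av_two_of_four {F : Type} [Field F] [NumberField F] {w : Pl F} (h4 : qv w = 4) :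
    av w (2 : F) < 1 := by
  have h1 : (4 : 𝓞 F) ∈ w.asIdeal := by
    have h2 := Ideal.absNorm_mem w.asIdeal
    have h3 : Ideal.absNorm w.asIdeal = 4 := by
      have : (Ideal.absNorm w.asIdeal : ℝ) = 4 := h4
      exact_mod_cast this
    rw [h3] at h2
    exact_mod_cast h2
  have h2 : (2 : 𝓞 F) ∈ w.asIdeal := by
    have e : (4 : 𝓞 F) = 2 * 2 := by norm_num
    rw [e] at h1
    rcases w.isPrime.mem_or_mem h1 with h | h <;> exact h
  have h3 := (E.av_int_lt_one_iff w (2 : 𝓞 F)).mpr h2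
  rwa [map_ofNat] at h3

theorem av_cube_of_four {F : Type} [Field F] [NumberField F] {w : Pl F} (h4 : qv w = 4) {x : F}
    (hx : av w x = 1) : av w (x ^ 3 - 1) < 1 := by
  have hq := one_lt_qv w
  obtain ⟨a, ha⟩ := E.exists_int_approx w hx.le (inv_pos.mpr (qv_pos w))
  set y : F := algebraMap (𝓞 F) F a with hy
  have ha1 : av w (x - y) < 1 := ha.trans_lt (inv_lt_one_of_one_lt₀ hq)
  have hya : av w y = 1 := by
    rw [← hx]
    apply Tr.av_eq_of_sub_lt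
    rw [hx, ← (av w).map_neg, neg_sub]
    exact ha1
  have haw : a ∉ w.asIdeal := (E.av_int_eq_one_iff w a).mp hya
  have hcard : Nat.card (𝓞 F ⧸ w.asIdeal) = 4 := by
    rw [Fermat.Agent.LT.CTree.card_res]
    have : (Fermat.Agent.LT.CTree.qn w : ℝ) = 4 := h4
    exact_mod_cast this
  have hfin : Finite (𝓞 F ⧸ w.asIdeal) := Nat.finite_of_card_ne_zero (by rw [hcard]; norm_num)
  have hft : Fintype (𝓞 F ⧸ w.asIdeal) := Fintype.ofFinite _
  have hmax : w.asIdeal.IsMaximal := w.isPrime.isMaximal w.ne_bot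
  let _ : Field (𝓞 F ⧸ w.asIdeal) := Ideal.Quotient.field w.asIdeal
  have h1 : (Ideal.Quotient.mk w.asIdeal a) ^ 3 = 1 := by
    have h2 := FiniteField.pow_card_sub_one_eq_one (Ideal.Quotient.mk w.asIdeal a)
      (by rw [Ne, Ideal.Quotient.eq_zero_iff_mem]; exact haw)
    rw [← Nat.card_eq_fintype_card, hcard] at h2
    exact h2
  have h2 : a ^ 3 - 1 ∈ w.asIdeal := by
    rw [← Ideal.Quotient.eq_zero_iff_mem, map_sub, map_pow, h1, map_one, sub_self]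
  have h3 : av w (y ^ 3 - 1) < 1 := by
    have := (E.av_int_lt_one_iff w _).mpr h2
    rwa [map_sub, map_pow, map_one] at this
  have e : x ^ 3 - 1 = (x - y) * (x ^ 2 + x * y + y ^ 2) + (y ^ 3 - 1) := by ring
  rw [e]
  refine (av_add_le w _ _).trans_lt (max_lt ?_ h3)
  rw [map_mul]
  have h4 : av w (x ^ 2 + x * y + y ^ 2) ≤ 1 := by
    refine (av_add_le w _ _).trans (max_le ((av_add_le w _ _).trans (max_le ?_ ?_)) ?_)
    · rw [map_pow, hx, one_pow]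
    · rw [map_mul, hx, hya, one_mul]
    · rw [map_pow, hya, one_pow]
  exact (mul_le_of_le_one_right ((av w).nonneg _) h4).trans_lt ha1

theorem Tame.of_RBd {v : Pl K} (hr : Ram C v w) (h4 : qv v = 4) {d : Fin 3 → Lˣ}
    (hd : RBd C w d) : Tame C w where
  av_σ := av_σ_of_fix C hr.fix
  res := hr.rtriv.res
  two := av_two_of_four (by rw [hr.q_eq, h4])
  cube x hx := av_cube_of_four (by rw [hr.q_eq, h4]) hx
  unif := by
    obtain ⟨ζ, h1, h2, h3⟩ := hd.tw 1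
    have h4 := hd.val 1
    refine ⟨d 1, algebraMap K L ζ, by rw [h4]; norm_num, h2, C.σ.commutes _, ?_⟩
    have h5 : (algebraMap K L ζ) - 1 ≠ 0 := by
      intro h0
      have := h3 (by decide)
      rw [h0, map_zero] at this
      exact zero_ne_one this
    apply mul_left_cancel₀ h5
    have h6 : (algebraMap K L ζ) ^ 3 = 1 := by rw [← map_pow, h1, map_one]
    linear_combination h6

theorem Tame.three (h : Tame C w) : av w (3 : L) = 1 := av_three_of_two h.two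

/-- a dual basis with denominators bounded by `q²` -/
theorem Tame.exists_dual (h : Tame C w) : ∃ c d : Fin 3 → L, (∀ i, av w (c i) ≤ 1) ∧
    (∀ i, av w (d i) ≤ qv w ^ 2) ∧ ∑ i, d i * c i = 1 ∧ ∑ i, d i * C.σ (c i) = 0 ∧
    ∑ i, d i * C.σ (C.σ (c i)) = 0 := by
  obtain ⟨ϖ, ζ, h1, h2, h3, h4⟩ := h.unif
  have hq := one_lt_qv w
  have hq0 := qv_pos w
  have h30 : (3 : L) ≠ 0 := by
    intro h0
    have := h.three
    rw [h0, map_zero] at this
    exact zero_ne_one this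
  have hϖ0 : ϖ ≠ 0 := by
    rintro rfl
    rw [map_zero] at h1
    exact (inv_pos.mpr hq0).ne h1
  have hi3 : av w (3⁻¹ : L) = 1 := by rw [map_inv₀, h.three, inv_one]
  have hϖ1 : av w ϖ ≤ 1 := by rw [h1]; exact inv_le_one_of_one_le₀ hq.le
  have s2 : C.σ (ϖ ^ 2) = ζ ^ 2 * ϖ ^ 2 := by rw [map_pow, h2]; ring
  have s3 : C.σ (ζ * ϖ) = ζ ^ 2 * ϖ := by rw [map_mul, h3, h2]; ring
  have s4 : C.σ (ζ ^ 2 * ϖ ^ 2) = ζ ^ 4 * ϖ ^ 2 := by
    rw [map_mul, map_pow, h3, s2]; ring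
  have z3 : ζ ^ 3 = 1 := by linear_combination (ζ - 1) * h4
  have z4 : ζ ^ 4 = ζ := by linear_combination ζ * z3
  refine ⟨![1, ϖ, ϖ ^ 2], ![3⁻¹, 3⁻¹ * ϖ⁻¹, 3⁻¹ * (ϖ ^ 2)⁻¹], ?_, ?_, ?_, ?_, ?_⟩
  · intro i
    match i with
    | 0 => exact (map_one (av w)).le
    | 1 => exact hϖ1
    | 2 =>
      change av w (ϖ ^ 2) ≤ 1
      rw [map_pow]; exact pow_le_one₀ ((av w).nonneg _) hϖ1
  · intro i
    match i with
    | 0 =>
      change av w (3⁻¹ : L) ≤ _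
      rw [hi3]; exact one_le_pow₀ hq.le
    | 1 =>
      change av w (3⁻¹ * ϖ⁻¹ : L) ≤ _
      rw [map_mul, hi3, one_mul, map_inv₀, h1, inv_inv]
      nlinarith
    | 2 =>
      change av w (3⁻¹ * (ϖ ^ 2)⁻¹ : L) ≤ _
      rw [map_mul, hi3, one_mul, map_inv₀, map_pow, h1, inv_pow, inv_inv]
  · rw [Fin.sum_univ_three]
    change 3⁻¹ * 1 + 3⁻¹ * ϖ⁻¹ * ϖ + 3⁻¹ * (ϖ ^ 2)⁻¹ * ϖ ^ 2 = 1
    field_simp
    norm_num
  · rw [Fin.sum_univ_three]
    change 3⁻¹ * C.σ 1 + 3⁻¹ * ϖ⁻¹ * C.σ ϖ + 3⁻¹ * (ϖ ^ 2)⁻¹ * C.σ (ϖ ^ 2) = 0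
    rw [s2, h2, map_one]
    field_simp
    linear_combination h4
  · rw [Fin.sum_univ_three]
    change 3⁻¹ * C.σ (C.σ 1) + 3⁻¹ * ϖ⁻¹ * C.σ (C.σ ϖ) + 3⁻¹ * (ϖ ^ 2)⁻¹ * C.σ (C.σ (ϖ ^ 2)) = 0
    rw [s2, h2, s3, s4, map_one, map_one, z4]
    field_simp
    linear_combination h4

/-- Some resolvent has determinant of absolute value at least `q⁻⁴`. -/
theorem Tame.exists_res (h : Tame C w) (g : Matrix (Fin 2) (Fin 2) L) :
    ∃ c : L, av w c ≤ 1 ∧ (qv w ^ 4)⁻¹ ≤ av w (Fermat.LT.res C g c).det := by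
  by_contra hcon
  push Not at hcon
  have hq0 := qv_pos w
  have hε : 0 < qv w ^ 4 := pow_pos hq0 4
  obtain ⟨c, d, hc, hd, e0, e1, e2⟩ := h.exists_dual
  have hsum : d 0 • Fermat.LT.res C g (c 0) + d 1 • Fermat.LT.res C g (c 1) +
      d 2 • Fermat.LT.res C g (c 2) = 1 := by
    have : d 0 • Fermat.LT.res C g (c 0) + d 1 • Fermat.LT.res C g (c 1) +
        d 2 • Fermat.LT.res C g (c 2) =
        (∑ i, d i * c i) • (1 : Matrix (Fin 2) (Fin 2) L) + (∑ i, d i * C.σ (c i)) • g +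
        (∑ i, d i * C.σ (C.σ (c i))) • (g * C.s g) := by
      simp only [Fermat.LT.res, Fin.sum_univ_three, add_smul, smul_add, smul_smul]
      abel
    rw [this, e0, e1, e2, one_smul, zero_smul, zero_smul, add_zero, add_zero]
  have hlt : ∀ i, av w (Fermat.LT.res C g (c i)).det < (qv w ^ 4)⁻¹ := fun i => hcon _ (hc i)
  have hlt2 : ∀ i j, av w ((Fermat.LT.res C g (c i) + Fermat.LT.res C g (c j)).det -
      (Fermat.LT.res C g (c i)).det - (Fermat.LT.res C g (c j)).det) < (qv w ^ 4)⁻¹ := by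
    intro i j
    rw [← res_add]
    have h1 : av w (Fermat.LT.res C g (c i + c j)).det < (qv w ^ 4)⁻¹ :=
      hcon _ ((av_add_le w _ _).trans (max_le (hc i) (hc j)))
    exact (E.av_sub_le w _ _).trans_lt (max_lt ((E.av_sub_le w _ _).trans_lt
      (max_lt h1 (hlt i))) (hlt j))
  have hm : ∀ i j (x : L), av w x < (qv w ^ 4)⁻¹ → av w (d i * d j * x) < 1 := by
    intro i j x hx
    rw [map_mul, map_mul]
    have h1 : av w (d i) * av w (d j) ≤ qv w ^ 2 * qv w ^ 2 :=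
      mul_le_mul (hd i) (hd j) ((av w).nonneg _) (by positivity)
    calc av w (d i) * av w (d j) * av w x ≤ (qv w ^ 2 * qv w ^ 2) * av w x :=
          mul_le_mul_of_nonneg_right h1 ((av w).nonneg _)
      _ < (qv w ^ 2 * qv w ^ 2) * (qv w ^ 4)⁻¹ := mul_lt_mul_of_pos_left hx (by positivity)
      _ = 1 := by field_simp
  have hdet := congrArg Matrix.det hsum
  rw [det_comb, Matrix.det_one] at hdet
  have hadd : ∀ x y : L, av w x < 1 → av w y < 1 → av w (x + y) < 1 := fun x y hx hy =>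
    (av_add_le w _ _).trans_lt (max_lt hx hy)
  have : av w (1 : L) < 1 := by
    rw [← hdet]
    refine hadd _ _ (hadd _ _ (hadd _ _ (hadd _ _ (hadd _ _ ?_ ?_) ?_) ?_) ?_) ?_
    · rw [sq]; exact hm _ _ _ (hlt 0)
    · rw [sq]; exact hm _ _ _ (hlt 1)
    · rw [sq]; exact hm _ _ _ (hlt 2)
    · exact hm _ _ _ (hlt2 0 1)
    · exact hm _ _ _ (hlt2 0 2)
    · exact hm _ _ _ (hlt2 1 2)
  rw [map_one] at this
  exact lt_irrefl _ this

variable {γ₁ : G2 K}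

/-- The resolvent of an element of the order with nearly trivial norm. -/
theorem Tame.exists_unit_res (h : Tame C w) (ht : av w (Gm L γ₁).trace ≤ 1)
    (hd : av w (Gm L γ₁).det ≤ 1) {B : ℝ} (hB : 1 ≤ B) {z : G2 L} (hz : Rc w (Gm L γ₁) B z.1)
    {r : ℝ} (hr : Rc w (Gm L γ₁) r ((C.N z).1 - 1)) :
    ∃ θ : G2 L, Rc w (Gm L γ₁) (B * B) θ.1 ∧
      Rc w (Gm L γ₁) (r * (qv w ^ 4 * (B * B))) ((z * C.S θ * θ⁻¹).1 - 1) := by
  obtain ⟨c, hc, hdet⟩ := h.exists_res z.1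
  have hq0 := qv_pos w
  have hpos : 0 < av w (Fermat.LT.res C z.1 c).det := lt_of_lt_of_le (by positivity) hdet
  have h0 : (Fermat.LT.res C z.1 c).det ≠ 0 := by
    intro h0
    rw [h0, map_zero] at hpos
    exact lt_irrefl _ hpos
  have hθ : Rc w (Gm L γ₁) (B * B) (Fermat.LT.res C z.1 c) := Rc.res h.av_σ s_Gm ht hd hB hz hc
  refine ⟨Matrix.GeneralLinearGroup.mkOfDetNeZero _ h0, hθ, ?_⟩
  set θ : G2 L := Matrix.GeneralLinearGroup.mkOfDetNeZero _ h0 with hθd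
  have hθv : θ.1 = Fermat.LT.res C z.1 c := rfl
  have hinv : Rc w (Gm L γ₁) (qv w ^ 4 * (B * B)) (θ⁻¹).1 := by
    apply Rc.inv ht (g := θ) hθ
    rw [map_inv₀]
    exact inv_le_of_inv_le₀ (by positivity) hdet
  have e1 : (z * C.S θ * θ⁻¹).1 - 1 = (c • ((C.N z).1 - 1)) * (θ⁻¹).1 := by
    have h2 : z.1 * C.s θ.1 = θ.1 + c • ((C.N z).1 - 1) := mul_s_res C z.1 c
    have h3 : θ.1 * (θ⁻¹).1 = 1 := by rw [← Units.val_mul, mul_inv_cancel, Units.val_one]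
    rw [Units.val_mul, Units.val_mul, Cub.coe_S, h2, add_mul, h3]
    abel
  rw [e1]
  have := (hr.smul hc).mul ht hd hinv
  exact this.mono (by rw [one_mul])

/-- squares are closer to `1` -/
theorem Rc.sq_sub_one (ht : av w (Gm L γ₁).trace ≤ 1) (hd : av w (Gm L γ₁).det ≤ 1) {ρ r : ℝ}
    (h2 : av w (2 : L) ≤ ρ) (hr : r ≤ ρ) {A : Matrix (Fin 2) (Fin 2) L}
    (hA : Rc w (Gm L γ₁) r (A - 1)) : Rc w (Gm L γ₁) (ρ * r) (A * A - 1) := by
  have hr0 : 0 ≤ r := by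
    obtain ⟨a, b, ha, hb, -⟩ := hA
    exact ((av w).nonneg _).trans ha
  have e : A * A - 1 = (A - 1) * (A - 1) + (2 : L) • (A - 1) := by
    rw [two_smul]; noncomm_ring
  rw [e]
  refine Rc.add ?_ (hA.smul h2)
  exact (hA.mul ht hd hA).mono (mul_le_mul_of_nonneg_right hr hr0)

theorem Rc.pow_sub_one (ht : av w (Gm L γ₁).trace ≤ 1) (hd : av w (Gm L γ₁).det ≤ 1) {ρ : ℝ}
    (h2 : av w (2 : L) ≤ ρ) (hρ : ρ ≤ 1) {A : Matrix (Fin 2) (Fin 2) L}
    (hA : Rc w (Gm L γ₁) ρ (A * A - 1)) (k : ℕ) :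
    Rc w (Gm L γ₁) (ρ ^ (k + 1)) (A ^ (2 ^ (k + 1)) - 1) := by
  have hρ0 : 0 ≤ ρ := ((av w).nonneg _).trans h2
  induction k with
  | zero =>
    rw [zero_add, pow_one, pow_one, sq]
    exact hA
  | succ k ih =>
    have e : A ^ (2 ^ (k + 1 + 1)) = A ^ (2 ^ (k + 1)) * A ^ (2 ^ (k + 1)) := by
      rw [← pow_add]; congr 1; ring
    rw [e, pow_succ' ρ (k + 1)]
    refine Rc.sq_sub_one ht hd h2 ?_ ih
    calc ρ ^ (k + 1) ≤ ρ ^ 1 := pow_le_pow_of_le_one hρ0 hρ (by omega)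
      _ = ρ := pow_one ρ

/-- **Key step**: if `g = N δ` is a unit of `O_w[γ₁]` with `tr g ≡ 0`, `det g ≡ 1`, then `δ` is
`σ`-conjugate inside the centraliser of `γ₁` to a unit of `O_w[γ₁]`. -/
theorem Tame.exists_tw (h : Tame C w) (hns : ¬ IsSc (γ₁ : Matrix (Fin 2) (Fin 2) K))
    (ht : av w (Gm L γ₁).trace ≤ 1) (hd : av w (Gm L γ₁).det ≤ 1) {δ : G2 L}
    (hδ : δ ∈ Cub.Z (L := L) γ₁) (hN : C.N δ ∈ RU w (Gm L γ₁) ht hd)
    (hNt : av w (C.N δ).1.trace < 1) (hNd : av w ((C.N δ).1.det - 1) < 1) :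
    ∃ t ∈ Cub.Z (L := L) γ₁, t⁻¹ * δ * C.S t ∈ RU w (Gm L γ₁) ht hd := by
  obtain ⟨B, hB, hBδ⟩ := exists_Rc_of_mem_Z (w := w) hns hδ
  have hB2 : 1 ≤ B * B := by nlinarith
  have hBpos : 0 < B * B := by linarith
  have hq0 := qv_pos w
  set g : G2 L := C.N δ with hg
  have hgZ : g ∈ Cub.Z (L := L) γ₁ := C.N_mem_Z hδ
  -- `N δ` is `σ`-invariant
  have hσN : C.S g = g := by
    have h1 := C.mul_S_N δ
    rw [Cub.Z_comm hns (C.N_mem_Z hδ) hδ] at h1
    exact mul_left_cancel h1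
  -- `g² ≡ 1`
  set ρ : ℝ := max (av w (2 : L)) (max (av w g.1.trace) (av w (g.1.det + 1))) with hρd
  have h2ρ : av w (2 : L) ≤ ρ := le_max_left _ _
  have hdet1 : av w (g.1.det + 1) < 1 := by
    have e : g.1.det + 1 = (g.1.det - 1) + 2 := by ring
    rw [e]
    exact (av_add_le w _ _).trans_lt (max_lt hNd h.two)
  have hρ1 : ρ < 1 := max_lt h.two (max_lt hNt hdet1)
  have hρ0 : 0 ≤ ρ := ((av w).nonneg _).trans h2ρ
  have hgg : Rc w (Gm L γ₁) ρ (g.1 * g.1 - 1) := by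
    have e : g.1 * g.1 - 1 = g.1.trace • g.1 - (g.1.det + 1) • (1 : Matrix (Fin 2) (Fin 2) L) := by
      rw [cayley g.1, add_smul, one_smul]; abel
    rw [e]
    refine Rc.sub ?_ ?_
    · have := hN.1.smul (s := ρ) (c := g.1.trace) ((le_max_left _ _).trans (le_max_right _ _))
      rwa [mul_one] at this
    · have := (Rc.one (w := w) (Γ := Gm L γ₁)).smul (s := ρ) (c := g.1.det + 1)
        ((le_max_right _ _).trans (le_max_right _ _))
      rwa [mul_one] at this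
  -- choose the exponent
  set ε : ℝ := (2 * (qv w ^ 4 * (B * B)))⁻¹ with hε
  have hεpos : 0 < ε := by positivity
  obtain ⟨k₀, hk₀⟩ := exists_pow_lt_of_lt_one hεpos hρ1
  set k : ℕ := 2 * k₀ with hk
  have hρk : ρ ^ (k + 1) ≤ ε := by
    refine (pow_le_pow_of_le_one hρ0 hρ1.le (by omega : k₀ ≤ k + 1)).trans hk₀.le
  obtain ⟨n, hn⟩ : ∃ n : ℕ, 3 * n = 2 ^ (k + 1) + 1 := by
    have h1 : ∀ j : ℕ, ∃ n : ℕ, 3 * n = 2 ^ (2 * j + 1) + 1 := by
      intro j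
      induction j with
      | zero => exact ⟨1, by norm_num⟩
      | succ j ih =>
        obtain ⟨n, hn⟩ := ih
        refine ⟨n + 2 ^ (2 * j + 1), ?_⟩
        have e : 2 ^ (2 * (j + 1) + 1) = 4 * 2 ^ (2 * j + 1) := by
          rw [show 2 * (j + 1) + 1 = 2 + (2 * j + 1) by ring, pow_add]; norm_num
        rw [e]
        omega
    exact h1 k₀
  set s : G2 L := g ^ n with hs
  have hsR : s ∈ RU w (Gm L γ₁) ht hd := pow_mem hN n
  have hsZ : s ∈ Cub.Z (L := L) γ₁ := pow_mem hgZ n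
  have hNs : C.N s = g * g ^ (2 ^ (k + 1)) := by
    have e1 : C.S s = s := by rw [hs, map_pow, hσN]
    have e2 : C.N s = s * s * s := by
      change s * C.S s * C.S (C.S s) = _
      rw [e1, e1]
    rw [e2, hs, ← pow_add, ← pow_add, ← pow_succ']
    congr 1
    omega
  set G : G2 L := g ^ (2 ^ (k + 1)) with hG
  have hGR : G ∈ RU w (Gm L γ₁) ht hd := pow_mem hN _
  have hG1 : Rc w (Gm L γ₁) ε (G.1 - 1) := by
    have := Rc.pow_sub_one ht hd h2ρ hρ1.le hgg k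
    rw [hG, Units.val_pow_eq_pow_val]
    exact this.mono hρk
  set z : G2 L := δ * s⁻¹ with hz
  have hzZ : z ∈ Cub.Z (L := L) γ₁ := mul_mem hδ (inv_mem hsZ)
  have hzB : Rc w (Gm L γ₁) B z.1 := by
    have := hBδ.mul ht hd (inv_mem hsR).1
    rw [mul_one] at this
    exact this
  have hNz : C.N z = G⁻¹ := by
    rw [hz, C.N_mul hns hδ (inv_mem hsZ), C.N_inv hns hsZ, hNs, ← hg, _root_.mul_inv_rev]
    have hc : g * (G⁻¹ * g⁻¹) = G⁻¹ := by
      have : Commute g G⁻¹ := ((Commute.refl g).pow_right _).inv_right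
      rw [← mul_assoc, this.eq, mul_assoc, mul_inv_cancel, mul_one]
    exact hc
  have hr : Rc w (Gm L γ₁) ε ((C.N z).1 - 1) := by
    have e : (C.N z).1 - 1 = -((G.1 - 1) * (G⁻¹).1) := by
      rw [hNz, sub_mul, ← Units.val_mul, mul_inv_cancel, Units.val_one, one_mul]
      abel
    rw [e]
    refine Rc.neg ?_
    have := hG1.mul ht hd (inv_mem hGR).1
    rwa [mul_one] at this
  obtain ⟨θ, h1, h3⟩ := h.exists_unit_res ht hd hB hzB hr
  have hθZ : θ ∈ Cub.Z (L := L) γ₁ := h1.mem_Z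
  have hlt : ε * (qv w ^ 4 * (B * B)) < 1 := by
    rw [hε, mul_inv, mul_assoc, inv_mul_cancel₀ (by positivity)]
    norm_num
  have hu : z * C.S θ * θ⁻¹ ∈ RU w (Gm L γ₁) ht hd := by
    have e : (z * C.S θ * θ⁻¹).1 = 1 + ((z * C.S θ * θ⁻¹).1 - 1) := by abel
    refine ⟨?_, ?_⟩
    · rw [e]; exact Rc.one.add (h3.mono hlt.le)
    · rw [e]; exact h3.det_one_add ht hd hlt
  refine ⟨θ, hθZ, ?_⟩
  have e : θ⁻¹ * δ * C.S θ = s * (z * C.S θ * θ⁻¹) := by
    have c1 : s * z = δ := by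
      rw [Cub.Z_comm hns hsZ hzZ, hz, inv_mul_cancel_right]
    have c2 : θ⁻¹ * (δ * C.S θ) = (δ * C.S θ) * θ⁻¹ :=
      Cub.Z_comm hns (inv_mem hθZ) (mul_mem hδ (C.S_mem_Z hθZ))
    rw [mul_assoc, c2, ← c1]
    simp only [mul_assoc]
  rw [e]
  exact mul_mem hsR hu

end

end Fermat.LT
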