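import Fermat.Agent.LTG.RB.Wrap
import Fermat.Agent.LTG.RB.Tame

/-!
# LTG, local matching at a bad ramified place: normalisation of `γ`

* `conj_mem_HB`, `conj_mem_HT` : conjugates of units of `O_w[Γ]`;
* `Nrm v γ` : `γ` has a multiple with unit determinant and trace `≡ 0`;
* `Nrm.of_K`, `Nrm.of_L`, `Nrm.td_lt`.
(helper96)
-/

set_option autoImplicit false
set_option linter.unusedSectionVars false

open NumberField IsDedekindDomain Matrix
open Fermat.Agent.LT.D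

namespace Fermat.LT.RBv

section one

variable {F : Type} [Field F] [NumberField F] {w : Pl F} {M : ℕ}

theorem sc_mul_mem_HB (c : Fˣ) {g : G2 F} : sc c * g ∈ HB w M ↔ g ∈ HB w M :=
  Subgroup.mul_mem_cancel_left _ (HT_le_HB w M (scal_le_HT w M (sc_mem c)))

theorem sc_mul_mem_HT (c : Fˣ) {g : G2 F} : sc c * g ∈ HT w M ↔ g ∈ HT w M :=
  Subgroup.mul_mem_cancel_left _ (scal_le_HT w M (sc_mem c))

theorem nm_eq_one_of {g : G2 F} (hg : g ∈ stdH w) (hd : av w g.1.det = 1) : nm w g.1 = 1 := by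
  have h1 := av_det_of_mem w hg
  rw [hd] at h1
  exact ((pow_eq_one_iff_of_nonneg (nm_nonneg w _) (by norm_num)).mp h1.symm)

theorem mem_HB_of {g : G2 F} (h1 : nm w g.1 ≤ 1) (hd : av w g.1.det = 1)
    (h10 : av w (g.1 1 0) < 1) (hM : av w (g.1 1 0) ≤ (qv w)⁻¹ ^ M) :
    g ∈ HB w M ∧ nm w g.1 = 1 := by
  have h2 : g ∈ stdH w := intGL_le_stdH w (mem_intGL_of h1 hd.ge)
  have h3 := nm_eq_one_of h2 hd
  exact ⟨⟨h2, by rw [h3]; exact h10, by rw [h3, one_mul]; exact hM⟩, h3⟩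

/-- entries of an element of `HB` with unit determinant -/
theorem entries_HB {g : G2 F} (hg : g ∈ HB w M) (hd : av w g.1.det = 1) :
    nm w g.1 = 1 ∧ av w (g.1 0 0) = 1 ∧ av w (g.1 1 1) = 1 ∧ av w (g.1 0 1) ≤ 1 ∧
      av w (g.1 1 0) < 1 ∧ av w (g.1 1 0) ≤ (qv w)⁻¹ ^ M := by
  have h1 := nm_eq_one_of hg.1 hd
  obtain ⟨h2, h3⟩ := av_diag_of_mem w M hg
  obtain ⟨-, h4, h5⟩ := hg
  rw [h1] at h2 h3 h4 h5
  rw [one_mul] at h5
  exact ⟨h1, h2, h3, by rw [← h1]; exact av_le_nm w _ _ _, h4, h5⟩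

theorem conj_val {Γ u x : G2 F} {a b : F}
    (e : u.1 = a • (1 : Matrix (Fin 2) (Fin 2) F) + b • Γ.1) :
    (x⁻¹ * u * x).1 = a • (1 : Matrix (Fin 2) (Fin 2) F) + b • (x⁻¹ * Γ * x).1 := by
  rw [Units.val_mul, Units.val_mul, e, mul_add, add_mul, Matrix.mul_smul, Matrix.mul_smul,
    Matrix.smul_mul, Matrix.smul_mul, mul_one, ← Units.val_mul, inv_mul_cancel, Units.val_one,
    Units.val_mul, Units.val_mul]

variable {Γ : G2 F} {ht : av w Γ.1.trace ≤ 1} {hd : av w Γ.1.det ≤ 1}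

theorem conj_mem_HB (hΓ : av w Γ.1.det = 1) {x u : G2 F} (hx : x⁻¹ * Γ * x ∈ HB w M)
    (hu : u ∈ RU w Γ.1 ht hd) : x⁻¹ * u * x ∈ HB w M := by
  obtain ⟨⟨a, b, ha, hb, e⟩, hdu⟩ := hu
  have hdx : av w (x⁻¹ * Γ * x).1.det = 1 := by rw [Tr.det_conj, hΓ]
  obtain ⟨h1, -, -, -, h5, h6⟩ := entries_HB hx hdx
  have e2 := conj_val (x := x) e
  have e10 : (x⁻¹ * u * x).1 1 0 = b * (x⁻¹ * Γ * x).1 1 0 := by
    rw [e2]; simp
  refine (mem_HB_of ?_ (by rw [Tr.det_conj, hdu]) ?_ ?_).1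
  · rw [e2]
    refine (nm_add_le w _ _).trans (max_le ?_ ?_)
    · rw [nm_smul, nm_one, mul_one]; exact ha
    · rw [nm_smul, h1, mul_one]; exact hb
  · rw [e10, map_mul]
    exact mul_lt_one_of_nonneg_of_lt_one_right hb ((av w).nonneg _) h5
  · rw [e10, map_mul]
    exact (mul_le_of_le_one_left ((av w).nonneg _) hb).trans h6

theorem conj_mem_HT (hΓ : av w Γ.1.det = 1) {x u : G2 F} (hx : x⁻¹ * Γ * x ∈ HT w M)
    (hu : u ∈ RU w Γ.1 ht hd) : x⁻¹ * u * x ∈ HT w M := by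
  have hB := conj_mem_HB hΓ (HT_le_HB w M hx) hu
  obtain ⟨⟨a, b, ha, hb, e⟩, hdu⟩ := hu
  have hdx : av w (x⁻¹ * Γ * x).1.det = 1 := by rw [Tr.det_conj, hΓ]
  have h1 := (entries_HB (HT_le_HB w M hx) hdx).1
  have h2 := (entries_HB hB (by rw [Tr.det_conj, hdu])).1
  have h3 : av w ((x⁻¹ * Γ * x).1 0 1) < 1 := by
    have := hx.2
    rwa [h1] at this
  refine ⟨hB, ?_⟩
  have e01 : (x⁻¹ * u * x).1 0 1 = b * (x⁻¹ * Γ * x).1 0 1 := by
    rw [conj_val (x := x) e]; simp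
  rw [h2, e01, map_mul]
  exact mul_lt_one_of_nonneg_of_lt_one_right hb ((av w).nonneg _) h3

theorem td_sc_mul' {F : Type} [Field F] (c : Fˣ) (g : G2 F) : td (sc c * g) = td g := by
  unfold td
  rw [sc_mul_val, Matrix.trace_smul, Matrix.det_smul, Fintype.card_fin, smul_eq_mul, mul_pow,
    mul_div_mul_left _ _ (pow_ne_zero 2 c.ne_zero)]

end one

section two

variable {K L : Type} [Field K] [NumberField K] [Field L] [NumberField L] [Algebra K L]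
  {C : Cub K L} {v : Pl K} {w : Pl L} {M : ℕ}

/-- `γ` has a multiple with unit determinant and trace `≡ 0` -/
def Nrm (v : Pl K) (γ : G2 K) : Prop :=
  ∃ μ : Kˣ, av v (sc μ * γ).1.det = 1 ∧ av v (sc μ * γ).1.trace < 1

theorem Nrm.td_lt {γ : G2 K} (h : Nrm v γ) : av v (td γ) < 1 := by
  obtain ⟨μ, h1, h2⟩ := h
  rw [← td_sc_mul' μ γ, td, map_div₀, h1, div_one, map_pow]
  exact pow_lt_one₀ ((av v).nonneg _) h2 (by norm_num)

theorem Nrm.of_K {γ z : G2 K} (hz : z⁻¹ * γ * z ∈ stdH v) (ht : av v (td γ) < 1) : Nrm v γ := by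
  obtain ⟨c, hc⟩ := (mem_stdH_iff v _).mp hz
  have h1 : av v (sc c⁻¹ * γ).1.det = 1 := by
    have h2 := av_det_intGL hc
    have e : (sc c⁻¹ * (z⁻¹ * γ * z)).1.det = (sc c⁻¹ * γ).1.det := by
      rw [sc_mul_val, sc_mul_val, Matrix.det_smul, Matrix.det_smul, Tr.det_conj]
    rwa [e] at h2
  refine ⟨c⁻¹, h1, ?_⟩
  rw [← td_sc_mul' c⁻¹ γ, td, map_div₀, h1, div_one, map_pow] at ht
  exact (pow_lt_one_iff_of_nonneg ((av v).nonneg _) (by norm_num)).mp ht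

theorem S_mem_HB (hr : Ram C v w) {g : G2 L} : C.S g ∈ HB w M ↔ g ∈ HB w M := by
  have := HB_pl C M w g
  rwa [hr.fix] at this

theorem S_mem_HT (hr : Ram C v w) {g : G2 L} : C.S g ∈ HT w M ↔ g ∈ HT w M := by
  have := HT_pl C M w g
  rwa [hr.fix] at this

theorem N_mem_HB (hr : Ram C v w) {g : G2 L} (hg : g ∈ HB w M) : C.N g ∈ HB w M :=
  mul_mem (mul_mem hg ((S_mem_HB hr).mpr hg)) ((S_mem_HB hr).mpr ((S_mem_HB hr).mpr hg))

theorem N_mem_HT (hr : Ram C v w) {g : G2 L} (hg : g ∈ HT w M) : C.N g ∈ HT w M :=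
  mul_mem (mul_mem hg ((S_mem_HT hr).mpr hg)) ((S_mem_HT hr).mpr ((S_mem_HT hr).mpr hg))

theorem Tame.nm_s (T : Tame C w) (A : Matrix (Fin 2) (Fin 2) L) : nm w (C.s A) = nm w A := by
  simp only [nm, Cub.s_apply, T.av_σ]

theorem Tame.nm_s_sub (T : Tame C w) {A : Matrix (Fin 2) (Fin 2) L} (hA : nm w A ≤ 1) :
    nm w (C.s A - A) < 1 := by
  have h : ∀ i j, av w ((C.s A - A) i j) < 1 := by
    intro i j
    rw [Matrix.sub_apply, Cub.s_apply]
    exact T.res _ ((av_le_nm w A i j).trans hA)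
  obtain ⟨i, j, hij⟩ := Tr.exists_entry w (C.s A - A)
  rw [hij]
  exact h i j

/-- the trace of the norm of an upper triangular matrix -/
theorem Tame.trace_N_lt (T : Tame C w) {A : Matrix (Fin 2) (Fin 2) L} (hA : nm w A ≤ 1)
    (h00 : av w (A 0 0) = 1) (h11 : av w (A 1 1) = 1) (h10 : av w (A 1 0) < 1) :
    av w (C.nm A).trace < 1 := by
  have hAA : nm w (A * A) ≤ 1 :=
    (nm_mul_le w _ _).trans (mul_le_one₀ hA (nm_nonneg w _) hA)
  have hs1 : nm w (C.s A) ≤ 1 := by rw [Tame.nm_s T]; exact hA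
  have hs2 : nm w (C.s (C.s A)) ≤ 1 := by rw [Tame.nm_s T]; exact hs1
  have d1 := Tame.nm_s_sub T hA
  have d2 : nm w (C.s (C.s A) - A) < 1 := by
    have e : C.s (C.s A) - A = C.s (C.s A - A) + (C.s A - A) := by rw [map_sub]; abel
    rw [e]
    refine Tr.nm_add_lt w ?_ d1
    rw [Tame.nm_s T]; exact d1
  have h1 : nm w (C.nm A - A * A * A) < 1 := by
    have e : C.nm A - A * A * A = A * (C.s A - A) * C.s (C.s A) + A * A * (C.s (C.s A) - A) := by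
      rw [Cub.nm]
      noncomm_ring
    rw [e]
    refine Tr.nm_add_lt w ?_ ?_
    · refine (nm_mul_le w _ _).trans_lt ?_
      refine (mul_le_of_le_one_right (nm_nonneg w _) hs2).trans_lt ?_
      refine (nm_mul_le w _ _).trans_lt ?_
      exact mul_lt_one_of_nonneg_of_lt_one_right hA (nm_nonneg w _) d1
    · refine (nm_mul_le w _ _).trans_lt ?_
      exact mul_lt_one_of_nonneg_of_lt_one_right hAA (nm_nonneg w _) d2
  have e : (C.nm A).trace = (C.nm A - A * A * A).trace + ((((A 0 0) ^ 3 - 1) + ((A 1 1) ^ 3 - 1)) +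
      (2 + 3 * (A 0 0 + A 1 1) * A 0 1 * A 1 0)) := by
    have h2 : (A * A * A).trace = A 0 0 ^ 3 + A 1 1 ^ 3 + 3 * (A 0 0 + A 1 1) * A 0 1 * A 1 0 := by
      simp only [Matrix.trace_fin_two, Matrix.mul_apply, Fin.sum_univ_two]
      ring
    rw [Matrix.trace_sub, h2]
    ring
  rw [e]
  refine Tr.av_add_lt w ((Tr.av_trace_le w _).trans_lt h1) ?_
  refine Tr.av_add_lt w (Tr.av_add_lt w (T.cube _ h00) (T.cube _ h11)) ?_
  refine Tr.av_add_lt w T.two ?_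
  rw [map_mul]
  refine mul_lt_one_of_nonneg_of_lt_one_right ?_ ((av w).nonneg _) h10
  rw [map_mul, map_mul, T.three, one_mul]
  refine mul_le_one₀ ?_ ((av w).nonneg _) ((av_le_nm w _ _ _).trans hA)
  exact (av_add_le w _ _).trans (max_le h00.le h11.le)

theorem N_sc_mul (c : Lˣ) (g : G2 L) : C.N (sc c * g) = sc (C.nu c) * C.N g := by
  apply Units.ext
  rw [sc_mul_val, Cub.coe_N, sc_mul_val, Cub.nm_smul, ← Cub.coe_N]
  rfl

/-- **`L`-side support**: if `y⁻¹ δ σ(y) ∈ HB w M` then `γ` is normalisable. -/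
theorem Nrm.of_L (T : Tame C w) (hr : Ram C v w) {γ : G2 K} {δ : G2 L} {c : Lˣ}
    (hN : C.N δ = sc c * Cub.Inc γ) {y : G2 L} (hy : y⁻¹ * δ * C.S y ∈ HB w M) : Nrm v γ := by
  obtain ⟨e, he⟩ := Tr.exists_sc_nm w (y⁻¹ * δ * C.S y)
  have hqv : qv w = qv v := hr.q_eq
  have hv0 := (qv_pos v).ne'
  set k : G2 L := sc e * (y⁻¹ * δ * C.S y) with hk
  have hkB : k ∈ HB w M := (sc_mul_mem_HB e).mpr hy
  have hkd : av w k.1.det = 1 := by rw [av_det_of_mem w hkB.1, he, one_pow]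
  obtain ⟨-, h00, h11, -, h10, -⟩ := entries_HB hkB hkd
  have htr := Tame.trace_N_lt T he.le h00 h11 h10
  have hdt : av w (C.nm k.1).det = 1 := by
    rw [Cub.det_nm, map_mul, map_mul, T.av_σ, T.av_σ, T.av_σ, hkd]; norm_num
  obtain ⟨s, hs⟩ : ∃ s : Lˣ, C.N k = sc s * (y⁻¹ * Cub.Inc γ * y) := by
    refine ⟨C.nu e * c, ?_⟩
    rw [hk, N_sc_mul, C.N_tw, hN]
    have e1 : y⁻¹ * (sc c * Cub.Inc γ) * y = sc c * (y⁻¹ * Cub.Inc γ * y) := by
      rw [← mul_assoc y⁻¹, ← sc_comm]; simp only [mul_assoc]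
    rw [e1, ← mul_assoc]
    congr 1
    exact (Cub.sc_mul _ _).symm
  rw [← Cub.coe_N, hs, sc_mul_val, Matrix.trace_smul, smul_eq_mul, map_mul, Tr.trace_conj,
    (Tr.av_v_cube hr γ).2] at htr
  rw [← Cub.coe_N, hs, sc_mul_val, Matrix.det_smul, Fintype.card_fin, map_mul, map_pow,
    Tr.det_conj, (Tr.av_v_cube hr γ).1] at hdt
  -- exponents
  obtain ⟨a, ha⟩ := Tr.av_zpow w s.ne_zero
  obtain ⟨b, hb⟩ := Tr.av_zpow v (Tr.det_ne γ)
  rw [ha, hb, hqv] at hdt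
  have h5 : qv v ^ (2 * a + 3 * b) = qv v ^ (0 : ℤ) := by
    have e1 : qv v ^ (2 * a + 3 * b) = (qv v ^ a) ^ 2 * (qv v ^ b) ^ 3 := by
      rw [zpow_add₀ hv0, mul_comm 2 a, mul_comm 3 b, _root_.zpow_mul, _root_.zpow_mul]
      norm_cast
    rw [e1, zpow_zero]
    exact hdt
  have h6 := Tr.qzpow_inj v h5
  obtain ⟨a', ha'⟩ : ∃ a', a = 3 * a' := ⟨a + b, by omega⟩
  have hb' : b = -2 * a' := by omega
  obtain ⟨μ, hμ⟩ := Tr.exists_av_zpow v a'
  refine ⟨μ, ?_, ?_⟩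
  · rw [sc_mul_val, Matrix.det_smul, Fintype.card_fin, map_mul, map_pow, hμ, hb, hb']
    have : (qv v ^ a') ^ 2 * qv v ^ (-2 * a') = 1 := by
      rw [← zpow_natCast (qv v ^ a') 2, ← _root_.zpow_mul, ← zpow_add₀ hv0]
      have : a' * ((2 : ℕ) : ℤ) + -2 * a' = 0 := by push_cast; ring
      rw [this, zpow_zero]
    exact this
  · rw [sc_mul_val, Matrix.trace_smul, smul_eq_mul, map_mul, hμ]
    rw [ha, hqv, ha'] at htr
    have e1 : qv v ^ (3 * a') = (qv v ^ a') ^ 3 := by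
      rw [mul_comm 3 a', _root_.zpow_mul]; norm_cast
    rw [e1, ← mul_pow] at htr
    exact (pow_lt_one_iff_of_nonneg (mul_nonneg (Tr.qzpow_pos v a').le ((av v).nonneg _))
      (by norm_num)).mp htr

end two

end Fermat.LT.RBv
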