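import Fermat.Agent.LTG.RB.Base

/-!
# S47, piece RB: matrices which are unipotent modulo `w`
-/

set_option autoImplicit false
set_option linter.unusedSectionVars false
set_option linter.unusedVariables false

open NumberField IsDedekindDomain Matrix
open Fermat.Agent.LT.D Fermat.Agent.LT.CTree

namespace Fermat.LT.RB

section

variable {F : Type} [Field F] [NumberField F] {w : Pl F}

/-- `A ≡ 1` on the diagonal, `|A₀₁| ≤ s`, `|A₁₀| ≤ t`. -/
structure UM (w : Pl F) (s t : ℝ) (A : Matrix (Fin 2) (Fin 2) F) : Prop where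
  h00 : av w (A 0 0 - 1) < 1
  h11 : av w (A 1 1 - 1) < 1
  h01 : av w (A 0 1) ≤ s
  h10 : av w (A 1 0) ≤ t

theorem av_one_of_sub {x : F} (hx : av w (x - 1) < 1) : av w x = 1 := by
  have := Tr.av_eq_of_sub_lt w (x := x) (y := 1) (by rw [map_one]; exact hx)
  rw [this, map_one]

namespace UM

variable {s t : ℝ} {A B : Matrix (Fin 2) (Fin 2) F}

theorem av00 (hA : UM w s t A) : av w (A 0 0) = 1 := av_one_of_sub hA.h00

theorem av11 (hA : UM w s t A) : av w (A 1 1) = 1 := av_one_of_sub hA.h11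

theorem s_nonneg (hA : UM w s t A) : 0 ≤ s := ((av w).nonneg _).trans hA.h01

theorem t_nonneg (hA : UM w s t A) : 0 ≤ t := ((av w).nonneg _).trans hA.h10

theorem cross (hst : s * t < 1) (hA : UM w s t A) (hB : UM w s t B) :
    av w (A 0 1 * B 1 0) < 1 := by
  rw [map_mul]
  exact (mul_le_mul hA.h01 hB.h10 ((av w).nonneg _) hA.s_nonneg).trans_lt hst

theorem cross' (hst : s * t < 1) (hA : UM w s t A) (hB : UM w s t B) :
    av w (A 1 0 * B 0 1) < 1 := by
  rw [mul_comm]; exact cross hst hB hA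

theorem one (hs : 0 ≤ s) (ht : 0 ≤ t) : UM w s t 1 where
  h00 := by simp
  h11 := by simp
  h01 := by simpa using hs
  h10 := by simpa using ht

theorem mul (hst : s * t < 1) (hA : UM w s t A) (hB : UM w s t B) : UM w s t (A * B) where
  h00 := by
    rw [Matrix.mul_apply, Fin.sum_univ_two]
    have e : A 0 0 * B 0 0 + A 0 1 * B 1 0 - 1 = (A 0 0 - 1) * B 0 0 + (B 0 0 - 1) +
      A 0 1 * B 1 0 := by ring
    rw [e]
    refine Tr.av_add_lt w (Tr.av_add_lt w ?_ hB.h00) (cross hst hA hB)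
    rw [map_mul, hB.av00, mul_one]; exact hA.h00
  h11 := by
    rw [Matrix.mul_apply, Fin.sum_univ_two]
    have e : A 1 0 * B 0 1 + A 1 1 * B 1 1 - 1 = (A 1 1 - 1) * B 1 1 + (B 1 1 - 1) +
      A 1 0 * B 0 1 := by ring
    rw [e]
    refine Tr.av_add_lt w (Tr.av_add_lt w ?_ hB.h11) (cross' hst hA hB)
    rw [map_mul, hB.av11, mul_one]; exact hA.h11
  h01 := by
    rw [Matrix.mul_apply, Fin.sum_univ_two]
    refine (av_add_le w _ _).trans (max_le ?_ ?_)
    · rw [map_mul, hA.av00, one_mul]; exact hB.h01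
    · rw [map_mul, hB.av11, mul_one]; exact hA.h01
  h10 := by
    rw [Matrix.mul_apply, Fin.sum_univ_two]
    refine (av_add_le w _ _).trans (max_le ?_ ?_)
    · rw [map_mul, hB.av00, mul_one]; exact hA.h10
    · rw [map_mul, hA.av11, one_mul]; exact hB.h10

theorem det_sub (hst : s * t < 1) (hA : UM w s t A) : av w (A.det - 1) < 1 := by
  rw [Matrix.det_fin_two]
  have e : A 0 0 * A 1 1 - A 0 1 * A 1 0 - 1 = (A 0 0 - 1) * A 1 1 + (A 1 1 - 1) -
    A 0 1 * A 1 0 := by ring
  rw [e]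
  refine Tr.av_sub_lt w (Tr.av_add_lt w ?_ hA.h11) (cross hst hA hA)
  rw [map_mul, hA.av11, mul_one]; exact hA.h00

theorem av_det (hst : s * t < 1) (hA : UM w s t A) : av w A.det = 1 :=
  av_one_of_sub (det_sub hst hA)

theorem det_ne (hst : s * t < 1) (hA : UM w s t A) : A.det ≠ 0 := by
  intro h0
  have := av_det hst hA
  rw [h0, map_zero] at this
  exact zero_ne_one this

theorem inv (hst : s * t < 1) {g : G2 F} (hA : UM w s t g.1) : UM w s t (g⁻¹).1 := by
  have hd := av_det hst hA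
  have hd0 := det_ne hst hA
  have hds := det_sub hst hA
  have hdi : av w (g.1.det)⁻¹ = 1 := by rw [map_inv₀, hd, inv_one]
  have e : (g⁻¹).1 = (g.1.det)⁻¹ • g.1.adjugate := Tr.inv_eq_smul_adj g
  rw [e, Matrix.adjugate_fin_two]
  constructor
  · simp only [Matrix.smul_apply, Matrix.of_apply, Matrix.cons_val', Matrix.cons_val_zero,
      Matrix.cons_val_fin_one, smul_eq_mul]
    have e1 : (g.1.det)⁻¹ * g.1 1 1 - 1 = (g.1.det)⁻¹ * ((g.1 1 1 - 1) - (g.1.det - 1)) := by
      field_simp; ring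
    rw [e1, map_mul, hdi, one_mul]
    exact Tr.av_sub_lt w hA.h11 hds
  · simp only [Matrix.smul_apply, Matrix.of_apply, Matrix.cons_val', Matrix.cons_val_zero,
      Matrix.cons_val_one, Matrix.cons_val_fin_one, smul_eq_mul]
    have e1 : (g.1.det)⁻¹ * g.1 0 0 - 1 = (g.1.det)⁻¹ * ((g.1 0 0 - 1) - (g.1.det - 1)) := by
      field_simp; ring
    rw [e1, map_mul, hdi, one_mul]
    exact Tr.av_sub_lt w hA.h00 hds
  · simp only [Matrix.smul_apply, Matrix.of_apply, Matrix.cons_val', Matrix.cons_val_zero,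
      Matrix.cons_val_one, Matrix.cons_val_fin_one, smul_eq_mul]
    rw [map_mul, hdi, one_mul, (av w).map_neg]
    exact hA.h01
  · simp only [Matrix.smul_apply, Matrix.of_apply, Matrix.cons_val', Matrix.cons_val_zero,
      Matrix.cons_val_one, Matrix.cons_val_fin_one, smul_eq_mul]
    rw [map_mul, hdi, one_mul, (av w).map_neg]
    exact hA.h10

theorem avg (h3 : av w (3 : F) = 1) (hA : UM w s t A) (hB : UM w s t B) :
    UM w s t ((3 : F)⁻¹ • (1 + A + B)) := by
  have h30 : (3 : F) ≠ 0 := by norm_num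
  have h3i : av w (3 : F)⁻¹ = 1 := by rw [map_inv₀, h3, inv_one]
  constructor
  · rw [Matrix.smul_apply, Matrix.add_apply, Matrix.add_apply, Matrix.one_apply_eq, smul_eq_mul]
    have e : (3 : F)⁻¹ * (1 + A 0 0 + B 0 0) - 1 = (3 : F)⁻¹ * ((A 0 0 - 1) + (B 0 0 - 1)) := by
      field_simp; ring
    rw [e, map_mul, h3i, one_mul]
    exact Tr.av_add_lt w hA.h00 hB.h00
  · rw [Matrix.smul_apply, Matrix.add_apply, Matrix.add_apply, Matrix.one_apply_eq, smul_eq_mul]
    have e : (3 : F)⁻¹ * (1 + A 1 1 + B 1 1) - 1 = (3 : F)⁻¹ * ((A 1 1 - 1) + (B 1 1 - 1)) := by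
      field_simp; ring
    rw [e, map_mul, h3i, one_mul]
    exact Tr.av_add_lt w hA.h11 hB.h11
  · rw [Matrix.smul_apply, Matrix.add_apply, Matrix.add_apply,
      Matrix.one_apply_ne (show (0 : Fin 2) ≠ 1 by decide), smul_eq_mul, map_mul, h3i, one_mul,
      zero_add]
    exact (av_add_le w _ _).trans (max_le hA.h01 hB.h01)
  · rw [Matrix.smul_apply, Matrix.add_apply, Matrix.add_apply,
      Matrix.one_apply_ne (show (1 : Fin 2) ≠ 0 by decide), smul_eq_mul, map_mul, h3i, one_mul,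
      zero_add]
    exact (av_add_le w _ _).trans (max_le hA.h10 hB.h10)

/-- a matrix of this type with `s ≤ 1`, `t ≤ q ^ (-M)` lies in `HB w M` -/
theorem mem_HB {g : G2 F} {M : ℕ} (hA : UM w s t g.1) (hs : s ≤ 1) (ht : t < 1)
    (hM : t ≤ (qv w)⁻¹ ^ M) : g ∈ HB w M := by
  have hst : s * t < 1 := (mul_le_of_le_one_left hA.t_nonneg hs).trans_lt ht
  have hn : nm w g.1 = 1 := by
    apply le_antisymm
    · rw [nm_le_iff]
      intro i j
      fin_cases i <;> fin_cases j
      · exact hA.av00.le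
      · exact hA.h01.trans hs
      · exact hA.h10.trans ht.le
      · exact hA.av11.le
    · rw [← hA.av00]; exact av_le_nm w _ _ _
  have hg : g ∈ stdH w := intGL_le_stdH w (mem_intGL_of hn.le (av_det hst hA).ge)
  refine ⟨hg, ?_, ?_⟩
  · rw [hn]; exact hA.h10.trans_lt ht
  · rw [hn, one_mul]; exact hA.h10.trans hM

end UM

end

section

variable {K L : Type} [Field K] [NumberField K] [Field L] [NumberField L] [Algebra K L]
  {C : Cub K L} {v : Pl K} {w : Pl L} {z : K} {p : Lˣ} {s t : ℝ} {A : Matrix (Fin 2) (Fin 2) L}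

theorem UM.sig (h : RBD C v w z p) (hA : UM w s t A) : UM w s t (C.s A) where
  h00 := by
    rw [Cub.s_apply, ← map_one C.σ, ← map_sub, h.av_σ]; exact hA.h00
  h11 := by
    rw [Cub.s_apply, ← map_one C.σ, ← map_sub, h.av_σ]; exact hA.h11
  h01 := by rw [Cub.s_apply, h.av_σ]; exact hA.h01
  h10 := by rw [Cub.s_apply, h.av_σ]; exact hA.h10

/-- Hilbert 90 for cocycles which are unipotent modulo `w`: `x = Inc y · θ⁻¹`. -/
theorem UM.descent (h : RBD C v w z p) (hst : s * t < 1) {x : G2 L}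
    (hA : UM w s t (x⁻¹ * C.S x).1) :
    ∃ (y : G2 K) (θ : G2 L), UM w s t θ.1 ∧ x = Cub.Inc y * θ := by
  set k := x⁻¹ * C.S x with hk
  have hN : C.N k = 1 := by
    simp only [hk, Cub.N, map_mul, map_inv, C.S_cube]
    group
  have hsk : UM w s t (C.s k.1) := hA.sig h
  have hT : UM w s t ((3 : L)⁻¹ • (1 + k.1 + k.1 * C.s k.1)) :=
    UM.avg h.three hA (UM.mul hst hA hsk)
  set θ : G2 L := Matrix.GeneralLinearGroup.mkOfDetNeZero _ (UM.det_ne hst hT) with hθ
  have hθU : UM w s t θ.1 := hT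
  have hkθ : k * C.S θ = θ := by
    apply Units.ext
    rw [Units.val_mul, Cub.coe_S]
    change k.1 * C.s ((3 : L)⁻¹ • (1 + k.1 + k.1 * C.s k.1)) =
      (3 : L)⁻¹ • (1 + k.1 + k.1 * C.s k.1)
    have h3 : C.σ (3 : L)⁻¹ = (3 : L)⁻¹ := by
      rw [map_inv₀]
      congr 1
      exact map_ofNat _ 3
    have hN' : k.1 * C.s k.1 * C.s (C.s k.1) = 1 := by
      have := congrArg Units.val hN
      rwa [Cub.coe_N] at this
    rw [C.s_smul, h3, map_add, map_add, map_one, map_mul, Matrix.mul_smul, mul_add, mul_add,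
      mul_one, ← mul_assoc, hN']
    congr 1
    abel
  have hfix : C.S (x * θ) = x * θ := by
    rw [map_mul]
    have : C.S x = x * k := by rw [hk, mul_inv_cancel_left]
    rw [this, mul_assoc, hkθ]
  obtain ⟨Z, hZ⟩ := C.exists_inc (A := (x * θ).1) (by
    have := congrArg (fun g : GL (Fin 2) L => (g : Matrix (Fin 2) (Fin 2) L)) hfix
    simpa only [Cub.coe_S] using this)
  have hZdet : Z.det ≠ 0 := by
    intro hZ0
    have := Cub.det_inc (L := L) Z
    rw [hZ, hZ0, map_zero] at this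
    exact det_ne_zero' (x * θ) this
  refine ⟨Matrix.GeneralLinearGroup.mkOfDetNeZero Z hZdet, θ⁻¹, UM.inv hst hθU, ?_⟩
  have hInc : (Cub.Inc (Matrix.GeneralLinearGroup.mkOfDetNeZero Z hZdet) : G2 L) = x * θ :=
    Units.ext hZ
  rw [hInc, mul_inv_cancel_right]

end

end Fermat.LT.RB
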